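import Mathlib

/-!
# Integral q-series of level one and congruences for their coefficients
-/

set_option autoImplicit false

noncomputable section

open Finset
open scoped ArithmeticFunction.sigma PowerSeries

namespace FermatAgent.Period.Eis

open PowerSeries

/-- A constant divides a series iff it divides all coefficients. -/
lemma dvd_series_iff {m : ℤ} {P : ℤ⟦X⟧} :
    (m : ℤ⟦X⟧) ∣ P ↔ ∀ n, m ∣ coeff n P := by
  rw [← map_intCast (C : ℤ →+* ℤ⟦X⟧) m, Int.cast_id]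
  constructor
  · rintro ⟨Q, rfl⟩ n
    exact ⟨coeff n Q, by rw [coeff_C_mul]⟩
  · intro h
    choose q hq using h
    exact ⟨mk q, PowerSeries.ext fun n => by rw [coeff_C_mul, coeff_mk, hq n]⟩

/-- Coefficients of a multiple by an integer. -/
lemma coeff_intCast_mul (m : ℤ) (P : ℤ⟦X⟧) (n : ℕ) :
    coeff n ((m : ℤ⟦X⟧) * P) = m * coeff n P := by
  rw [← map_intCast (C : ℤ →+* ℤ⟦X⟧) m, Int.cast_id, coeff_C_mul]

/-- Coefficients of a multiple by a numeral. -/
lemma coeff_ofNat_mul (m : ℕ) [m.AtLeastTwo] (P : ℤ⟦X⟧) (n : ℕ) :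
    coeff n ((OfNat.ofNat m : ℤ⟦X⟧) * P) = (OfNat.ofNat m : ℤ) * coeff n P := by
  rw [← map_ofNat (C : ℤ →+* ℤ⟦X⟧) m, coeff_C_mul]

lemma sigma_five_sub_three (n : ℕ) : (24 : ℤ) ∣ (σ 5 n : ℤ) - (σ 3 n : ℤ) := by
  refine (ZMod.intCast_zmod_eq_zero_iff_dvd _ 24).mp ?_
  have h : ∀ x : ZMod 24, x ^ 5 = x ^ 3 := by decide
  simp only [ArithmeticFunction.sigma_apply, Int.cast_sub, Int.cast_natCast, Nat.cast_sum,
    Nat.cast_pow, Int.cast_sum, Int.cast_pow]
  rw [← Finset.sum_sub_distrib]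
  exact Finset.sum_eq_zero fun d _ => by rw [h, sub_self]

/-- `∑ σ₃(n) qⁿ`. -/
def bSer : ℤ⟦X⟧ := mk fun n => if n = 0 then 0 else (σ 3 n : ℤ)

/-- `∑ (σ₅(n) - σ₃(n))/24 qⁿ`. -/
def eSer : ℤ⟦X⟧ := mk fun n => if n = 0 then 0 else ((σ 5 n : ℤ) - (σ 3 n : ℤ)) / 24

/-- `∑ σ₅(n) qⁿ`. -/
def cSer : ℤ⟦X⟧ := bSer + 24 * eSer

/-- The coefficients `σ₅(n)`. -/
lemma coeff_cSer (n : ℕ) : coeff n cSer = if n = 0 then 0 else (σ 5 n : ℤ) := by
  rw [cSer, map_add, coeff_ofNat_mul, bSer, eSer, coeff_mk, coeff_mk]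
  split
  · simp
  · rw [Int.mul_ediv_cancel' (sigma_five_sub_three n)]
    ring

/-- The expansion of `E₄`. -/
def e4Ser : ℤ⟦X⟧ := 1 + 240 * bSer

/-- The expansion of `E₆`. -/
def e6Ser : ℤ⟦X⟧ := 1 - 504 * cSer

/-- `(5 ∑σ₃ + 7 ∑σ₅)/12`. -/
def linSer : ℤ⟦X⟧ := bSer + 14 * eSer

/-- The expansion of the discriminant. -/
def dSer : ℤ⟦X⟧ := linSer + 100 * bSer ^ 2 + 8000 * bSer ^ 3 - 147 * cSer ^ 2

/-- `1728 Δ = E₄³ - E₆²`. -/
lemma dSer_spec : 1728 * dSer = e4Ser ^ 3 - e6Ser ^ 2 := by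
  simp only [dSer, linSer, e4Ser, e6Ser, cSer]
  ring

/-- The series `(1 - 6E₄ + 8E₆ - 3E₄²)/256`. -/
def quartSer : ℤ⟦X⟧ := -27 * bSer - 378 * eSer - 675 * bSer ^ 2

/-- The divisor series of weight four has no constant term. -/
@[simp] lemma coeff_zero_bSer : coeff 0 bSer = 0 := by simp [bSer]
@[simp] lemma coeff_zero_eSer : coeff 0 eSer = 0 := by simp [eSer]
/-- The divisor series of weight four starts with `q`. -/
@[simp] lemma coeff_one_bSer : coeff 1 bSer = 1 := by simp [bSer]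
@[simp] lemma coeff_one_eSer : coeff 1 eSer = 0 := by simp [eSer]

/-- The square of a series without constant term has no linear term. -/
lemma coeff_one_sq {P : ℤ⟦X⟧} (h : coeff 0 P = 0) : coeff 1 (P ^ 2) = 0 := by
  rw [sq, coeff_mul, Finset.Nat.sum_antidiagonal_eq_sum_range_succ_mk]
  simp [Finset.sum_range_succ, h]

/-- The linear combination has no constant term. -/
lemma coeff_zero_linSer : coeff 0 linSer = 0 := by
  rw [linSer, map_add, coeff_ofNat_mul]; simp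

/-- The linear combination starts with `q`. -/
lemma coeff_one_linSer : coeff 1 linSer = 1 := by
  rw [linSer, map_add, coeff_ofNat_mul]; simp

/-- The quartic combination has no constant term. -/
lemma coeff_zero_quartSer : coeff 0 quartSer = 0 := by
  have h : constantCoeff bSer = 0 :=
    (coeff_zero_eq_constantCoeff_apply bSer).symm.trans coeff_zero_bSer
  have h' : constantCoeff eSer = 0 :=
    (coeff_zero_eq_constantCoeff_apply eSer).symm.trans coeff_zero_eSer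
  simp [quartSer, h, h']

/-- The linear coefficient of the quartic combination is `-27`. -/
lemma coeff_one_quartSer : coeff 1 quartSer = -27 := by
  rw [quartSer, neg_mul, map_sub, map_sub, map_neg, coeff_ofNat_mul, coeff_ofNat_mul,
    coeff_ofNat_mul, coeff_one_sq coeff_zero_bSer]
  simp

/-- `Δ` has no constant term. -/
lemma coeff_zero_dSer : coeff 0 dSer = 0 := by
  have h : constantCoeff bSer = 0 :=
    (coeff_zero_eq_constantCoeff_apply bSer).symm.trans coeff_zero_bSer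
  have h' : constantCoeff eSer = 0 :=
    (coeff_zero_eq_constantCoeff_apply eSer).symm.trans coeff_zero_eSer
  simp [dSer, linSer, cSer, h, h']

/-- `Δ` starts with `q`. -/
lemma coeff_one_dSer : coeff 1 dSer = 1 := by
  have h3 : coeff 1 (bSer ^ 3) = 0 := by
    rw [pow_succ, coeff_mul, Finset.Nat.sum_antidiagonal_eq_sum_range_succ_mk]
    simp [Finset.sum_range_succ, coeff_one_sq coeff_zero_bSer,
      (coeff_zero_eq_constantCoeff_apply bSer).symm.trans coeff_zero_bSer]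
  have hc : coeff 0 cSer = 0 := by rw [coeff_cSer, if_pos rfl]
  rw [dSer, map_sub, map_add, map_add, coeff_ofNat_mul, coeff_ofNat_mul, coeff_ofNat_mul,
    coeff_one_linSer, h3, coeff_one_sq coeff_zero_bSer, coeff_one_sq hc]
  simp

lemma three_dvd_coeff_cube (P : ℤ⟦X⟧) {n : ℕ} (hn : ¬ 3 ∣ n) : (3 : ℤ) ∣ coeff n (P ^ 3) := by
  obtain ⟨m, rfl⟩ : ∃ m, n = m + 1 := ⟨n - 1, by omega⟩
  have h1 : coeff m (d⁄dX ℤ (P ^ 3)) = coeff (m + 1) (P ^ 3) * (m + 1) := coeff_derivative _ _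
  rw [derivative_pow] at h1
  have h3 : (3 : ℤ) ∣ coeff m ((3 : ℤ⟦X⟧) * (P ^ 2 * d⁄dX ℤ P)) := by
    rw [coeff_ofNat_mul]; exact dvd_mul_right 3 _
  have h2 : (3 : ℤ) ∣ coeff (m + 1) (P ^ 3) * (m + 1) := by
    rw [← h1]
    simpa [mul_assoc] using h3
  rcases Int.prime_three.dvd_mul.mp h2 with h | h
  · exact h
  · exact absurd (by exact_mod_cast h) hn

section Tau

variable {p : ℕ} (hp : p.Prime) (hB : 120 * coeff p (bSer ^ 2) = (p : ℤ) ^ 7 - (p : ℤ) ^ 3)

include hp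

/-- The `p`-th coefficient is `1 + p³`. -/
lemma coeff_bSer_prime : coeff p bSer = 1 + (p : ℤ) ^ 3 := by
  rw [bSer, coeff_mk, if_neg hp.ne_zero]
  have h := ArithmeticFunction.sigma_apply_prime_pow (k := 3) (i := 1) hp
  rw [pow_one] at h
  simp [h, Finset.sum_range_succ]

/-- The `p`-th coefficient is `1 + p⁵`. -/
lemma coeff_cSer_prime : coeff p cSer = 1 + (p : ℤ) ^ 5 := by
  rw [coeff_cSer, if_neg hp.ne_zero]
  have h := ArithmeticFunction.sigma_apply_prime_pow (k := 5) (i := 1) hp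
  rw [pow_one] at h
  simp [h, Finset.sum_range_succ]

lemma twelve_mul_coeff_dSer :
    12 * coeff p dSer = 5 * (1 + (p : ℤ) ^ 3) + 7 * (1 + (p : ℤ) ^ 5) +
      1200 * coeff p (bSer ^ 2) + 96000 * coeff p (bSer ^ 3) - 1764 * coeff p (cSer ^ 2) := by
  have h : (12 : ℤ⟦X⟧) * dSer = 5 * bSer + 7 * cSer + 1200 * bSer ^ 2 + 96000 * bSer ^ 3 -
      1764 * cSer ^ 2 := by
    simp only [dSer, linSer, cSer]; ring
  have := congrArg (coeff p) h
  rw [map_sub, map_add, map_add, map_add, coeff_ofNat_mul, coeff_ofNat_mul, coeff_ofNat_mul,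
    coeff_ofNat_mul, coeff_ofNat_mul, coeff_ofNat_mul] at this
  rw [this, coeff_bSer_prime hp, coeff_cSer_prime hp]

include hB

/-- `3` does not divide `τ(p)` for `p ≡ 1 (mod 3)`. -/
lemma three_not_dvd_tau (h1 : p % 3 = 1) : ¬ (3 : ℤ) ∣ coeff p dSer := by
  intro h
  obtain ⟨t, ht⟩ := h
  obtain ⟨u, hu⟩ := three_dvd_coeff_cube bSer (n := p) (by omega)
  have e : (((5 * (1 + (p : ℤ) ^ 3) + 7 * (1 + (p : ℤ) ^ 5) + 10 * ((p : ℤ) ^ 7 - (p : ℤ) ^ 3)) :
      ℤ) : ZMod 36) = 0 := by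
    rw [ZMod.intCast_zmod_eq_zero_iff_dvd]
    refine ⟨t - 8000 * u + 49 * coeff p (cSer ^ 2), ?_⟩
    have := twelve_mul_coeff_dSer hp
    push_cast
    linear_combination -this + 12 * ht - 96000 * hu - 10 * hB
  push_cast at e
  have key : ∀ x : ZMod 36, x.val % 3 = 1 →
      5 * (1 + x ^ 3) + 7 * (1 + x ^ 5) + 10 * (x ^ 7 - x ^ 3) ≠ 0 := by decide
  refine key (p : ZMod 36) ?_ e
  rw [ZMod.val_natCast]
  omega

lemma tau_mod_eight :
    (((24 * coeff p dSer : ℤ)) : ZMod 64) =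
      24 - 11 * (p : ZMod 64) ^ 3 + 14 * (p : ZMod 64) ^ 5 + 21 * (p : ZMod 64) ^ 7 := by
  have hC : coeff p (cSer ^ 2) = coeff p (bSer ^ 2) +
      8 * coeff p (6 * bSer * eSer + 72 * eSer ^ 2) := by
    rw [← coeff_ofNat_mul, ← map_add]
    congr 1
    simp only [cSer]
    ring
  have := twelve_mul_coeff_dSer hp
  have e : ((24 * coeff p dSer - (24 - 11 * (p : ℤ) ^ 3 + 14 * (p : ℤ) ^ 5 + 21 * (p : ℤ) ^ 7) :
      ℤ) : ZMod 64) = 0 := by
    rw [ZMod.intCast_zmod_eq_zero_iff_dvd]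
    refine ⟨3000 * coeff p (bSer ^ 3) - 57 * coeff p (bSer ^ 2) -
      441 * coeff p (6 * bSer * eSer + 72 * eSer ^ 2), ?_⟩
    push_cast
    linear_combination 2 * this - 3528 * hC + 21 * hB
  push_cast at e ⊢
  exact sub_eq_zero.mp e

/-- `τ(p) ≡ 2 (mod 4)` for `p ≡ 1 (mod 4)`. -/
lemma tau_mod_four_eq_two (h1 : p % 4 = 1) : coeff p dSer % 4 = 2 := by
  have key : ∀ x : ZMod 64, x.val % 4 = 1 →
      24 - 11 * x ^ 3 + 14 * x ^ 5 + 21 * x ^ 7 = 16 ∨
      24 - 11 * x ^ 3 + 14 * x ^ 5 + 21 * x ^ 7 = 48 := by decide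
  have h := tau_mod_eight hp hB
  rcases key (p : ZMod 64) (by rw [ZMod.val_natCast]; omega) with h' | h' <;> rw [h'] at h
  · have := (ZMod.intCast_eq_intCast_iff' (24 * coeff p dSer) 16 64).mp (by simpa using h)
    omega
  · have := (ZMod.intCast_eq_intCast_iff' (24 * coeff p dSer) 48 64).mp (by simpa using h)
    omega

/-- `τ(p) ≡ 4 (mod 8)` for `p ≡ 3 (mod 8)`. -/
lemma tau_mod_eight_eq_four (h1 : p % 8 = 3) : coeff p dSer % 8 = 4 := by
  have key : ∀ x : ZMod 64, x.val % 8 = 3 →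
      24 - 11 * x ^ 3 + 14 * x ^ 5 + 21 * x ^ 7 = 32 := by decide
  have h := tau_mod_eight hp hB
  rw [key (p : ZMod 64) (by rw [ZMod.val_natCast]; omega)] at h
  have := (ZMod.intCast_eq_intCast_iff' (24 * coeff p dSer) 32 64).mp (by simpa using h)
  omega

end Tau

end FermatAgent.Period.Eis
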