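import Fermat.Agent.Period.ModFns
import Fermat.Agent.MF.LevelOne
import Fermat.Agent.Period.Eisenstein.Series

/-!
# Level one forms with integral coefficients: small weights and a Sturm bound modulo `ℓ`
-/

set_option autoImplicit false

noncomputable section

open scoped MatrixGroups ModularForm Manifold Topology Real PowerSeries ArithmeticFunction.sigma
open UpperHalfPlane hiding I
open Filter Function Complex Matrix.SpecialLinearGroup

namespace FermatAgent.Period.Eis

/-- The `q`-expansion with period `1`. -/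
abbrev qS (F : ℍ → ℂ) : ℂ⟦X⟧ := qExpansion 1 F

/-- Coefficientwise cast. -/
def toC : ℤ⟦X⟧ →+* ℂ⟦X⟧ := PowerSeries.map (Int.castRingHom ℂ)

/-- The coefficients of an integral series in `ℂ`. -/
@[simp] lemma coeff_toC (P : ℤ⟦X⟧) (n : ℕ) :
    (toC P).coeff n = ((P.coeff n : ℤ) : ℂ) := by simp [toC]

lemma toC_injective : Injective toC :=
  PowerSeries.map_injective _ Int.cast_injective

/-- Expansions multiply. -/
lemma qS_mul {F G : ℍ → ℂ} (hF : F ∈ MF.hPer) (hG : G ∈ MF.hPer) :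
    qS (F * G) = qS F * qS G :=
  qExpansion_mul (MF.analyticAt_cuspFunction_of_mem hF) (MF.analyticAt_cuspFunction_of_mem hG)

lemma qS_pow {F : ℍ → ℂ} (hF : F ∈ MF.hPer) : ∀ r : ℕ, qS (F ^ r) = qS F ^ r
  | 0 => by rw [pow_zero, pow_zero]; exact qExpansion_one 1
  | r + 1 => by rw [pow_succ, pow_succ, qS_mul (pow_mem hF r) hF, qS_pow hF r]

/-- Expansions subtract. -/
lemma qS_sub {F G : ℍ → ℂ} (hF : F ∈ MF.hPer) (hG : G ∈ MF.hPer) :
    qS (F - G) = qS F - qS G :=
  qExpansion_sub (MF.analyticAt_cuspFunction_of_mem hF) (MF.analyticAt_cuspFunction_of_mem hG)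

/-- Expansions add. -/
lemma qS_add {F G : ℍ → ℂ} (hF : F ∈ MF.hPer) (hG : G ∈ MF.hPer) :
    qS (F + G) = qS F + qS G :=
  qExpansion_add (MF.analyticAt_cuspFunction_of_mem hF) (MF.analyticAt_cuspFunction_of_mem hG)

/-- The expansion of zero is zero. -/
lemma qS_zero : qS (0 : ℍ → ℂ) = 0 := qExpansion_zero 1

/-- Expansions commute with scalars. -/
lemma qS_smul (c : ℂ) {F : ℍ → ℂ} (hF : F ∈ MF.hPer) : qS (c • F) = PowerSeries.C c * qS F := by
  rw [← PowerSeries.smul_eq_C_mul]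
  exact qExpansion_smul (MF.analyticAt_cuspFunction_of_mem hF) c

/-- The expansion of a constant. -/
lemma qS_const (c : ℂ) : qS (fun _ : ℍ => c) = PowerSeries.C c := by
  have h : (fun _ : ℍ => c) = c • (1 : ℍ → ℂ) := by funext z; simp
  rw [h, qS_smul c (one_mem MF.hPer), show qS (1 : ℍ → ℂ) = 1 from qExpansion_one 1, mul_one]

variable {w : ℤ} {G : ℍ → ℂ}

/-- Level one forms are periodic, holomorphic and bounded at infinity. -/
lemma mem_hPer_top (hG : G ∈ modFns ⊤ w) : G ∈ MF.hPer :=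
  MF.mem_hPer_of_modularForm (toLevelOne hG) one_mem_strictPeriods_SL

/-- The expansion of `E₄`. -/
lemma qS_e4 : qS e4 = toC e4Ser := by
  refine PowerSeries.ext fun n => ?_
  rw [coeff_toC, show (qS e4).coeff n = (qExpansion 1 ModularForm.E₄).coeff n from rfl,
    EisensteinSeries.E_qExpansion_coeff _ ⟨2, rfl⟩, e4Ser, map_add, coeff_ofNat_mul,
    PowerSeries.coeff_one, bSer, PowerSeries.coeff_mk]
  rcases eq_or_ne n 0 with rfl | hn
  · simp
  · simp [hn, show bernoulli 4 = -1 / 30 by decide +kernel]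
    ring

/-- The expansion of `E₆`. -/
lemma qS_e6 : qS e6 = toC e6Ser := by
  refine PowerSeries.ext fun n => ?_
  rw [coeff_toC, show (qS e6).coeff n = (qExpansion 1 ModularForm.E₆).coeff n from rfl,
    EisensteinSeries.E_qExpansion_coeff _ ⟨3, rfl⟩, e6Ser, map_sub, coeff_ofNat_mul,
    PowerSeries.coeff_one, coeff_cSer]
  rcases eq_or_ne n 0 with rfl | hn
  · simp
  · simp [hn, show bernoulli 6 = 1 / 42 by decide +kernel]
    ring

/-- The expansion of `Δ`. -/
lemma qS_dsc : qS dsc = toC dSer := by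
  have h4 := mem_hPer_top e4_mem
  have h6 := mem_hPer_top e6_mem
  have h : (1728 : ℂ) • dsc = e4 ^ 3 - e6 ^ 2 := by
    funext τ
    simp only [Pi.smul_apply, smul_eq_mul, Pi.sub_apply, Pi.pow_apply, dsc_eq]
    ring
  have h2 := congrArg qS h
  rw [qS_smul _ (mem_hPer_top dsc_mem), qS_sub (pow_mem h4 3) (pow_mem h6 2), qS_pow h4, qS_pow h6,
    qS_e4, qS_e6, ← map_pow, ← map_pow, ← map_sub, ← dSer_spec, map_mul, map_ofNat] at h2
  rw [map_ofNat] at h2
  exact mul_left_cancel₀ (by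
    rw [← map_ofNat (PowerSeries.C : ℂ →+* ℂ⟦X⟧)]
    exact (map_ne_zero_iff _ PowerSeries.C_injective).mpr (by norm_num)) h2

lemma qS_mono (a b : ℕ) : qS (e4 ^ a * e6 ^ b) = toC (e4Ser ^ a * e6Ser ^ b) := by
  rw [qS_mul (pow_mem (mem_hPer_top e4_mem) a) (pow_mem (mem_hPer_top e6_mem) b),
    qS_pow (mem_hPer_top e4_mem), qS_pow (mem_hPer_top e6_mem), qS_e4, qS_e6, map_mul, map_pow,
    map_pow]

/-- Monomials in `E₄` and `E₆` have constant term one. -/
lemma coeff_zero_mono (a b : ℕ) : (e4Ser ^ a * e6Ser ^ b).coeff 0 = 1 := by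
  have h4 : PowerSeries.constantCoeff e4Ser = 1 := by
    simp [e4Ser, bSer, PowerSeries.constantCoeff_mk]
  have h6 : PowerSeries.constantCoeff e6Ser = 1 := by
    simp [e6Ser, cSer, bSer, eSer, PowerSeries.constantCoeff_mk]
  rw [PowerSeries.coeff_zero_eq_constantCoeff_apply, map_mul, map_pow, map_pow, h4, h6]
  simp

/-- A level one form vanishing at infinity is a multiple of the discriminant. -/
lemma exists_div_dsc (hG : G ∈ modFns ⊤ w) (h0 : (qS G).coeff 0 = 0) :
    ∃ Q ∈ modFns ⊤ (w - 12), G = dsc * Q := by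
  let q := CuspForm.discriminantEquiv (ModularForm.toCuspForm (toLevelOne hG) h0)
  refine ⟨⇑q, mem_modFns_top_of_modularForm q, funext fun τ => ?_⟩
  rw [Pi.mul_apply, show dsc τ * q τ = ModularForm.discriminant τ * q τ from rfl,
    ModularForm.discriminant_mul_discriminantEquiv_apply]
  rfl

/-- There are no forms of weight two and level one. -/
lemma eq_zero_of_weight_two (hG : G ∈ modFns ⊤ (2 : ℤ)) : G = 0 :=
  congrArg DFunLike.coe
    (rank_zero_iff_forall_zero.mp ModularForm.levelOne_weight_two_rank_zero (toLevelOne hG))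

lemma eq_zero_of_coeff_zero (hz : ∀ Q ∈ modFns ⊤ (w - 12), Q = (0 : ℍ → ℂ))
    (hG : G ∈ modFns ⊤ w) (h0 : (qS G).coeff 0 = 0) : G = 0 := by
  obtain ⟨Q, hQ, rfl⟩ := exists_div_dsc hG h0
  rw [hz Q hQ, mul_zero]

lemma qS_eq_of_small (hz : ∀ Q ∈ modFns ⊤ (w - 12), Q = (0 : ℍ → ℂ)) {a b : ℕ}
    (hab : (4 * a + 6 * b : ℤ) = w) (hG : G ∈ modFns ⊤ w) :
    qS G = PowerSeries.C ((qS G).coeff 0) * toC (e4Ser ^ a * e6Ser ^ b) := by
  set c := (qS G).coeff 0
  have hm : e4 ^ a * e6 ^ b ∈ modFns ⊤ w := hab ▸ mono_mem a b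
  have hd : G - c • (e4 ^ a * e6 ^ b) ∈ modFns ⊤ w := sub_mem hG (Submodule.smul_mem _ _ hm)
  have hq : qS (G - c • (e4 ^ a * e6 ^ b)) =
      qS G - PowerSeries.C c * toC (e4Ser ^ a * e6Ser ^ b) := by
    rw [qS_sub (mem_hPer_top hG) (mem_hPer_top (Submodule.smul_mem _ c hm)),
      qS_smul _ (mem_hPer_top hm), qS_mono]
  have h := eq_zero_of_coeff_zero hz hd (by
    rw [hq, map_sub, PowerSeries.coeff_C_mul, coeff_toC, coeff_zero_mono, Int.cast_one, mul_one,
      sub_self])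
  rw [h, qS_zero] at hq
  exact sub_eq_zero.mp hq.symm

/-- Forms of weight four are multiples of `E₄`. -/
lemma qS_weight_four (hG : G ∈ modFns ⊤ (4 : ℤ)) :
    qS G = PowerSeries.C ((qS G).coeff 0) * toC e4Ser := by
  have h := qS_eq_of_small (a := 1) (b := 0)
    (fun Q hQ => eq_zero_of_neg_weight hQ (by norm_num)) (by norm_num) hG
  simpa using h

/-- Forms of weight six are multiples of `E₆`. -/
lemma qS_weight_six (hG : G ∈ modFns ⊤ (6 : ℤ)) :
    qS G = PowerSeries.C ((qS G).coeff 0) * toC e6Ser := by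
  have h := qS_eq_of_small (a := 0) (b := 1)
    (fun Q hQ => eq_zero_of_neg_weight hQ (by norm_num)) (by norm_num) hG
  simpa using h

/-- Forms of weight eight are multiples of `E₄²`. -/
lemma qS_weight_eight (hG : G ∈ modFns ⊤ (8 : ℤ)) :
    qS G = PowerSeries.C ((qS G).coeff 0) * toC (e4Ser ^ 2) := by
  have h := qS_eq_of_small (a := 2) (b := 0)
    (fun Q hQ => eq_zero_of_neg_weight hQ (by norm_num)) (by norm_num) hG
  simpa using h

/-- There are no cusp forms of weight fourteen. -/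
lemma qS_weight_fourteen (hG : G ∈ modFns ⊤ (14 : ℤ)) (h0 : (qS G).coeff 0 = 0) : qS G = 0 := by
  rw [eq_zero_of_coeff_zero (fun Q hQ => eq_zero_of_weight_two (by simpa using hQ)) hG h0, qS_zero]

/-- The coefficient at a prime of the square of the divisor series. -/
lemma bSer_sq_prime {p : ℕ} (hp : p.Prime) :
    120 * (bSer ^ 2).coeff p = (p : ℤ) ^ 7 - (p : ℤ) ^ 3 := by
  set E8 := ModularForm.E (k := 8) (by norm_num)
  have hmem : ⇑E8 ∈ modFns ⊤ (8 : ℤ) := mem_modFns_top_of_modularForm E8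
  have h := congrArg (PowerSeries.coeff p) (qS_weight_eight hmem)
  rw [PowerSeries.coeff_C_mul, coeff_toC,
    show (qS ⇑E8).coeff p = (qExpansion 1 E8).coeff p from rfl,
    show (qS ⇑E8).coeff 0 = (qExpansion 1 E8).coeff 0 from rfl,
    EisensteinSeries.E_qExpansion_coeff _ ⟨4, rfl⟩, EisensteinSeries.E_qExpansion_coeff _ ⟨4, rfl⟩,
    if_neg hp.ne_zero, if_pos rfl, one_mul] at h
  have e : e4Ser ^ 2 = 1 + 480 * bSer + 57600 * bSer ^ 2 := by rw [e4Ser]; ring
  rw [e, map_add, map_add, coeff_ofNat_mul, coeff_ofNat_mul, PowerSeries.coeff_one,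
    if_neg hp.ne_zero, coeff_bSer_prime hp] at h
  have h7 := ArithmeticFunction.sigma_apply_prime_pow (k := 7) (i := 1) hp
  rw [pow_one] at h7
  norm_num [show bernoulli 8 = -1 / 30 by decide +kernel, h7, Finset.sum_range_succ] at h
  have : (120 : ℂ) * ((bSer ^ 2).coeff p : ℤ) = (p : ℂ) ^ 7 - (p : ℂ) ^ 3 := by
    linear_combination (-(1 : ℂ) / 480) * h
  exact_mod_cast this

lemma qS_levelOne_zero {g : ℤ⟦X⟧} (hG : G = 0) (hg : qS G = toC g) : g = 0 := by
  apply toC_injective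
  rw [← hg, hG, qS_zero, map_zero]

/-- Sturm's bound modulo a prime for level one forms with integral coefficients. -/
theorem sturm_mod {ℓ : ℤ} (w : ℕ) {G : ℍ → ℂ} (hG : G ∈ modFns ⊤ (w : ℤ)) {g : ℤ⟦X⟧}
    (hg : qS G = toC g) (h : ∀ n ≤ w / 12, ℓ ∣ g.coeff n) (n : ℕ) : ℓ ∣ g.coeff n := by
  induction w using Nat.strong_induction_on generalizing G g n with
  | _ w ih =>
  rcases Nat.even_or_odd w with hev | hodd
  swap
  · simp [qS_levelOne_zero (eq_zero_of_odd_weight (Subgroup.mem_top _) hG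
      (by exact_mod_cast hodd)) hg]
  rcases eq_or_ne w 2 with rfl | hw2
  · simp [qS_levelOne_zero (eq_zero_of_weight_two (by simpa using hG)) hg]
  obtain ⟨a, b, hab⟩ : ∃ a b : ℕ, 4 * a + 6 * b = w := by
    rcases eq_or_ne w 0 with rfl | hw0
    · exact ⟨0, 0, rfl⟩
    · exact exists_mono w (by obtain ⟨m, rfl⟩ := hev; omega) hev
  set m := e4Ser ^ a * e6Ser ^ b with hm_def
  set g0 := g.coeff 0 with hg0
  have hm : e4 ^ a * e6 ^ b ∈ modFns ⊤ (w : ℤ) := by
    have := mono_mem a b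
    rwa [show (4 * (a : ℤ) + 6 * b) = (w : ℤ) by exact_mod_cast hab] at this
  have hd : G - (g0 : ℂ) • (e4 ^ a * e6 ^ b) ∈ modFns ⊤ (w : ℤ) :=
    sub_mem hG (Submodule.smul_mem _ _ hm)
  set g' := g - (g0 : ℤ⟦X⟧) * m with hg'def
  have hg' : qS (G - (g0 : ℂ) • (e4 ^ a * e6 ^ b)) = toC g' := by
    rw [qS_sub (mem_hPer_top hG) (mem_hPer_top (Submodule.smul_mem _ _ hm)),
      qS_smul _ (mem_hPer_top hm), qS_mono, hg, hg'def, map_sub, map_mul toC (g0 : ℤ⟦X⟧) m,
      map_intCast, map_intCast, hm_def]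
  have hg'0 : g'.coeff 0 = 0 := by
    rw [hg'def, map_sub, coeff_intCast_mul, coeff_zero_mono, mul_one, ← hg0, sub_self]
  have key : ∀ k, ℓ ∣ g'.coeff k := by
    rcases lt_or_ge w 12 with hw | hw
    · have h0 := eq_zero_of_coeff_zero (fun Q hQ => eq_zero_of_neg_weight hQ (by omega)) hd
        (by rw [hg', coeff_toC, hg'0, Int.cast_zero])
      simp [qS_levelOne_zero h0 hg']
    obtain ⟨Q, hQ, hQeq⟩ := exists_div_dsc hd (by rw [hg', coeff_toC, hg'0, Int.cast_zero])
    obtain ⟨g'', hg''⟩ : PowerSeries.X ∣ g' :=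
      PowerSeries.X_dvd_iff.mpr
        (by rw [← PowerSeries.coeff_zero_eq_constantCoeff_apply]; exact hg'0)
    obtain ⟨d1, hd1⟩ : PowerSeries.X ∣ dSer :=
      PowerSeries.X_dvd_iff.mpr
        (by rw [← PowerSeries.coeff_zero_eq_constantCoeff_apply]; exact coeff_zero_dSer)
    have hd10 : PowerSeries.constantCoeff d1 = 1 := by
      have := coeff_one_dSer
      rwa [hd1, PowerSeries.coeff_succ_X_mul, PowerSeries.coeff_zero_eq_constantCoeff_apply] at this
    set u := d1.invOfUnit 1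
    have hu : d1 * u = 1 := PowerSeries.mul_invOfUnit d1 1 (by rw [hd10]; rfl)
    have hgx : g' = dSer * (g'' * u) := by
      rw [hd1, hg'']
      linear_combination (-(PowerSeries.X * g'')) * hu
    have hQ12 : Q ∈ modFns ⊤ (((w - 12 : ℕ) : ℕ) : ℤ) := by
      rwa [Nat.cast_sub hw]
    have hQx : qS Q = toC (g'' * u) := by
      have h1 := hg'
      rw [hQeq, qS_mul (mem_hPer_top dsc_mem) (mem_hPer_top hQ), qS_dsc, hgx, map_mul] at h1
      refine mul_left_cancel₀ ?_ h1
      refine (map_ne_zero_iff _ toC_injective).mpr fun h0 => ?_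
      simpa [h0] using coeff_one_dSer
    have hsmall : ∀ k ≤ (w - 12) / 12, ℓ ∣ (g'' * u).coeff k := fun k hk => by
      rw [PowerSeries.coeff_mul]
      refine Finset.dvd_sum fun ij hij => dvd_mul_of_dvd_left ?_ _
      have hij' : ij.1 ≤ k := by
        have := Finset.HasAntidiagonal.mem_antidiagonal.mp hij; omega
      have e : g''.coeff ij.1 = g'.coeff (ij.1 + 1) := by
        rw [hg'', PowerSeries.coeff_succ_X_mul]
      rw [e, hg'def, map_sub, coeff_intCast_mul]
      exact dvd_sub (h _ (by omega)) (dvd_mul_of_dvd_left (h 0 (Nat.zero_le _)) _)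
    intro k
    rw [hgx, PowerSeries.coeff_mul]
    exact Finset.dvd_sum fun ij _ =>
      dvd_mul_of_dvd_right (ih (w - 12) (by omega) hQ12 hQx hsmall _) _
  have h2 := key n
  rw [hg'def, map_sub, coeff_intCast_mul] at h2
  exact (dvd_sub_left (dvd_mul_of_dvd_left (h 0 (Nat.zero_le _)) _)).mp h2

end FermatAgent.Period.Eis
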