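import Fermat.Agent.Period.Cycles

/-!
# Lifting parabolic homomorphisms modulo `n` to integral ones

If `-1 ∈ Γ` and the space of complex parabolic homomorphisms of `Γ` has the largest dimension
allowed by the cocycle count, then every parabolic homomorphism to `ℤ/n` vanishing on the elliptic
elements is the reduction of an integral parabolic homomorphism.
-/

set_option autoImplicit false

noncomputable section

open scoped MatrixGroups Classical
open ModularGroup MulAction
open ModularCurve.Period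

namespace FermatAgent.Period

variable {Γ : Subgroup SL(2, ℤ)} [Γ.FiniteIndex]

section OrbitSum

variable {A : Type*} [AddCommGroup A]

/-- Sums over the cusp orbits. -/
def orbitSum (f : Cosets Γ → A) (o : CuspSet Γ) : A :=
  ∑ x : Cosets Γ, if cuspOf Γ x = o then f x else 0

lemma orbitSum_sub (f g : Cosets Γ → A) (o : CuspSet Γ) :
    orbitSum (f - g) o = orbitSum f o - orbitSum g o := by
  simp only [orbitSum, Pi.sub_apply, ← Finset.sum_sub_distrib]
  exact Finset.sum_congr rfl fun x _ => by split <;> simp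

lemma orbitSum_comp_T (f : Cosets Γ → A) (o : CuspSet Γ) :
    orbitSum (fun x => f ((T : SL(2, ℤ)) • x)) o = orbitSum f o := by
  refine Fintype.sum_equiv (MulAction.toPerm (T : SL(2, ℤ))) _ _ fun x => ?_
  simp only [MulAction.toPerm_apply, cuspOf_T_smul]

lemma map_orbitSum {B : Type*} [AddCommGroup B] (φ : A →+ B) (f : Cosets Γ → A) (o : CuspSet Γ) :
    φ (orbitSum f o) = orbitSum (fun x => φ (f x)) o := by
  simp only [orbitSum, map_sum]
  exact Finset.sum_congr rfl fun x _ => by split <;> simp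

lemma sum_orbitSum [Fintype (CuspSet Γ)] (f : Cosets Γ → A) :
    ∑ o, orbitSum f o = ∑ x, f x := by
  simp only [orbitSum]
  rw [Finset.sum_comm]
  exact Finset.sum_congr rfl fun x _ => by simp

lemma orbitSum_eq_cyc (f : Cosets Γ → A) (o : CuspSet Γ) :
    orbitSum f o = ∑ r ∈ Finset.range (cuspWidth o), f ((T : SL(2, ℤ)) ^ r • cuspRep o) := by
  have : Fintype (CuspSet Γ) := Fintype.ofFinite _
  rw [orbitSum, ← (cycEquiv (Γ := Γ)).sum_comp, Fintype.sum_sigma, Finset.sum_eq_single o]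
  · rw [← Fin.sum_univ_eq_sum_range (fun r => f ((T : SL(2, ℤ)) ^ r • cuspRep o))]
    refine Finset.sum_congr rfl fun r _ => ?_
    have e : cycEquiv (Γ := Γ) ⟨o, r⟩ = (T : SL(2, ℤ)) ^ (r : ℕ) • cuspRep o := rfl
    rw [e, if_pos]
    exact (cuspOf_eq_iff.mpr ⟨((r : ℕ) : ℤ), by rw [zpow_natCast]⟩).trans (cuspOf_cuspRep o)
  · intro o' _ ho'
    refine Finset.sum_eq_zero fun r _ => if_neg fun h => ho' ?_
    have e : cycEquiv (Γ := Γ) ⟨o', r⟩ = (T : SL(2, ℤ)) ^ (r : ℕ) • cuspRep o' := rfl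
    rw [e] at h
    exact ((cuspOf_eq_iff.mpr ⟨((r : ℕ) : ℤ), by rw [zpow_natCast]⟩).trans
      (cuspOf_cuspRep o')).symm.trans h
  · intro h; exact absurd (Finset.mem_univ o) h

lemma orbitSum_cocycleOf_T {φ : Additive Γ →+ A} (hφ : IsParabolicHom Γ φ) (o : CuspSet Γ) :
    orbitSum (cocycleOf φ (T : SL(2, ℤ))) o = 0 := by
  rw [orbitSum_eq_cyc, ← cocycleOf_T_pow,
    cocycleOf_T_pow_eq_zero hφ _ _ (T_pow_cuspWidth_smul o)]

end OrbitSum

/-- Functions on the cusps with sum zero come from antisymmetric functions. -/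
lemma exists_antisymm_orbitSum [Fintype (CuspSet Γ)]
    (f : CuspSet Γ → ℤ) (hf : ∑ o, f o = 0) :
    ∃ g : Cosets Γ → ℤ, ∀ o,
      orbitSum g o - orbitSum (fun x => g ((S : SL(2, ℤ)) • x)) o = f o := by
  let L : (Cosets Γ → ℤ) →+ (CuspSet Γ → ℤ) :=
    AddMonoidHom.mk' (fun g o => orbitSum g o - orbitSum (fun x => g ((S : SL(2, ℤ)) • x)) o)
      (fun g h => by
        funext o
        have e : ∀ u w : Cosets Γ → ℤ, orbitSum (u + w) o = orbitSum u o + orbitSum w o :=
          fun u w => by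
            simp only [orbitSum, Pi.add_apply, ← Finset.sum_add_distrib]
            exact Finset.sum_congr rfl fun x _ => by split <;> simp
        simp only [Pi.add_apply]
        rw [e, show (fun x => g ((S : SL(2, ℤ)) • x) + h ((S : SL(2, ℤ)) • x)) =
          (fun x => g ((S : SL(2, ℤ)) • x)) + fun x => h ((S : SL(2, ℤ)) • x) from rfl, e]
        ring)
  suffices hmem : f ∈ L.range by
    obtain ⟨g, hg⟩ := hmem
    exact ⟨g, fun o => congrFun hg o⟩
  let q := QuotientAddGroup.mk' L.range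
  let v : Cosets Γ → (CuspSet Γ → ℤ) ⧸ L.range := fun x => q (Pi.single (cuspOf Γ x) 1)
  have hsingle : ∀ x : Cosets Γ, orbitSum (Pi.single x (1 : ℤ)) = Pi.single (cuspOf Γ x) 1 := by
    intro x
    funext o
    rw [orbitSum, Finset.sum_eq_single x]
    · simp [Pi.single_apply, eq_comm]
    · intro b _ hb; simp [hb]
    · intro h; exact absurd (Finset.mem_univ x) h
  have hS : ∀ x, v ((S : SL(2, ℤ)) • x) = v x := by
    intro x
    refine (QuotientAddGroup.eq_iff_sub_mem.mpr ⟨Pi.single ((S : SL(2, ℤ)) • x) 1, ?_⟩)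
    have e : (fun y => (Pi.single ((S : SL(2, ℤ)) • x) (1 : ℤ) : Cosets Γ → ℤ)
        ((S : SL(2, ℤ)) • y)) = Pi.single x 1 := by
      funext y
      simp [Pi.single_apply]
    funext o
    change orbitSum (Pi.single ((S : SL(2, ℤ)) • x) (1 : ℤ)) o -
      orbitSum (fun y => (Pi.single ((S : SL(2, ℤ)) • x) (1 : ℤ) : Cosets Γ → ℤ)
        ((S : SL(2, ℤ)) • y)) o = _
    rw [e, hsingle, hsingle]
    rfl
  have hU : ∀ x, v (ellThree • x) = v x := by
    intro x
    rw [ellThree, mul_smul, hS]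
    simp only [v, cuspOf_T_smul]
  have hconst := const_of_invariant v hS hU
  obtain ⟨x0⟩ : Nonempty (Cosets Γ) := ⟨QuotientGroup.mk 1⟩
  rw [← QuotientAddGroup.eq_zero_iff]
  change q f = 0
  rw [show f = ∑ o, f o • (Pi.single o (1 : ℤ) : CuspSet Γ → ℤ) from by
    funext o; simp [Pi.single_apply], map_sum]
  rw [show ∑ o, q (f o • (Pi.single o (1 : ℤ) : CuspSet Γ → ℤ)) = ∑ o, f o • v x0 from
    Finset.sum_congr rfl fun o _ => by
      obtain ⟨x, rfl⟩ := cuspOf_surjective o
      rw [map_zsmul, hconst x0 x], ← Finset.sum_smul, hf, zero_smul]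

variable {n : ℕ} [NeZero n]

/-- An antisymmetric integral lift. -/
lemma exists_lift_two (hneg : (-1 : SL(2, ℤ)) ∈ Γ) (a0 : Cosets Γ → ZMod n)
    (h : ∀ x, a0 x + a0 ((S : SL(2, ℤ)) • x) = 0)
    (hfix : ∀ x, (S : SL(2, ℤ)) • x = x → a0 x = 0) :
    ∃ a : Cosets Γ → ℤ,
      (∀ x, a x + a ((S : SL(2, ℤ)) • x) = 0) ∧ ∀ x, (a x : ZMod n) = a0 x := by
  let e := Fintype.equivFin (Cosets Γ)
  refine ⟨fun x => if e x < e ((S : SL(2, ℤ)) • x) then ((a0 x).val : ℤ) else
    if e ((S : SL(2, ℤ)) • x) < e x then -((a0 ((S : SL(2, ℤ)) • x)).val : ℤ) else 0,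
    fun x => ?_, fun x => ?_⟩
  · simp only [S_smul_S_smul hneg]
    rcases lt_trichotomy (e x) (e ((S : SL(2, ℤ)) • x)) with hlt | heq | hgt
    · simp [hlt, not_lt.mpr hlt.le]
    · simp [heq]
    · simp [hgt, not_lt.mpr hgt.le]
  · rcases lt_trichotomy (e x) (e ((S : SL(2, ℤ)) • x)) with hlt | heq | hgt
    · simp [hlt]
    · simp [heq, hfix x (e.injective heq).symm]
    · simp only [not_lt.mpr hgt.le, if_false, hgt, if_true, Int.cast_neg, Int.cast_natCast,
        ZMod.natCast_zmod_val]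
      exact neg_eq_of_add_eq_zero_left (h x)

/-- An integral lift killed by `1 + U + U²`. -/
lemma exists_lift_three (hneg : (-1 : SL(2, ℤ)) ∈ Γ) (b0 : Cosets Γ → ZMod n)
    (h : ∀ x, b0 x + b0 (ellThree • x) + b0 (ellThree • ellThree • x) = 0)
    (hfix : ∀ x, ellThree • x = x → b0 x = 0) :
    ∃ b : Cosets Γ → ℤ,
      (∀ x, b x + b (ellThree • x) + b (ellThree • ellThree • x) = 0) ∧
        ∀ x, (b x : ZMod n) = b0 x := by
  let e : Cosets Γ → ℕ := fun x => (Fintype.equivFin (Cosets Γ) x : ℕ)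
  have he : Function.Injective e := fun x y hxy =>
    (Fintype.equivFin (Cosets Γ)).injective (Fin.ext hxy)
  refine ⟨fun x => if ellThree • x = x then 0 else
    if e (ellThree • x) < e x ∧ e (ellThree • ellThree • x) < e x then
      -(((b0 (ellThree • x)).val : ℤ) + ((b0 (ellThree • ellThree • x)).val : ℤ))
    else ((b0 x).val : ℤ), fun x => ?_, fun x => ?_⟩
  · simp only [ellThree_smul_cube hneg]
    by_cases hx : ellThree • x = x
    · simp [hx]
    have h1 : ellThree • ellThree • x ≠ ellThree • x := fun h' => hx (smul_left_cancel _ h')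
    have h2 : ellThree • ellThree • x ≠ x := fun h' => hx ((ellThree_sq_fix_iff hneg x).mp h')
    simp only [if_neg hx, if_neg h1, if_neg h2.symm]
    have n1 : e (ellThree • x) ≠ e x := fun h' => hx (he h')
    have n2 : e (ellThree • ellThree • x) ≠ e (ellThree • x) := fun h' => h1 (he h')
    have n3 : e (ellThree • ellThree • x) ≠ e x := fun h' => h2 (he h')
    split_ifs <;> omega
  · by_cases hx : ellThree • x = x
    · simp [hx, hfix x hx]
    simp only [if_neg hx]
    split_ifs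
    · simp only [Int.cast_neg, Int.cast_add, Int.cast_natCast, ZMod.natCast_zmod_val]
      refine neg_eq_of_add_eq_zero_left ?_
      rw [← add_assoc]; exact h x
    · simp

/-- An injective map into a space of at most the same dimension is surjective. -/
lemma surjective_of_injective_of_finrank {K V W : Type*} [Field K] [AddCommGroup V] [Module K V]
    [AddCommGroup W] [Module K W] [FiniteDimensional K W] (f : V →ₗ[K] W)
    (hf : Function.Injective f) (h : Module.finrank K W ≤ Module.finrank K V) :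
    Function.Surjective f := by
  have h1 : Module.finrank K (LinearMap.range f) = Module.finrank K W :=
    le_antisymm (Submodule.finrank_le _) (by rw [LinearMap.finrank_range_of_inj hf]; exact h)
  exact LinearMap.range_eq_top.mp (Submodule.eq_top_of_finrank_eq h1)

/-- Surjectivity of the cocycle parametrisation when the bound is sharp. -/
lemma twistedPair_surjective (K : Type*) [Field K] [CharZero K] (hneg : (-1 : SL(2, ℤ)) ∈ Γ)
    (hdim : 6 * Module.finrank K (parabolicHoms K Γ K) + 3 * fixTwo Γ + 4 * fixThree Γ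
      + 6 * Nat.card (CuspSet Γ) = Γ.index + 12) :
    Function.Surjective (twistedPair (Γ := Γ) K hneg) := by
  have := (parabolicHoms_bound (Γ := Γ) K hneg).1
  refine surjective_of_injective_of_finrank (V := parabolicHoms K Γ K × baseKer Γ K)
    (W := LinearMap.ker (cocycleDefect Γ K)) (twistedPair (Γ := Γ) K hneg)
    (twistedPair_injective (Γ := Γ) K hneg) ?_
  rw [Module.finrank_prod]
  have hW := finrank_baseKer (Γ := Γ) K
  have h2 := LinearMap.finrank_range_add_finrank_ker (cocycleDefect Γ K)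
  rw [Module.finrank_prod] at h2
  have h3 := card_cuspSet_le K hneg
  have h4 := two_mul_finrank_minusTwo K hneg
  have h5 := three_mul_finrank_minusThree K hneg
  omega

omit [NeZero n] in
/-- Modulo `n`, the values of a parabolic cocycle at `U` and at `S` have the same cusp sums. -/
private lemma orbitSum_cocycle_ellThree {ψ : Additive Γ →+ ZMod n} (hψ : IsParabolicHom Γ ψ)
    (o : CuspSet Γ) :
    orbitSum (cocycleOf ψ ellThree) o = orbitSum (cocycleOf ψ S) o := by
  have hψT : ∀ x, cocycleOf ψ ellThree x =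
      cocycleOf ψ S ((T : SL(2, ℤ)) • x) + cocycleOf ψ T x := fun x => cocycleOf_mul ψ S T x
  rw [← sub_eq_zero, ← orbitSum_comp_T (cocycleOf ψ S) o, ← orbitSum_sub,
    show ((cocycleOf ψ ellThree) - fun x => cocycleOf ψ S ((T : SL(2, ℤ)) • x)) =
      cocycleOf ψ T from funext fun x => by rw [Pi.sub_apply, hψT, add_sub_cancel_left],
    orbitSum_cocycleOf_T hψ]

/-- A function killed by `1 + S` and a function killed by `1 + U + U²` both have total sum zero,
so the total of their cusp sum differences vanishes. -/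
private lemma sum_orbitSum_sub_eq_zero [Fintype (CuspSet Γ)] {a b : Cosets Γ → ℤ}
    (ha : ∀ x, a x + a ((S : SL(2, ℤ)) • x) = 0)
    (hb : ∀ x, b x + b (ellThree • x) + b (ellThree • ellThree • x) = 0) :
    ∑ o, (orbitSum b o - orbitSum a o) = 0 := by
  rw [Finset.sum_sub_distrib, sum_orbitSum, sum_orbitSum]
  have eA : ∑ x, (a x + a ((S : SL(2, ℤ)) • x)) = 0 := Finset.sum_eq_zero fun x _ => ha x
  have eB : ∑ x, (b x + b (ellThree • x) + b (ellThree • ellThree • x)) = 0 :=
    Finset.sum_eq_zero fun x _ => hb x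
  have p1 : ∀ (g : SL(2, ℤ)) (u : Cosets Γ → ℤ), ∑ x, u (g • x) = ∑ x, u x := fun g u =>
    Equiv.sum_comp (MulAction.toPerm g) u
  rw [Finset.sum_add_distrib, p1] at eA
  rw [Finset.sum_add_distrib, Finset.sum_add_distrib,
    show ∑ x : Cosets Γ, b (ellThree • ellThree • x) = ∑ x, b (ellThree • x) from
      p1 ellThree (fun y => b (ellThree • y)), p1] at eB
  omega

/-- The lift at `S` can be corrected by a multiple of `n` so that its cusp sums become those of
the lift at `U`. -/
private lemma exists_balanced_lift (hneg : (-1 : SL(2, ℤ)) ∈ Γ) {ψ : Additive Γ →+ ZMod n}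
    (hψ : IsParabolicHom Γ ψ) {a b : Cosets Γ → ℤ}
    (ha : ∀ x, a x + a ((S : SL(2, ℤ)) • x) = 0) (ha0 : ∀ x, (a x : ZMod n) = cocycleOf ψ S x)
    (hb : ∀ x, b x + b (ellThree • x) + b (ellThree • ellThree • x) = 0)
    (hb0 : ∀ x, (b x : ZMod n) = cocycleOf ψ ellThree x) :
    ∃ a' : Cosets Γ → ℤ, (∀ x, a' x + a' ((S : SL(2, ℤ)) • x) = 0) ∧
      (∀ x, (a' x : ZMod n) = cocycleOf ψ S x) ∧ ∀ o, orbitSum b o = orbitSum a' o := by
  have : Fintype (CuspSet Γ) := Fintype.ofFinite _
  -- the defect is divisible by `n`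
  have hd : ∀ o, (n : ℤ) ∣ orbitSum b o - orbitSum a o := fun o => by
    rw [← ZMod.intCast_zmod_eq_zero_iff_dvd, Int.cast_sub,
      show ((orbitSum b o : ℤ) : ZMod n) = orbitSum (cocycleOf ψ ellThree) o from
        (map_orbitSum (Int.castAddHom (ZMod n)) b o).trans (by simp [hb0]),
      show ((orbitSum a o : ℤ) : ZMod n) = orbitSum (cocycleOf ψ S) o from
        (map_orbitSum (Int.castAddHom (ZMod n)) a o).trans (by simp [ha0]),
      orbitSum_cocycle_ellThree hψ, sub_self]
  choose f hf using hd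
  have hsum : ∑ o, f o = 0 := by
    have e1 := sum_orbitSum_sub_eq_zero ha hb
    rw [Finset.sum_congr rfl fun o _ => hf o, ← Finset.mul_sum] at e1
    exact (mul_eq_zero.mp e1).resolve_left (Int.natCast_ne_zero.mpr (NeZero.ne n))
  obtain ⟨g, hg⟩ := exists_antisymm_orbitSum (fun o => -f o) (by
    rw [Finset.sum_neg_distrib, hsum, neg_zero])
  refine ⟨fun x => a x - (n : ℤ) * (g x - g ((S : SL(2, ℤ)) • x)), fun x => ?_,
    fun x => by simp [ha0], fun o => ?_⟩
  · simp only [S_smul_S_smul hneg]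
    linear_combination ha x
  · have e : orbitSum (fun x => a x - (n : ℤ) * (g x - g ((S : SL(2, ℤ)) • x))) o =
        orbitSum a o -
          (n : ℤ) * (orbitSum g o - orbitSum (fun x => g ((S : SL(2, ℤ)) • x)) o) := by
      simp only [orbitSum, ← Finset.sum_sub_distrib, Finset.mul_sum]
      exact Finset.sum_congr rfl fun x _ => by split <;> simp
    rw [e, hg]
    linear_combination hf o

/-- When the bound on parabolic homomorphisms is sharp, integral values at `S` and `U` with equal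
cusp sums are those of a twisted complex parabolic cocycle. -/
private lemma exists_twistedCocycle_eq (hneg : (-1 : SL(2, ℤ)) ∈ Γ)
    (hdim : 6 * Module.finrank ℂ (parabolicHoms ℂ Γ ℂ) + 3 * fixTwo Γ + 4 * fixThree Γ
      + 6 * Nat.card (CuspSet Γ) = Γ.index + 12)
    {a b : Cosets Γ → ℤ} (ha : ∀ x, a x + a ((S : SL(2, ℤ)) • x) = 0)
    (hb : ∀ x, b x + b (ellThree • x) + b (ellThree • ellThree • x) = 0)
    (hab : ∀ o, orbitSum b o = orbitSum a o) :
    ∃ (φ : parabolicHoms ℂ Γ ℂ) (v : baseKer Γ ℂ),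
      (∀ x, twistedCocycle ℂ φ.1 v.1 S x = (a x : ℂ)) ∧
        ∀ x, twistedCocycle ℂ φ.1 v.1 ellThree x = (b x : ℂ) := by
  let aC : minusTwo Γ ℂ := ⟨fun x => (a x : ℂ), by
    rw [minusTwo, LinearMap.mem_ker]
    funext x
    simp only [LinearMap.add_apply, Module.End.one_apply, Pi.add_apply, pullback_apply,
      Pi.zero_apply]
    exact_mod_cast ha x⟩
  let bC : minusThree Γ ℂ := ⟨fun x => (b x : ℂ), by
    rw [minusThree, LinearMap.mem_ker]
    funext x
    simp only [LinearMap.add_apply, Module.End.one_apply, Module.End.mul_apply, Pi.add_apply,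
      pullback_apply, Pi.zero_apply]
    exact_mod_cast hb x⟩
  have hker : (aC, bC) ∈ LinearMap.ker (cocycleDefect Γ ℂ) := by
    rw [LinearMap.mem_ker, cocycleDefect_apply, map_sub, cuspSum_pullback_T]
    funext o
    change orbitSum (fun x => (b x : ℂ)) o - orbitSum (fun x => (a x : ℂ)) o = 0
    have h1 := congrArg (Int.castAddHom ℂ) (hab o)
    rw [map_orbitSum, map_orbitSum] at h1
    exact sub_eq_zero.mpr h1
  obtain ⟨⟨φ, v⟩, hφv⟩ := twistedPair_surjective (Γ := Γ) ℂ hneg hdim ⟨(aC, bC), hker⟩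
  exact ⟨φ, v, fun x => congrFun (congrArg (fun z => (z.1.1 : Cosets Γ → ℂ)) hφv) x,
    fun x => congrFun (congrArg (fun z => (z.1.2 : Cosets Γ → ℂ)) hφv) x⟩

omit [Γ.FiniteIndex] [NeZero n] in
/-- A twisted cocycle whose values at the generators `S` and `U` are integers reducing to those of
the cocycle of `ψ` has such values everywhere. -/
private lemma exists_int_twistedCocycle {φ : Additive Γ →+ ℂ} {v : Cosets Γ → ℂ}
    {ψ : Additive Γ →+ ZMod n}
    (hS : ∀ x, ∃ z : ℤ, twistedCocycle ℂ φ v S x = (z : ℂ) ∧ (z : ZMod n) = cocycleOf ψ S x)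
    (hU : ∀ x, ∃ z : ℤ,
      twistedCocycle ℂ φ v ellThree x = (z : ℂ) ∧ (z : ZMod n) = cocycleOf ψ ellThree x)
    (g : SL(2, ℤ)) :
    ∀ x, ∃ z : ℤ, twistedCocycle ℂ φ v g x = (z : ℂ) ∧ (z : ZMod n) = cocycleOf ψ g x := by
  have hg : g ∈ Subgroup.closure ({S, ellThree} : Set SL(2, ℤ)) := by
    rw [closure_S_ellThree]; trivial
  induction hg using Subgroup.closure_induction with
  | mem c hc =>
    rcases hc with rfl | rfl
    · exact hS
    · exact hU
  | one => exact fun x => ⟨0, by simp [twistedCocycle, cocycleOf_one], by simp [cocycleOf_one]⟩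
  | mul c d _ _ ihc ihd =>
    intro x
    obtain ⟨z1, h1, h1'⟩ := ihc (d • x)
    obtain ⟨z2, h2, h2'⟩ := ihd x
    exact ⟨z1 + z2, by rw [twistedCocycle_mul, h1, h2]; push_cast; rfl,
      by rw [Int.cast_add, h1', h2', cocycleOf_mul]⟩
  | inv c _ ih =>
    intro x
    obtain ⟨z, h1, h1'⟩ := ih (c⁻¹ • x)
    refine ⟨-z, ?_, ?_⟩
    · have h := twistedCocycle_mul ℂ φ v c c⁻¹ x
      rw [mul_inv_cancel, h1, show twistedCocycle ℂ φ v 1 x = 0 by
        simp [twistedCocycle, cocycleOf_one]] at h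
      push_cast
      linear_combination -h
    · have h := cocycleOf_mul ψ c c⁻¹ x
      rw [mul_inv_cancel, cocycleOf_one, ← h1'] at h
      rw [Int.cast_neg]
      exact neg_eq_of_add_eq_zero_right h.symm

omit [Γ.FiniteIndex] [NeZero n] in
/-- Evaluating at the base coset recovers the values of the homomorphisms themselves. -/
private lemma exists_int_apply {φ : Additive Γ →+ ℂ} {v : Cosets Γ → ℂ}
    {ψ : Additive Γ →+ ZMod n}
    (h : ∀ g x, ∃ z : ℤ, twistedCocycle ℂ φ v g x = (z : ℂ) ∧ (z : ZMod n) = cocycleOf ψ g x)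
    (γ : Γ) : ∃ z : ℤ, φ (Additive.ofMul γ) = (z : ℂ) ∧ (z : ZMod n) = ψ (Additive.ofMul γ) := by
  obtain ⟨hfix, hco⟩ := cocycleOf_base φ γ
  obtain ⟨z, h1, h1'⟩ := h γ (QuotientGroup.mk 1)
  rw [twistedCocycle, hfix, sub_self, add_zero, hco] at h1
  exact ⟨z, h1, h1'.trans (cocycleOf_base ψ γ).2⟩

/-- **Lifting.** -/
theorem exists_parabolic_lift (hneg : (-1 : SL(2, ℤ)) ∈ Γ)
    (hdim : 6 * Module.finrank ℂ (parabolicHoms ℂ Γ ℂ) + 3 * fixTwo Γ + 4 * fixThree Γ
      + 6 * Nat.card (CuspSet Γ) = Γ.index + 12)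
    {ψ : Additive Γ →+ ZMod n} (hψ : IsParabolicHom Γ ψ)
    (h2 : ∀ x : Cosets Γ, (S : SL(2, ℤ)) • x = x → cocycleOf ψ S x = 0)
    (h3 : ∀ x : Cosets Γ, ellThree • x = x → cocycleOf ψ ellThree x = 0) :
    ∃ Ψ : parabolicHoms ℤ Γ ℤ, ∀ γ, ((Ψ.1 γ : ℤ) : ZMod n) = ψ γ := by
  have hm1 := cocycleOf_neg_one hneg hψ
  obtain ⟨a, ha, ha0⟩ := exists_lift_two hneg (cocycleOf ψ S) (fun x => by
    rw [add_comm, ← cocycleOf_mul, S_mul_self, hm1]) h2
  obtain ⟨b, hb, hb0⟩ := exists_lift_three hneg (cocycleOf ψ ellThree) (fun x => by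
    have e := cocycleOf_mul ψ (ellThree * ellThree) ellThree x
    rw [ellThree_sq_mul, hm1, cocycleOf_mul] at e
    rw [add_comm (cocycleOf ψ ellThree x), add_comm (cocycleOf ψ ellThree (ellThree • x) + _),
      ← add_assoc]
    exact e.symm) h3
  obtain ⟨a', ha', ha'0, hab⟩ := exists_balanced_lift hneg hψ ha ha0 hb hb0
  obtain ⟨φ, v, hcS, hcU⟩ := exists_twistedCocycle_eq hneg hdim ha' hb hab
  have hint := exists_int_apply (exists_int_twistedCocycle
    (fun x => ⟨a' x, hcS x, ha'0 x⟩) fun x => ⟨b x, hcU x, hb0 x⟩)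
  choose z hz hz' using hint
  refine ⟨⟨AddMonoidHom.mk' (fun x => z (Additive.toMul x)) (fun x y => ?_), fun γ hγ => ?_⟩,
    fun x => hz' (Additive.toMul x)⟩
  · have h := hz (Additive.toMul x * Additive.toMul y)
    rw [ofMul_mul, map_add, hz, hz] at h
    exact_mod_cast h.symm
  · have h := hz γ
    rw [φ.2 γ hγ] at h
    change z γ = 0
    exact_mod_cast h.symm

end FermatAgent.Period
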