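import Fermat.Agent.Period.Eisenstein.Congruence
import Fermat.Agent.MF.Duality

/-!
# Eisenstein characters of the Hecke algebra of prime level
-/

set_option autoImplicit false

noncomputable section

open scoped MatrixGroups
open CongruenceSubgroup ModularFormClass

namespace FermatAgent.Period.Eis

variable {p : ℕ} [Fact p.Prime]

/-- The Hecke operator at `q` in the full Hecke algebra. -/
def opAt (p : ℕ) [NeZero p] {q : ℕ} (hq : q.Prime) : CuspForm.heckeAlgebra p 2 ∅ :=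
  ⟨MF.heckeAt p 2 hq, MF.heckeAt_mem hq (Set.notMem_empty q)⟩

/-- The predicate of being an Eisenstein character. -/
def IsEisChar {R : Type*} [CommRing R] (φ : CuspForm.heckeAlgebra p 2 ∅ →+* R) : Prop :=
  ∀ (q : ℕ) (hq : q.Prime), φ (opAt p hq) = if q = p then 1 else 1 + (q : R)

variable {R : Type*} [CommRing R] {φ : CuspForm.heckeAlgebra p 2 ∅ →+* R}

lemma exists_coeffOp_val (hφ : IsEisChar φ) {n : ℕ} (hn : n ≠ 0) :
    ∃ t : CuspForm.heckeAlgebra p 2 ∅,
      (∀ f : CuspForm (Gamma0 p) 2, qCoeff (⇑(t.1 f)) 1 = qCoeff f n) ∧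
        φ t = (sigP p n : R) := by
  induction n using Nat.strong_induction_on with
  | _ n ih =>
  rcases eq_or_ne n 1 with rfl | hn1
  · refine ⟨1, fun f => rfl, ?_⟩
    simp [sigP]
  obtain ⟨ℓ, hℓ, m, rfl⟩ := Nat.exists_prime_and_dvd hn1
  have hm : m ≠ 0 := right_ne_zero_of_mul hn
  obtain ⟨t, ht, htv⟩ := ih m (lt_mul_of_one_lt_left (Nat.pos_of_ne_zero hm) hℓ.one_lt) hm
  have hp : p.Prime := Fact.out
  have hval : φ (t * opAt p hℓ) = (sigP p m : R) * (if ℓ = p then 1 else 1 + (ℓ : R)) := by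
    rw [map_mul, htv, hφ ℓ hℓ]
  have hTf : ∀ f : CuspForm (Gamma0 p) 2, qCoeff (⇑((t * opAt p hℓ).1 f)) 1 =
      qCoeff f (ℓ * m) + MF.heckeConst p 2 ℓ * if ℓ ∣ m then qCoeff f (m / ℓ) else 0 := fun f => by
    show qCoeff (⇑(t.1 (MF.heckeAt p 2 hℓ f))) 1 = _
    rw [ht, MF.qCoeff_heckeAt]
  rcases eq_or_ne ℓ p with rfl | hℓp
  · refine ⟨t * opAt ℓ hℓ, fun f => ?_, ?_⟩
    · rw [hTf, MF.heckeConst, if_pos dvd_rfl, zero_mul, add_zero]
    · rw [hval, if_pos rfl, mul_one, sigP_self_mul m]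
  have hc : MF.heckeConst p 2 ℓ = (ℓ : ℂ) := by
    rw [MF.heckeConst, if_neg fun hd => hℓp ((Nat.prime_dvd_prime_iff_eq hℓ hp).mp hd)]
    norm_num
  have hrec := sigP_prime_mul (p := p) hℓ hℓp hm
  by_cases hd : ℓ ∣ m
  · obtain ⟨m', rfl⟩ := hd
    have hm' : m' ≠ 0 := right_ne_zero_of_mul hm
    obtain ⟨t', ht', htv'⟩ := ih m' (by
      have := Nat.le_mul_of_pos_left m' hℓ.pos
      exact this.trans_lt (lt_mul_of_one_lt_left (Nat.pos_of_ne_zero hm) hℓ.one_lt)) hm'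
    refine ⟨t * opAt p hℓ - (ℓ : ℤ) • t', fun f => ?_, ?_⟩
    · have hexp : (t * opAt p hℓ - (ℓ : ℤ) • t').1 f = (t * opAt p hℓ).1 f - (ℓ : ℤ) • t'.1 f := rfl
      rw [hexp, MF.qCoeff_sub, MF.qCoeff_zsmul, hTf, ht', if_pos (dvd_mul_right ℓ m'),
        Nat.mul_div_cancel_left _ hℓ.pos, hc]
      push_cast
      ring
    · rw [if_pos (dvd_mul_right ℓ m'), Nat.mul_div_cancel_left _ hℓ.pos] at hrec
      have hrec' := congrArg (Nat.cast : ℕ → R) hrec
      push_cast at hrec'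
      rw [map_sub, map_zsmul, hval, htv', if_neg hℓp, zsmul_eq_mul, Int.cast_natCast]
      linear_combination -hrec'
  · refine ⟨t * opAt p hℓ, fun f => ?_, ?_⟩
    · rw [hTf, if_neg hd, mul_zero, add_zero]
    · rw [if_neg hd, add_zero] at hrec
      rw [hval, if_neg hℓp, hrec]
      push_cast
      ring

lemma index_Gamma0_prime : (Gamma0 p).index = p + 1 := by
  rw [Subgroup.index, ← Nat.card_congr (Equiv.ofBijective _ (cosetRep_bijective (p := p)))]
  simp

lemma subsingleton_cuspForm (hp : p < 5) (f : CuspForm (Gamma0 p) 2) : f = 0 := by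
  refine MF.eq_zero_of_qCoeff_le_sturm f fun n hn => ?_
  have h0 : n = 0 := by
    have : MF.sturm p 2 = 0 := by
      rw [MF.sturm, index_Gamma0_prime]
      apply Nat.div_eq_of_lt
      omega
    omega
  rw [h0]
  exact MF.qCoeff_index_zero f

/-- An Eisenstein character to `ℤ/ℓᵃ` forces `ℓᵃ` to divide the Eisenstein numerator. -/
theorem prime_pow_dvd_of_isEisChar {ℓ a : ℕ} (hℓ : ℓ.Prime)
    (φ : CuspForm.heckeAlgebra p 2 ∅ →+* ZMod (ℓ ^ a)) (hφ : IsEisChar φ) :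
    ℓ ^ a ∣ ModularCurve.eisensteinNumerator p := by
  rcases Nat.eq_zero_or_pos a with rfl | ha
  · simp
  have : Fact (1 < ℓ ^ a) := ⟨Nat.one_lt_pow ha.ne' hℓ.one_lt⟩
  rcases lt_or_ge p 5 with hp5 | hp5
  · have h1 : (1 : CuspForm.heckeAlgebra p 2 ∅) = 0 :=
      Subtype.ext (LinearMap.ext fun f => by
        rw [subsingleton_cuspForm hp5 f, map_zero, map_zero])
    have := congrArg φ h1
    rw [map_one, map_zero] at this
    exact absurd this one_ne_zero
  have : Module.Finite ℤ (CuspForm.heckeAlgebra p 2 ∅) := MF.moduleFinite_heckeAlgebra p 2 ∅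
  let b := Module.Free.chooseBasis ℤ (CuspForm.heckeAlgebra p 2 ∅)
  choose z hz using fun i => ZMod.intCast_surjective (φ (b i))
  let Φ : CuspForm.heckeAlgebra p 2 ∅ →ₗ[ℤ] ℤ := b.constr ℤ z
  have hΦ : ∀ t, ((Φ t : ℤ) : ZMod (ℓ ^ a)) = φ t := by
    have : (Int.castAddHom (ZMod (ℓ ^ a))).toIntLinearMap.comp Φ =
        φ.toAddMonoidHom.toIntLinearMap := b.ext fun i => by simp [Φ, hz]
    exact fun t => LinearMap.congr_fun this t
  obtain ⟨f, hf, -⟩ := MF.intLattice_dual (N := p) (k := 2) (by norm_num) Φ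
  choose a' ha' using MF.mem_intLattice_iff.mp f.2
  obtain ⟨A, hA, hUA, hA0, hcoef⟩ := exists_eis_pair f.1 a' ha'
  refine prime_pow_dvd_eisensteinNumerator hA hUA hp5 hℓ ha hA0 fun n hn => ?_
  rw [hcoef n hn]
  refine mul_dvd_mul_left 24 ?_
  obtain ⟨t, ht, htv⟩ := exists_coeffOp_val hφ hn
  have e : a' n = Φ t := by
    have h1 := (ha' n).symm.trans ((ht f.1).symm.trans (hf t))
    exact_mod_cast h1
  have h2 : (((a' n - (sigP p n : ℤ)) : ℤ) : ZMod (ℓ ^ a)) = 0 := by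
    rw [Int.cast_sub, e, hΦ, htv, Int.cast_natCast, sub_self]
  have h3 := (ZMod.intCast_zmod_eq_zero_iff_dvd _ _).mp h2
  exact_mod_cast h3

end FermatAgent.Period.Eis
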