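import Fermat.Agent.Period.Eisenstein.ShimuraLift
import Fermat.Agent.Period.Eisenstein.UpperBound
import Fermat.Agent.Period.HeckeAction

/-!
# An Eisenstein character of order the Eisenstein numerator

The Shimura homomorphism `shimuraHom`, a character of the upper left entry modulo `p` killing
twelfth roots of unity, is a surjective parabolic homomorphism from `Γ₀(p)` to integers modulo the
numerator (`shimuraHom_surjective`, `isParabolicHom_shimuraHom`) and an eigenvector of the Hecke
transfers with values `eisVal` (`heckeOp_shimuraHom`). It lifts to an integral parabolic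
homomorphism (`exists_shimuraLift`), so it gives a ring homomorphism on the Hecke algebra
(`exists_isEisChar`).
-/

set_option autoImplicit false

noncomputable section

open scoped MatrixGroups Classical
open Matrix.SpecialLinearGroup CongruenceSubgroup ModularCurve ModularCurve.Period
open P2MW.S_ModularForm_heckeT_slash_eq_self_of_mem_Gamma0.ModularForm
open HeckeSlashInvariance

namespace FermatAgent.Period.Eis

variable {p : ℕ}

/-- The upper left entry modulo `p`. -/
def upperHom (p : ℕ) : Gamma0 p →* ZMod p where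
  toFun g := ((g : SL(2, ℤ)) 0 0 : ZMod p)
  map_one' := by simp
  map_mul' g h := by
    simp only [Subgroup.coe_mul, Matrix.SpecialLinearGroup.coe_mul, Matrix.mul_apply,
      Fin.sum_univ_two, Int.cast_add, Int.cast_mul, Gamma0_mem.mp h.2, mul_zero, add_zero]

/-- The upper left entry as a unit. -/
def upperUnit (p : ℕ) : Gamma0 p →* (ZMod p)ˣ := (upperHom p).toHomUnits

lemma coe_upperUnit (g : Gamma0 p) : (upperUnit p g : ZMod p) = ((g : SL(2, ℤ)) 0 0 : ZMod p) := rfl

variable [Fact p.Prime]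

lemma eisensteinNumerator_pos : 0 < eisensteinNumerator p := by
  have := (Fact.out : p.Prime).two_le
  exact Nat.div_pos (Nat.le_of_dvd (by omega) (Nat.gcd_dvd_left _ _))
    (Nat.gcd_pos_of_pos_left _ (by omega))

instance neZero_eisensteinNumerator : NeZero (eisensteinNumerator p) :=
  ⟨eisensteinNumerator_pos.ne'⟩

/-- There is a surjective character of the units modulo `p` of order the Eisenstein numerator
killing the twelfth roots of unity. -/
lemma exists_unitChar :
    ∃ χ : Additive (ZMod p)ˣ →+ ZMod (eisensteinNumerator p), Function.Surjective χ ∧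
      ∀ u : (ZMod p)ˣ, u ^ 12 = 1 → χ (Additive.ofMul u) = 0 := by
  set n := eisensteinNumerator p
  have hc : Nat.card (Additive (ZMod p)ˣ) = p - 1 := by
    rw [Nat.card_congr Additive.toMul, Nat.card_eq_fintype_card, ZMod.card_units]
  have hcyc : IsAddCyclic (Additive (ZMod p)ˣ) := inferInstance
  let e := (zmodAddCyclicAddEquiv hcyc).symm
  let r : ZMod (Nat.card (Additive (ZMod p)ˣ)) →+* ZMod n :=
    ZMod.castHom (hc ▸ eisensteinNumerator_dvd p) _
  refine ⟨r.toAddMonoidHom.comp e.toAddMonoidHom,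
    (ZMod.ringHom_surjective r).comp e.surjective, fun u hu => ?_⟩
  have h12 : 12 • e (Additive.ofMul u) = 0 := by
    rw [← map_nsmul, ← ofMul_pow, hu, ofMul_one, map_zero]
  set k := e (Additive.ofMul u) with hk
  change r k = 0
  have : NeZero (Nat.card (Additive (ZMod p)ˣ)) := ⟨by
    rw [hc]; have := (Fact.out : p.Prime).two_le; omega⟩
  obtain ⟨j, hj⟩ : ∃ j : ℕ, (j : ZMod (Nat.card (Additive (ZMod p)ˣ))) = k :=
    ⟨k.val, ZMod.natCast_zmod_val k⟩
  rw [← hj, map_natCast, ZMod.natCast_eq_zero_iff]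
  rw [← hj, nsmul_eq_mul, ← Nat.cast_mul, ZMod.natCast_eq_zero_iff, hc] at h12
  set g := Nat.gcd (p - 1) 12 with hg
  have hg0 : 0 < g := Nat.gcd_pos_of_pos_right _ (by norm_num)
  have hcop : Nat.Coprime n (12 / g) := Nat.coprime_div_gcd_div_gcd hg0
  refine hcop.dvd_of_dvd_mul_left ?_
  have e1 : n * g = p - 1 := Nat.div_mul_cancel (Nat.gcd_dvd_left _ _)
  have e2 : (12 / g) * g = 12 := Nat.div_mul_cancel (Nat.gcd_dvd_right _ _)
  refine Nat.dvd_of_mul_dvd_mul_right hg0 ?_
  rw [e1, mul_right_comm, e2]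
  exact h12

variable (p) in
/-- The chosen character of the units. -/
def unitChar : Additive (ZMod p)ˣ →+ ZMod (eisensteinNumerator p) :=
  (exists_unitChar (p := p)).choose

lemma unitChar_surjective : Function.Surjective (unitChar p) :=
  (exists_unitChar (p := p)).choose_spec.1

lemma unitChar_eq_zero {u : (ZMod p)ˣ} (h : u ^ 12 = 1) : unitChar p (Additive.ofMul u) = 0 :=
  (exists_unitChar (p := p)).choose_spec.2 u h

variable (p) in
/-- The homomorphism of `Γ₀(p)` cut out by the Shimura covering. -/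
def shimuraHom : Additive (Gamma0 p) →+ ZMod (eisensteinNumerator p) :=
  (unitChar p).comp (MonoidHom.toAdditive (upperUnit p))

lemma shimuraHom_apply (γ : Gamma0 p) :
    shimuraHom p (Additive.ofMul γ) = unitChar p (Additive.ofMul (upperUnit p γ)) := rfl

lemma shimuraHom_surjective : Function.Surjective (shimuraHom p) := by
  refine unitChar_surjective.comp fun u => ?_
  obtain ⟨u, rfl⟩ := Additive.ofMul.surjective u
  obtain ⟨a, ha⟩ := ZMod.intCast_surjective (u : ZMod p)
  obtain ⟨d, hd⟩ := ZMod.intCast_surjective ((u⁻¹ : (ZMod p)ˣ) : ZMod p)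
  obtain ⟨b, hb⟩ : (p : ℤ) ∣ a * d - 1 := by
    rw [← ZMod.intCast_zmod_eq_zero_iff_dvd, Int.cast_sub, Int.cast_mul, ha, hd, Int.cast_one,
      ← Units.val_mul, mul_inv_cancel, Units.val_one, sub_self]
  let γ : SL(2, ℤ) := ⟨!![a, b; (p : ℤ), d], by rw [Matrix.det_fin_two_of]; linear_combination hb⟩
  have hγ : γ ∈ Gamma0 p := Gamma0_mem.mpr (by
    show (((p : ℤ)) : ZMod p) = 0
    simp)
  refine ⟨Additive.ofMul ⟨γ, hγ⟩, ?_⟩
  change Additive.ofMul (upperUnit p ⟨γ, hγ⟩) = Additive.ofMul u
  refine congrArg Additive.ofMul (Units.ext ?_)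
  rw [coe_upperUnit, ← ha]
  rfl

lemma shimuraHom_eq_zero_of_pow {γ : Gamma0 p} (h : γ ^ 12 = 1) :
    shimuraHom p (Additive.ofMul γ) = 0 := by
  rw [shimuraHom_apply]
  exact unitChar_eq_zero (by rw [← map_pow, h, map_one])

lemma isParabolicHom_shimuraHom : IsParabolicHom (Gamma0 p) (shimuraHom p) := by
  intro γ hγ
  rw [shimuraHom_apply]
  refine unitChar_eq_zero (Units.ext ?_)
  rw [Units.val_pow_eq_pow_val, coe_upperUnit, Units.val_one]
  have hdet := congrArg (Int.cast : ℤ → ZMod p) (γ : SL(2, ℤ)).det_coe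
  have htr := congrArg (Int.cast : ℤ → ZMod p) hγ
  rw [Matrix.det_fin_two] at hdet
  rw [Matrix.trace_fin_two] at htr
  push_cast at hdet htr
  rw [Gamma0_mem.mp γ.2, mul_zero, sub_zero] at hdet
  set a : ZMod p := (((γ : SL(2, ℤ)) 0 0 : ℤ) : ZMod p)
  set d : ZMod p := (((γ : SL(2, ℤ)) 1 1 : ℤ) : ZMod p)
  have h0 : (a - d) ^ 2 = 0 := by linear_combination htr - 4 * hdet
  have had : a = d := sub_eq_zero.mp (pow_eq_zero_iff (two_ne_zero) |>.mp h0)
  rw [← had] at hdet
  linear_combination ((a * a) ^ 5 + (a * a) ^ 4 + (a * a) ^ 3 + (a * a) ^ 2 + a * a + 1) * hdet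

lemma cocycleOf_shimuraHom_eq_zero {g : SL(2, ℤ)} (hg : g ^ 12 = 1) (x : Cosets (Gamma0 p))
    (hx : g • x = x) : cocycleOf (shimuraHom p) g x = 0 := by
  refine shimuraHom_eq_zero_of_pow (Subtype.ext ?_)
  rw [SubgroupClass.coe_pow, coe_transition, hx, OneMemClass.coe_one]
  have := conj_pow (a := (Quotient.out x)⁻¹) (b := g) (i := 12)
  rw [inv_inv] at this
  rw [this, hg, mul_one, inv_mul_cancel]

lemma S_pow_twelve : (ModularGroup.S : SL(2, ℤ)) ^ 12 = 1 := by
  rw [show 12 = 2 * 6 from rfl, pow_mul, sq, S_mul_self]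
  simp [Even.neg_one_pow (show Even 6 by decide)]

lemma ellThree_pow_twelve : (ellThree : SL(2, ℤ)) ^ 12 = 1 := by
  have h3 : (ellThree : SL(2, ℤ)) ^ 3 = -1 := by rw [pow_succ, sq, ellThree_sq_mul]
  rw [show 12 = 3 * 4 from rfl, pow_mul, h3]
  simp [Even.neg_one_pow (show Even 4 by decide)]

/-- The integral lift of the Shimura homomorphism. -/
lemma exists_shimuraLift :
    ∃ Ψ : parabolicHoms ℤ (Gamma0 p) ℤ,
      ∀ γ, ((Ψ.1 γ : ℤ) : ZMod (eisensteinNumerator p)) = shimuraHom p γ := by
  refine exists_parabolic_lift (neg_one_mem_Gamma0 p) ?_ isParabolicHom_shimuraHom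
    (fun x hx => cocycleOf_shimuraHom_eq_zero S_pow_twelve x hx)
    (fun x hx => cocycleOf_shimuraHom_eq_zero ellThree_pow_twelve x hx)
  have h := twelve_mul_finrank_cuspForm p
  rw [fixTwo_Gamma0, fixThree_Gamma0, card_cuspSet_Gamma0, index_Gamma0]
  omega

lemma upperUnit_factor_U {q : ℕ} [NeZero q] (hq : q ∣ p) (γ : Gamma0 p) (i : ZMod q) :
    upperUnit p ((transferDataU hq).factor γ i) = upperUnit p γ := by
  refine Units.ext ?_
  rw [coe_upperUnit, coe_upperUnit]
  have h := congrArg (fun g : GL (Fin 2) ℝ => g.val 0 0) ((transferDataU hq).factor_spec γ i)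
  set el := (transferDataU hq).factor γ i
  simp only [transferDataU, Units.val_mul, Matrix.mul_apply, Fin.sum_univ_two,
    ModularForm.val_heckeMatrix (NeZero.ne q)] at h
  simp [-ZMod.natCast_val] at h
  have h' : ((γ : SL(2, ℤ)) 0 0 : ℤ) + (i.val : ℤ) * (γ : SL(2, ℤ)) 1 0 = (el : SL(2, ℤ)) 0 0 := by
    exact_mod_cast h
  have := congrArg (Int.cast : ℤ → ZMod p) h'
  push_cast at this
  rw [Gamma0_mem.mp γ.2, mul_zero, add_zero] at this
  exact this.symm

lemma upperUnit_factor_T {q : ℕ} [Fact q.Prime] (hq : ¬ q ∣ p) (γ : Gamma0 p)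
    (i : OnePoint (ZMod q)) :
    (upperUnit p ((transferDataT hq).factor γ i) : ZMod p) *
        (if (transferDataT hq).perm γ i = OnePoint.infty then (q : ZMod p) else 1) =
      (upperUnit p γ : ZMod p) * (if i = OnePoint.infty then (q : ZMod p) else 1) := by
  rw [coe_upperUnit, coe_upperUnit]
  have hq0 : q ≠ 0 := (Fact.out : q.Prime).ne_zero
  have h := congrArg (fun g : GL (Fin 2) ℝ => g.val 0 0) ((transferDataT hq).factor_spec γ i)
  set el := (transferDataT hq).factor γ i with hel
  set σi := (transferDataT hq).perm γ i with hσ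
  have hrep : ∀ x : OnePoint (ZMod q), ∃ β : ℤ,
      (heckeRep q x).val 0 0 = (if x = OnePoint.infty then (q : ℝ) else 1) ∧
      (heckeRep q x).val 1 0 = 0 ∧ (heckeRep q x).val 0 1 = (β : ℝ) := by
    intro x
    induction x using OnePoint.rec with
    | infty => exact ⟨0, by simp [heckeRep, ModularForm.val_heckeDiagMatrix hq0]⟩
    | coe j => exact ⟨(j.val : ℤ), by simp [heckeRep, ModularForm.val_heckeMatrix hq0]⟩
  obtain ⟨β, h1, h2, h3⟩ := hrep i
  obtain ⟨β', h1', h2', -⟩ := hrep σi
  have hrw : ∀ x, (transferDataT hq).rep x = heckeRep q x := fun x => rfl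
  simp only [hrw, Units.val_mul, Matrix.mul_apply, Fin.sum_univ_two, h1, h3, h1', h2'] at h
  simp at h
  have h' : (if i = OnePoint.infty then (q : ℤ) else 1) * (γ : SL(2, ℤ)) 0 0 +
      β * (γ : SL(2, ℤ)) 1 0 =
        (el : SL(2, ℤ)) 0 0 * (if σi = OnePoint.infty then (q : ℤ) else 1) := by
    split_ifs at h ⊢ <;> (try simp only [one_mul, mul_one] at *) <;> exact_mod_cast h
  have := congrArg (Int.cast : ℤ → ZMod p) h'
  push_cast at this
  rw [Gamma0_mem.mp γ.2, mul_zero, add_zero] at this
  rw [← this, mul_comm]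

/-- The Eisenstein eigenvalue. -/
abbrev eisVal (R : Type*) [CommRing R] (p q : ℕ) : R := if q = p then 1 else 1 + (q : R)

/-- The Shimura homomorphism is an Eisenstein eigenvector of the transfer operators. -/
lemma heckeOp_shimuraHom {q : ℕ} (hq : q.Prime) (γ : Gamma0 p) :
    heckeOp (ZMod (eisensteinNumerator p)) p hq (shimuraHom p) (Additive.ofMul γ) =
      eisVal _ p q * shimuraHom p (Additive.ofMul γ) := by
  have : Fact q.Prime := ⟨hq⟩
  have : NeZero q := ⟨hq.ne_zero⟩
  unfold heckeOp
  split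
  · next h =>
    have hqp : q = p := (Nat.prime_dvd_prime_iff_eq hq (Fact.out : p.Prime)).mp h
    subst hqp
    rw [TransferData.op_apply]
    simp only [shimuraHom_apply, upperUnit_factor_U, Finset.sum_const, Finset.card_univ,
      ZMod.card, eisVal, if_true, one_mul, nsmul_eq_mul]
    have h1 : ((q : ℕ) : ZMod (eisensteinNumerator q)) = 1 := by
      rw [← sub_eq_zero, ← Nat.cast_one, ← Nat.cast_sub hq.one_le, ZMod.natCast_eq_zero_iff]
      exact eisensteinNumerator_dvd q
    rw [h1, one_mul]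
  · next h =>
    have hne : q ≠ p := fun e => h (e ▸ dvd_rfl)
    rw [TransferData.op_apply]
    have hqu : (q : ZMod p) ≠ 0 := fun h0 => hne
      (((Nat.prime_dvd_prime_iff_eq (Fact.out : p.Prime) hq).mp
        ((ZMod.natCast_eq_zero_iff q p).mp h0)).symm)
    let ρ : OnePoint (ZMod q) → (ZMod p)ˣ := fun x =>
      if x = OnePoint.infty then Units.mk0 (q : ZMod p) hqu else 1
    have key : ∀ i, upperUnit p ((transferDataT h).factor γ i) * ρ ((transferDataT h).perm γ i) =
        upperUnit p γ * ρ i := fun i => Units.ext (by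
      have := upperUnit_factor_T h γ i
      simp only [Units.val_mul, ρ, apply_ite Units.val, Units.val_mk0, Units.val_one]
      exact this)
    have hsum : ∀ i, shimuraHom p (Additive.ofMul ((transferDataT h).factor γ i)) +
        unitChar p (Additive.ofMul (ρ ((transferDataT h).perm γ i))) =
        shimuraHom p (Additive.ofMul γ) + unitChar p (Additive.ofMul (ρ i)) := fun i => by
      rw [shimuraHom_apply, shimuraHom_apply, ← map_add, ← ofMul_mul, key, ofMul_mul, map_add]
    have := congrArg (fun F => ∑ i, F i) (funext hsum)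
    simp only [Finset.sum_add_distrib] at this
    rw [Equiv.sum_comp ((transferDataT h).perm γ)
      (fun i => unitChar p (Additive.ofMul (ρ i)))] at this
    rw [add_right_cancel this, Finset.sum_const, Finset.card_univ, nsmul_eq_mul]
    congr 1
    rw [eisVal, if_neg hne, show Fintype.card (OnePoint (ZMod q)) = q + 1 from by
      rw [show Fintype.card (OnePoint (ZMod q)) = Fintype.card (Option (ZMod q)) from
        Fintype.card_congr (Equiv.refl _), Fintype.card_option, ZMod.card]]
    push_cast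
    ring

lemma intAction_opAt {q : ℕ} (hq : q.Prime) (φ : parabolicHoms ℤ (Gamma0 p) ℤ) :
    (intAction p ∅ (opAt p hq) φ).1 = heckeOp ℤ p hq φ.1 := by
  have h' : intAction p ∅ (opAt p hq) φ
      = ⟨heckeOp ℤ p hq φ.1, isParabolicHom_heckeOp ℤ hq φ.2⟩ :=
    castPar_injective ((castPar_intAction _ φ).trans (Subtype.ext (by
      rw [show (opAt p hq).1 = MF.heckeAt p 2 hq from rfl, endToPar_heckeAt]
      exact heckeOp_comp ℤ hq _ _)))
  rw [h']

/-- The algebra is generated by the operators at the primes. -/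
lemma adjoin_opAt_induction {P : CuspForm.heckeAlgebra p 2 ∅ → Prop}
    (hint : ∀ c : ℤ, P (c : CuspForm.heckeAlgebra p 2 ∅))
    (hop : ∀ (q : ℕ) (hq : q.Prime), P (opAt p hq))
    (hadd : ∀ s t, P s → P t → P (s + t)) (hmul : ∀ s t, P s → P t → P (s * t))
    (t : CuspForm.heckeAlgebra p 2 ∅) : P t := by
  obtain ⟨t, ht⟩ := t
  induction ht using Algebra.adjoin_induction with
  | mem x hx =>
    rcases hx with ⟨q, hq, hqN, -, rfl⟩ | ⟨q, hqN, hq, -, rfl⟩
    · convert hop q hq using 1
      exact Subtype.ext (by simp [opAt, MF.heckeAt, hqN])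
    · convert hop q hq using 1
      exact Subtype.ext (by simp [opAt, MF.heckeAt, hqN])
  | algebraMap c =>
    convert hint c using 1
    exact Subtype.ext (by simp)
  | add x y hx hy ihx ihy => exact hadd _ _ ihx ihy
  | mul x y hx hy ihx ihy => exact hmul _ _ ihx ihy

variable (p) in
/-- Reduction modulo the Eisenstein numerator. -/
def redHom (φ : parabolicHoms ℤ (Gamma0 p) ℤ) :
    Additive (Gamma0 p) →+ ZMod (eisensteinNumerator p) :=
  (Int.castAddHom (ZMod (eisensteinNumerator p))).comp φ.1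

lemma exists_scalar (t : CuspForm.heckeAlgebra p 2 ∅) :
    ∃ c : ZMod (eisensteinNumerator p), ∀ (φ : parabolicHoms ℤ (Gamma0 p) ℤ)
      (k : ZMod (eisensteinNumerator p)), (∀ x, redHom p φ x = k * shimuraHom p x) →
        ∀ x, redHom p (intAction p ∅ t φ) x = c * k * shimuraHom p x := by
  refine adjoin_opAt_induction (P := fun t =>
    ∃ c : ZMod (eisensteinNumerator p), ∀ (φ : parabolicHoms ℤ (Gamma0 p) ℤ)
      (k : ZMod (eisensteinNumerator p)), (∀ x, redHom p φ x = k * shimuraHom p x) →
        ∀ x, redHom p (intAction p ∅ t φ) x = c * k * shimuraHom p x) ?_ ?_ ?_ ?_ t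
  · intro c
    refine ⟨c, fun φ k hk x => ?_⟩
    rw [map_intCast]
    have := hk x
    simp only [redHom, AddMonoidHom.comp_apply, Int.coe_castAddHom] at this ⊢
    have e : (((c : Module.End ℤ (parabolicHoms ℤ (Gamma0 p) ℤ)) φ).1 x) = c * φ.1 x := by
      simp [Module.End.intCast_apply]
    rw [e, Int.cast_mul, this, mul_assoc]
  · intro q hq
    refine ⟨eisVal _ p q, fun φ k hk x => ?_⟩
    have e : redHom p (intAction p ∅ (opAt p hq) φ) =
        heckeOp (ZMod (eisensteinNumerator p)) p hq (redHom p φ) := by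
      rw [redHom, intAction_opAt, redHom,
        ← heckeOp_comp (S := ZMod (eisensteinNumerator p)) ℤ]
    have e' : redHom p φ = k • shimuraHom p := AddMonoidHom.ext fun y => by
      rw [hk]; rfl
    rw [e, e', map_smul, AddMonoidHom.smul_apply, smul_eq_mul,
      ← ofMul_toMul x, heckeOp_shimuraHom]
    ring
  · rintro s t ⟨c, hc⟩ ⟨c', hc'⟩
    refine ⟨c + c', fun φ k hk x => ?_⟩
    rw [map_add]
    have h1 := hc φ k hk x
    have h2 := hc' φ k hk x
    simp only [redHom, AddMonoidHom.comp_apply, LinearMap.add_apply, Submodule.coe_add,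
      AddMonoidHom.add_apply, map_add] at h1 h2 ⊢
    rw [h1, h2]
    ring
  · rintro s t ⟨c, hc⟩ ⟨c', hc'⟩
    refine ⟨c * c', fun φ k hk x => ?_⟩
    rw [map_mul, Module.End.mul_apply, mul_assoc c c' k]
    exact hc _ _ (hc' φ k hk) x

/-- **The Eisenstein character of order the Eisenstein numerator.** -/
theorem exists_isEisChar :
    ∃ χ : CuspForm.heckeAlgebra p 2 ∅ →+* ZMod (eisensteinNumerator p), IsEisChar χ := by
  obtain ⟨Ψ, hΨ⟩ := exists_shimuraLift (p := p)
  choose c hc using exists_scalar (p := p)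
  obtain ⟨x1, hx1⟩ := shimuraHom_surjective (p := p) 1
  have hΨ' : ∀ x, redHom p Ψ x = 1 * shimuraHom p x := fun x => by rw [one_mul]; exact hΨ x
  have hval : ∀ t, redHom p (intAction p ∅ t Ψ) x1 = c t := fun t => by
    rw [hc t Ψ 1 hΨ' x1, hx1, mul_one, mul_one]
  refine ⟨{ toFun := c, map_one' := ?_, map_mul' := ?_, map_zero' := ?_, map_add' := ?_ },
    fun q hq => ?_⟩
  · rw [← hval, map_one, Module.End.one_apply, hΨ', hx1, one_mul]
  · intro s t
    rw [← hval, map_mul, Module.End.mul_apply,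
      hc s _ (c t) (fun x => by rw [hc t Ψ 1 hΨ' x, mul_one]) x1, hx1, mul_one]
  · rw [← hval, map_zero]
    simp [redHom]
  · intro s t
    rw [← hval, ← hval s, ← hval t, map_add]
    simp [redHom]
  · change c (opAt p hq) = _
    have e : redHom p (intAction p ∅ (opAt p hq) Ψ) =
        heckeOp (ZMod (eisensteinNumerator p)) p hq (shimuraHom p) := by
      rw [redHom, intAction_opAt, ← heckeOp_comp (S := ZMod (eisensteinNumerator p)) ℤ]
      congr 1
      exact AddMonoidHom.ext hΨ
    rw [← hval, e, ← ofMul_toMul x1, heckeOp_shimuraHom, ofMul_toMul, hx1, mul_one]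

end FermatAgent.Period.Eis
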