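import Fermat.Agent.Period.Eisenstein.Trace
import Fermat.Agent.MF.Lattice

/-!
# The Eisenstein form of weight two on `Γ₀(p)`

The form `epFun = p E₂(pτ) - E₂(τ)` is modular of weight two on `Γ₀(p)` (`epFun_mem`), with series
`epSer` of constant term `p - 1` and further coefficients `24 * sigP p n` (`qS_epFun`,
`coeff_epSer`). An integral weight two form and its Atkin–Lehner image give an integral pair, the
second series being `- uSer` over `p` (`isPairZ_weight_two`); `exists_eis_pair` applies this to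
`24 f - epFun` for a cusp form `f` with integral coefficients.
-/

set_option autoImplicit false

noncomputable section

open scoped MatrixGroups ModularForm Manifold Topology Real PowerSeries ArithmeticFunction.sigma
open UpperHalfPlane hiding I
open Filter Function Complex Matrix.SpecialLinearGroup CongruenceSubgroup EisensteinSeries

namespace FermatAgent.Period.Eis

local notation "Sₘ" => (ModularGroup.S : SL(2, ℤ))
local notation "Tₘ" => (ModularGroup.T : SL(2, ℤ))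

/-- The prime-to-`p` divisor sum. -/
def sigP (p n : ℕ) : ℕ := σ 1 (ordCompl[p] n)

/-- `σ(ℓ m) = ℓ σ(m) + σ(m')` with `m'` the part of `m` prime to `ℓ`. -/
lemma sigma_one_prime_mul {ℓ m : ℕ} (hℓ : ℓ.Prime) (hm : m ≠ 0) :
    σ 1 (ℓ * m) = ℓ * σ 1 m + σ 1 (ordCompl[ℓ] m) := by
  have hv := Nat.ordProj_mul_ordCompl_eq_self m ℓ
  set v := m.factorization ℓ
  set r := ordCompl[ℓ] m
  have hcop : ∀ i, Nat.Coprime (ℓ ^ i) r := fun i =>
    Nat.Coprime.pow_left i (Nat.coprime_ordCompl hℓ hm)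
  have hmul := ArithmeticFunction.isMultiplicative_sigma (k := 1)
  calc σ 1 (ℓ * m) = σ 1 (ℓ ^ (v + 1) * r) := by rw [pow_succ', mul_assoc, hv]
    _ = σ 1 (ℓ ^ (v + 1)) * σ 1 r := hmul.map_mul_of_coprime (hcop _)
    _ = (ℓ * σ 1 (ℓ ^ v) + 1) * σ 1 r := by
        congr 1
        rw [ArithmeticFunction.sigma_one_apply_prime_pow hℓ,
          ArithmeticFunction.sigma_one_apply_prime_pow hℓ, Finset.sum_range_succ', Finset.mul_sum]
        simp [pow_succ']
    _ = ℓ * σ 1 m + σ 1 r := by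
        rw [add_mul, one_mul, mul_assoc, ← hmul.map_mul_of_coprime (hcop _), hv]

/-- The part of `ℓ` prime to `ℓ` is one. -/
lemma ordCompl_prime_self {ℓ : ℕ} (hℓ : ℓ.Prime) : ordCompl[ℓ] ℓ = 1 := by
  rw [hℓ.factorization_self, pow_one, Nat.div_self hℓ.pos]

variable {p : ℕ} [Fact p.Prime]

/-- The sum of divisors prime to `p` ignores factors `p`. -/
lemma sigP_self_mul (m : ℕ) : sigP p (p * m) = sigP p m := by
  rw [sigP, sigP, Nat.ordCompl_mul, ordCompl_prime_self (Fact.out : p.Prime), one_mul]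

omit [Fact (Nat.Prime p)] in
/-- The Hecke relation for the sum of divisors prime to `p`. -/
lemma sigP_prime_mul {ℓ m : ℕ} (hℓ : ℓ.Prime) (hne : ℓ ≠ p) (hm : m ≠ 0) :
    sigP p (ℓ * m) + (if ℓ ∣ m then ℓ * sigP p (m / ℓ) else 0) = (1 + ℓ) * sigP p m := by
  have hℓp : ordCompl[p] ℓ = ℓ := by
    rw [Nat.Prime.factorization hℓ, Finsupp.single_eq_of_ne (Ne.symm hne), pow_zero, Nat.div_one]
  set r := ordCompl[p] m with hr
  have hr0 : r ≠ 0 := (Nat.ordCompl_pos p hm).ne'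
  have h1 : sigP p (ℓ * m) = σ 1 (ℓ * r) := by rw [sigP, Nat.ordCompl_mul, hℓp]
  rw [h1, sigma_one_prime_mul hℓ hr0, show sigP p m = σ 1 r from rfl]
  split
  · next h =>
    obtain ⟨m', rfl⟩ := h
    have hm' : m' ≠ 0 := right_ne_zero_of_mul hm
    have e : r = ℓ * ordCompl[p] m' := by rw [hr, Nat.ordCompl_mul, hℓp]
    set r' := ordCompl[p] m'
    have hr' : r' ≠ 0 := (Nat.ordCompl_pos p hm').ne'
    rw [Nat.mul_div_cancel_left _ hℓ.pos, show sigP p m' = σ 1 r' from rfl, e,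
      Nat.ordCompl_mul, ordCompl_prime_self hℓ, one_mul, sigma_one_prime_mul hℓ hr']
    ring
  · next h =>
    have hnd : ¬ ℓ ∣ r := fun hd => h (hd.trans (Nat.ordCompl_dvd m p))
    rw [Nat.factorization_eq_zero_of_not_dvd hnd, pow_zero, Nat.div_one]
    ring

lemma exists_D2_bound (γ : SL(2, ℤ)) : IsBoundedAtImInfty (D2 γ) := by
  rw [isBoundedAtImInfty_iff]
  refine ⟨2 * π + 1, 1, fun z hz => ?_⟩
  rcases eq_or_ne (γ 1 0) 0 with h | h
  · simp [D2, h]
    positivity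
  have hden : ‖((γ 1 0 : ℤ) : ℂ) * z + ((γ 1 1 : ℤ) : ℂ)‖ ≥ ‖((γ 1 0 : ℤ) : ℂ)‖ := by
    calc ‖((γ 1 0 : ℤ) : ℂ)‖ ≤ |((γ 1 0 : ℤ) : ℝ)| * z.im := by
          rw [Complex.norm_intCast]; exact le_mul_of_one_le_right (abs_nonneg _) hz
      _ = |(((γ 1 0 : ℤ) : ℂ) * z + ((γ 1 1 : ℤ) : ℂ)).im| := by
          simp [abs_mul, abs_of_pos z.im_pos]
      _ ≤ _ := Complex.abs_im_le_norm _
  have hpos : 0 < ‖((γ 1 0 : ℤ) : ℂ)‖ := norm_pos_iff.mpr (Int.cast_ne_zero.mpr h)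
  rw [D2, ModularGroup.denom_apply, norm_div, div_le_iff₀ (hpos.trans_le hden)]
  calc ‖2 * (π : ℂ) * I * ((γ 1 0 : ℤ) : ℂ)‖ = 2 * π * ‖((γ 1 0 : ℤ) : ℂ)‖ := by
        simp [abs_of_pos Real.pi_pos]
    _ ≤ (2 * π + 1) * ‖((γ 1 0 : ℤ) : ℂ) * z + ((γ 1 1 : ℤ) : ℂ)‖ :=
        mul_le_mul (by linarith [Real.pi_pos]) hden (norm_nonneg _) (by positivity)

lemma isBounded_E2_slash (γ : SL(2, ℤ)) : IsBoundedAtImInfty (E2 ∣[(2 : ℤ)] γ) := by
  rw [E2_slash_action]
  exact isBoundedAtImInfty_E2.sub ((exists_D2_bound γ).const_smul_left _)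

variable (p) in
/-- `p E₂(pτ) - E₂(τ)`. -/
def epFun : ℍ → ℂ := E2 ∣[(2 : ℤ)] ModularForm.heckeDiagMatrix p - E2

lemma epFun_invariant {γ : SL(2, ℤ)} (hγ : γ ∈ Gamma0 p) :
    epFun p ∣[(2 : ℤ)] γ = epFun p := by
  obtain ⟨c', hc'⟩ := mem_Gamma0_iff.mp hγ
  have hdet := γ.det_coe
  rw [Matrix.det_fin_two, hc'] at hdet
  let γ' : SL(2, ℤ) := ⟨!![γ 0 0, (p : ℤ) * γ 0 1; c', γ 1 1], by
    rw [Matrix.det_fin_two_of]; linear_combination hdet⟩
  have hg : ((γ' : SL(2, ℤ)) : Matrix (Fin 2) (Fin 2) ℤ) =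
      !![γ 0 0, (p : ℤ) * γ 0 1; c', γ 1 1] := rfl
  have hmat : ModularForm.heckeDiagMatrix p * (γ : GL (Fin 2) ℝ) =
      (γ' : GL (Fin 2) ℝ) * ModularForm.heckeDiagMatrix p := by
    ext i j
    fin_cases i <;> fin_cases j <;>
      simp [Matrix.mul_apply, Fin.sum_univ_two, ModularForm.val_heckeDiagMatrix p_ne_zero, hg,
        hc'] <;> ring
  have hD : (D2 γ' ∣[(2 : ℤ)] ModularForm.heckeDiagMatrix p) = D2 γ := by
    funext τ
    have h := coe_dil (p := p) τ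
    rw [dil] at h
    rw [ModularForm.slash_heckeDiagMatrix_apply _ p_ne_zero, D2, D2, ModularGroup.denom_apply,
      ModularGroup.denom_apply, h, hc', hg]
    simp only [Matrix.of_apply, Matrix.cons_val', Matrix.cons_val_zero, Matrix.cons_val_one,
      Matrix.cons_val_fin_one, Int.cast_mul, Int.cast_natCast, show (2 : ℤ) - 1 = 1 from rfl,
      zpow_one]
    ring
  rw [epFun, sub_eq_add_neg, SlashAction.add_slash, SlashAction.neg_slash, E2_slash_action,
    ModularForm.SL_slash, ← SlashAction.slash_mul, hmat, SlashAction.slash_mul,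
    ← ModularForm.SL_slash, E2_slash_action]
  set κ := 1 / (2 * riemannZeta 2)
  rw [sub_eq_add_neg E2 (κ • D2 γ'), SlashAction.add_slash, SlashAction.neg_slash,
    ModularForm.smul_slash, hD, ModularForm.σ_heckeDiagMatrix]
  simp only [ContinuousAlgEquiv.refl_apply]
  abel

lemma isBounded_E2_slash_diag :
    IsBoundedAtImInfty (E2 ∣[(2 : ℤ)] ModularForm.heckeDiagMatrix p) := by
  have e : (E2 ∣[(2 : ℤ)] ModularForm.heckeDiagMatrix p) =
      ((p : ℂ) ^ ((2 : ℤ) - 1)) • (E2 ∘ dil p) := by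
    funext τ
    rw [ModularForm.slash_heckeDiagMatrix_apply _ p_ne_zero]
    rfl
  rw [e]
  exact (isBoundedAtImInfty_E2.comp_tendsto (tendsto_dil (p := p))).const_smul_left _

/-- The Eisenstein form lies in the forms of weight two on `Γ₀(p)`. -/
lemma epFun_mem : epFun p ∈ modFns (Gamma0 p) 2 := by
  refine ⟨(E2_mdifferentiable.slash 2 _).sub E2_mdifferentiable, fun γ hγ => epFun_invariant hγ,
    fun δ => ?_⟩
  rcases coset_cases (p := p) δ with h | ⟨j, hj⟩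
  · rw [epFun_invariant h]
    exact isBounded_E2_slash_diag.sub isBoundedAtImInfty_E2
  rw [show δ = δ * (Sₘ * Tₘ ^ (j : ℕ))⁻¹ * (Sₘ * Tₘ ^ (j : ℕ)) by group,
    SlashAction.slash_mul, epFun_invariant hj, epFun, sub_eq_add_neg, SlashAction.add_slash,
    SlashAction.neg_slash, ← sub_eq_add_neg]
  refine Asymptotics.IsBigO.sub ?_ (isBounded_E2_slash _)
  have hmat : ModularForm.heckeDiagMatrix p * ((Sₘ * Tₘ ^ (j : ℕ) : SL(2, ℤ)) : GL (Fin 2) ℝ) =
      (Sₘ : GL (Fin 2) ℝ) * ModularForm.heckeMatrix p j := by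
    ext a b
    fin_cases a <;> fin_cases b <;>
      simp [Matrix.mul_apply, Fin.sum_univ_two, ModularForm.val_heckeDiagMatrix p_ne_zero,
        ModularForm.val_heckeMatrix p_ne_zero, ModularGroup.coe_S, coe_S_T_pow,
        -Matrix.SpecialLinearGroup.coe_mul, -map_mul]
  rw [ModularForm.SL_slash, ← SlashAction.slash_mul, hmat, SlashAction.slash_mul,
    ← ModularForm.SL_slash]
  have e : (E2 ∣[(2 : ℤ)] Sₘ) ∣[(2 : ℤ)] ModularForm.heckeMatrix p j =
      (p : ℂ)⁻¹ • ((E2 ∣[(2 : ℤ)] Sₘ) ∘ fun τ => ModularForm.heckeMatrix p j • τ) := by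
    funext τ
    rw [ModularForm.slash_heckeMatrix_apply _ p_ne_zero]
    rfl
  rw [e]
  refine ((isBounded_E2_slash Sₘ).comp_tendsto ?_).const_smul_left _
  rw [UpperHalfPlane.atImInfty, tendsto_comap_iff]
  have : UpperHalfPlane.im ∘ (fun τ => ModularForm.heckeMatrix p j • τ) =
      fun τ : ℍ => τ.im / p := by
    funext τ
    rw [Function.comp_apply, ← UpperHalfPlane.coe_im,
      ModularForm.coe_heckeMatrix_smul p_ne_zero, Complex.div_natCast_im]
    simp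
  rw [this]
  exact tendsto_comap.atTop_div_const (Nat.cast_pos.mpr (Nat.pos_of_ne_zero p_ne_zero))

omit [Fact p.Prime] in
lemma E2_mem_hPer : E2 ∈ MF.hPer := by
  refine ⟨⟨E2_mdifferentiable, isBoundedAtImInfty_E2⟩, ?_⟩
  have hq : ∀ τ : ℍ, E2 ((1 : ℝ) +ᵥ τ) = E2 τ := fun τ => by
    refine (hasSum_qExpansion_E2 (z := (1 : ℝ) +ᵥ τ)).unique ?_
    convert hasSum_qExpansion_E2 (z := τ) using 4
    rw [UpperHalfPlane.coe_vadd, Complex.ofReal_one, mul_add, Complex.exp_add, mul_one,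
      Complex.exp_two_pi_mul_I, one_mul]
  simpa using Curve.periodic_comp_ofComplex_of_vadd hq

/-- The expansion of `E₂`. -/
def e2Ser : ℤ⟦X⟧ := PowerSeries.mk fun n => if n = 0 then 1 else -24 * (σ 1 n : ℤ)

omit [Fact p.Prime] in
lemma qS_E2 : qS E2 = toC e2Ser := by
  refine PowerSeries.ext fun n => ?_
  have hsum : ∀ τ : ℍ, HasSum
      (fun m : ℕ => ((e2Ser.coeff m : ℤ) : ℂ) • Function.Periodic.qParam 1 τ ^ m) (E2 τ) := by
    intro τ
    refine (hasSum_qExpansion_E2 (z := τ)).congr_fun fun m => ?_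
    rw [e2Ser, PowerSeries.coeff_mk]
    split <;> simp [Function.Periodic.qParam]
  rw [coeff_toC]
  let _ : FunLike (ℍ → ℂ) ℍ ℂ := ⟨id, fun _ _ h => h⟩
  exact (UpperHalfPlane.qExpansion_coeff_unique (h := 1) E2 one_pos
    (MF.analyticAt_cuspFunction_of_mem E2_mem_hPer) hsum n).symm

variable (p) in
/-- The expansion of `p E₂(pτ) - E₂(τ)`. -/
def epSer : ℤ⟦X⟧ := (p : ℤ⟦X⟧) * PowerSeries.expand p p_ne_zero e2Ser - e2Ser

/-- The expansion of the Eisenstein form. -/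
lemma qS_epFun : qS (epFun p) = toC (epSer p) := by
  have e : (E2 ∣[(2 : ℤ)] ModularForm.heckeDiagMatrix p) = (p : ℂ) • (E2 ∘ dil p) := by
    funext τ
    rw [ModularForm.slash_heckeDiagMatrix_apply _ p_ne_zero]
    simp [dil]
  have h1 : (E2 ∣[(2 : ℤ)] ModularForm.heckeDiagMatrix p) ∈ MF.hPer := by
    have := add_mem (mem_hPer_of_mem (epFun_mem (p := p))) E2_mem_hPer
    rwa [epFun, sub_add_cancel] at this
  have h2 : (E2 ∘ dil p) ∈ MF.hPer := by
    have := Subalgebra.smul_mem MF.hPer (e ▸ h1) (p : ℂ)⁻¹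
    rwa [inv_smul_smul₀ pC_ne_zero] at this
  rw [epFun, qS_sub h1 E2_mem_hPer, e, qS_smul _ h2, qS_E2, epSer, map_sub, map_mul, map_natCast,
    map_natCast]
  congr 2
  rw [show qS (E2 ∘ dil p) = qS (fun τ => E2 (dil p τ)) from rfl, qS_comp_dil E2_mem_hPer h2, qS_E2,
    toC, PowerSeries.map_expand]

/-- The constant term of the Eisenstein series is `p - 1`. -/
lemma coeff_zero_epSer : (epSer p).coeff 0 = (p : ℤ) - 1 := by
  rw [epSer, map_sub, show ((p : ℤ⟦X⟧)) = ((p : ℤ) : ℤ⟦X⟧) by norm_cast, coeff_intCast_mul,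
    PowerSeries.coeff_expand, if_pos (dvd_zero p)]
  simp [e2Ser]

/-- The coefficients of the Eisenstein series are `24 σ_p(n)`. -/
lemma coeff_epSer {n : ℕ} (hn : n ≠ 0) : (epSer p).coeff n = 24 * (sigP p n : ℤ) := by
  rw [epSer, map_sub, show ((p : ℤ⟦X⟧)) = ((p : ℤ) : ℤ⟦X⟧) by norm_cast, coeff_intCast_mul,
    PowerSeries.coeff_expand]
  simp only [e2Ser, PowerSeries.coeff_mk, if_neg hn]
  split
  · next h =>
    obtain ⟨m, rfl⟩ := h
    have hm : m ≠ 0 := right_ne_zero_of_mul hn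
    rw [Nat.mul_div_cancel_left _ (Fact.out : p.Prime).pos, if_neg hm, sigP_self_mul m,
      sigma_one_prime_mul (Fact.out : p.Prime) hm, sigP]
    push_cast
    ring
  · next h =>
    rw [sigP, Nat.factorization_eq_zero_of_not_dvd h, pow_zero, Nat.div_one]
    ring

/-- `A ↦ U_p A` on coefficients. -/
def uSer (p : ℕ) (A : ℤ⟦X⟧) : ℤ⟦X⟧ := PowerSeries.mk fun n => A.coeff (n * p)

/-- A form of weight two with integral expansion at `∞` has expansion `-U_p/p` at `0`. -/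
lemma isPairZ_weight_two {F : ℍ → ℂ} (hF : F ∈ modFns (Gamma0 p) 2) {A : ℤ⟦X⟧}
    (hA : qS F = toC A) :
    IsPairZ p 2 1 A (-(uSer p A)) ∧ ∀ n, A.coeff n = (uSer p A).coeff (n * p) := by
  have hpair : IsPair p 2 (toC A) (qS (al p 2 F)) := ⟨F, hF, hA, rfl⟩
  have hp : (p : ℂ) ≠ 0 := pC_ne_zero
  have hv : qS (al p 2 F) = PowerSeries.C ((p : ℂ) ^ 1)⁻¹ * toC (-(uSer p A)) := by
    refine PowerSeries.ext fun n => ?_
    have h := hpair.swap.weight_two n
    rw [PowerSeries.coeff_C_mul, coeff_toC] at h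
    rw [PowerSeries.coeff_C_mul, coeff_toC, map_neg, uSer, PowerSeries.coeff_mk, Int.cast_neg,
      pow_one]
    rw [show ((p : ℂ) ^ (2 : ℤ)) = (p : ℂ) * p by rw [zpow_two]] at h
    field_simp at h ⊢
    linear_combination h
  refine ⟨?_, fun n => ?_⟩
  · unfold IsPairZ
    rwa [← hv]
  have h := hpair.weight_two n
  rw [hv, PowerSeries.coeff_C_mul, coeff_toC, coeff_toC, map_neg, Int.cast_neg, pow_one, mul_neg,
    mul_neg, ← mul_assoc, mul_inv_cancel₀ hp, one_mul] at h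
  have : ((A.coeff n : ℤ) : ℂ) = (((uSer p A).coeff (n * p) : ℤ) : ℂ) := by linear_combination h
  exact_mod_cast this

/-- The form `h = 24 f - E_p`. -/
theorem exists_eis_pair (f : CuspForm (Gamma0 p) 2) (a : ℕ → ℤ)
    (ha : ∀ n, ModularFormClass.qCoeff f n = (a n : ℂ)) :
    ∃ A : ℤ⟦X⟧, IsPairZ p 2 1 A (-(uSer p A)) ∧ (∀ n, A.coeff n = (uSer p A).coeff (n * p)) ∧
      A.coeff 0 = -((p : ℤ) - 1) ∧
      ∀ n, n ≠ 0 → A.coeff n = 24 * (a n - (sigP p n : ℤ)) := by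
  have : NeZero p := ⟨p_ne_zero⟩
  have hf : (⇑f : ℍ → ℂ) ∈ modFns (Gamma0 p) 2 := mem_modFns_of_modularFormClass f
  refine ⟨24 * PowerSeries.mk a - epSer p, ?_⟩
  have hq : qS (⇑f) = toC (PowerSeries.mk a) := PowerSeries.ext fun n => by
    rw [coeff_toC, PowerSeries.coeff_mk]; exact ha n
  have hF : qS ((24 : ℂ) • (⇑f : ℍ → ℂ) - epFun p) = toC (24 * PowerSeries.mk a - epSer p) := by
    rw [qS_sub (Subalgebra.smul_mem _ (mem_hPer_of_mem hf) _) (mem_hPer_of_mem epFun_mem),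
      qS_smul _ (mem_hPer_of_mem hf), hq, qS_epFun, map_sub, map_mul, map_ofNat, map_ofNat]
  obtain ⟨h1, h2⟩ := isPairZ_weight_two (sub_mem (Submodule.smul_mem _ _ hf) epFun_mem) hF
  refine ⟨h1, h2, ?_, fun n hn => ?_⟩
  · have h0 : a 0 = 0 := by
      have : ((a 0 : ℤ) : ℂ) = 0 := by rw [← ha 0]; exact MF.qCoeff_index_zero f
      exact_mod_cast this
    rw [map_sub, coeff_ofNat_mul, PowerSeries.coeff_mk, coeff_zero_epSer, h0, mul_zero, zero_sub]
  · rw [map_sub, coeff_ofNat_mul, PowerSeries.coeff_mk, coeff_epSer hn]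
    ring

end FermatAgent.Period.Eis
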