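import Fermat.Agent.Period.Eisenstein.Descent
import Fermat.Prelude.Def_ModularCurve_ModularUnit

/-!
# A congruence with the Eisenstein form divides the Eisenstein numerator

`prime_pow_dvd_eisensteinNumerator`: if the nonconstant coefficients of an integral weight two pair
with constant term `1 - p` are divisible by `24 ℓ ^ a`, then `ℓ ^ a` divides the numerator of
`(p - 1) / 12`. The cases `ℓ = p` (`not_self_congr`), `ℓ ≥ 5` (`dvd_of_five_le`), `ℓ = 3`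
(`dvd_three`) and `ℓ = 2` (`dvd_two`) compare coefficients of traces to level one of powers of the
pair and of its products with level one forms, with descent lemmas when `ℓ` would divide `p + 1`.
-/

set_option autoImplicit false

noncomputable section

open scoped PowerSeries
open PowerSeries Function

namespace FermatAgent.Period.Eis

lemma cubic_congr {R : Type*} [CommRing R] (B E u Q : R) :
    (u + 9 * Q) ^ 3 - 3 * (1 + 240 * B) * (u + 9 * Q) * u ^ 2 +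
        2 * (1 - 504 * (B + 24 * E)) * u ^ 3 =
      27 * (-64 * u ^ 3 * (B + 14 * E) +
        3 * (-80 * u ^ 2 * Q * B + 3 * u * Q ^ 2 + 9 * Q ^ 3)) := by
  ring

lemma quartic_congr {R : Type*} [CommRing R] (B E u Q : R) :
    (u + 8 * Q) ^ 4 - 6 * (1 + 240 * B) * (u + 8 * Q) ^ 2 * u ^ 2 +
        8 * (1 - 504 * (B + 24 * E)) * (u + 8 * Q) * u ^ 3 - 3 * (1 + 240 * B) ^ 2 * u ^ 4 =
      256 * (u ^ 4 * (-27 * B - 378 * E - 675 * B ^ 2) +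
        2 * (-108 * u ^ 3 * Q * (B + 14 * E) - 180 * u ^ 2 * B * Q ^ 2 + 4 * u * Q ^ 3 +
          8 * Q ^ 4)) := by
  ring

variable {p : ℕ} [Fact p.Prime] {A : ℤ⟦X⟧}

lemma expand_e4Ser :
    expand p p_ne_zero e4Ser = 1 + 240 * expand p p_ne_zero bSer := by
  rw [e4Ser, map_add, map_mul, map_one, map_ofNat]

lemma expand_e6Ser :
    expand p p_ne_zero e6Ser =
      1 - 504 * (expand p p_ne_zero bSer + 24 * expand p p_ne_zero eSer) := by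
  rw [e6Ser, cSer, map_sub, map_mul, map_one, map_add, map_mul, map_ofNat, map_ofNat]

lemma IsPairZ.e4 : IsPairZ p 4 0 e4Ser (expand p p_ne_zero e4Ser) :=
  IsPairZ.levelOne e4_mem qS_e4

lemma IsPairZ.e6 : IsPairZ p 6 0 e6Ser (expand p p_ne_zero e6Ser) :=
  IsPairZ.levelOne e6_mem qS_e6

/-- The cubic `W³ - 3E₄W + 2E₆` in a scaled form of weight two. -/
lemma isPairZ_cubic {U V : ℤ⟦X⟧} (h : IsPairZ p 2 1 U V) (u : ℤ) :
    IsPairZ p 6 3 (U ^ 3 - 3 * e4Ser * U * (u : ℤ⟦X⟧) ^ 2 + 2 * e6Ser * (u : ℤ⟦X⟧) ^ 3)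
      (V ^ 3 - 3 * expand p p_ne_zero e4Ser * V * (((p : ℤ) * u : ℤ) : ℤ⟦X⟧) ^ 2 +
        2 * expand p p_ne_zero e6Ser * (((p : ℤ) * u : ℤ) : ℤ⟦X⟧) ^ 3) := by
  have h1 : IsPairZ p 6 3 (U ^ 3) (V ^ 3) := h.pow 3
  have h2 := (((IsPairZ.e4 (p := p)).mul h (c := 6) (by norm_num)).raise 2).intMul (3 * u ^ 2)
  have h3 := ((IsPairZ.e6 (p := p)).raise 3).intMul (2 * u ^ 3)
  have := (h1.sub h2).add h3
  convert this using 1 <;> push_cast <;> ring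

/-- The quartic `W⁴ - 6E₄W² + 8E₆W - 3E₄²` in a scaled form of weight two. -/
lemma isPairZ_quartic {U V : ℤ⟦X⟧} (h : IsPairZ p 2 1 U V) (u : ℤ) :
    IsPairZ p 8 4
      (U ^ 4 - 6 * e4Ser * U ^ 2 * (u : ℤ⟦X⟧) ^ 2 + 8 * e6Ser * U * (u : ℤ⟦X⟧) ^ 3 -
        3 * e4Ser ^ 2 * (u : ℤ⟦X⟧) ^ 4)
      (V ^ 4 - 6 * expand p p_ne_zero e4Ser * V ^ 2 * (((p : ℤ) * u : ℤ) : ℤ⟦X⟧) ^ 2 +
        8 * expand p p_ne_zero e6Ser * V * (((p : ℤ) * u : ℤ) : ℤ⟦X⟧) ^ 3 -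
        3 * expand p p_ne_zero e4Ser ^ 2 * (((p : ℤ) * u : ℤ) : ℤ⟦X⟧) ^ 4) := by
  have h1 : IsPairZ p 8 4 (U ^ 4) (V ^ 4) := h.pow 4
  have hh : IsPairZ p 4 2 (U ^ 2) (V ^ 2) := h.pow 2
  have h2 := (((IsPairZ.e4 (p := p)).mul hh (c := 8) (by norm_num)).raise 2).intMul (6 * u ^ 2)
  have h3 := (((IsPairZ.e6 (p := p)).mul h (c := 8) (by norm_num)).raise 3).intMul (8 * u ^ 3)
  have h44 : IsPairZ p 8 0 (e4Ser ^ 2) (expand p p_ne_zero e4Ser ^ 2) :=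
    (IsPairZ.e4 (p := p)).pow 2
  have h4 := (h44.raise 4).intMul (3 * u ^ 4)
  have := ((h1.sub h2).add h3).sub h4
  convert this using 1 <;> push_cast <;> ring

variable (h : IsPairZ p 2 1 A (-(uSer p A)))
include h

lemma exists_split_pair {m : ℤ} (hm : ∀ n, n ≠ 0 → m ∣ A.coeff n) (hpm : m ∣ (p : ℤ) + 1) :
    ∃ Q Q' : ℤ⟦X⟧, A = (A.coeff 0 : ℤ⟦X⟧) + (m : ℤ⟦X⟧) * Q ∧
      -uSer p A = (((p : ℤ) * A.coeff 0 : ℤ) : ℤ⟦X⟧) + (m : ℤ⟦X⟧) * Q' := by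
  have _ := h
  obtain ⟨Q, hQ⟩ := exists_split hm
  obtain ⟨Q', hQ'⟩ := exists_split (dvd_coeff_uSer (p_ne_zero (p := p)) hm)
  obtain ⟨k, hk⟩ := hpm
  have hk' : ((p : ℤ⟦X⟧) + 1) = (m : ℤ⟦X⟧) * (k : ℤ⟦X⟧) := by
    have := congrArg (fun x : ℤ => (x : ℤ⟦X⟧)) hk
    push_cast at this
    exact this
  refine ⟨Q, -Q' - (k : ℤ⟦X⟧) * (A.coeff 0 : ℤ⟦X⟧), hQ, ?_⟩
  rw [coeff_zero_uSer] at hQ'
  push_cast
  linear_combination -hQ' - (A.coeff 0 : ℤ⟦X⟧) * hk'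

/-- The descent for `ℓ ≥ 5`. -/
lemma descent_five {ℓ : ℕ} (hℓ : ℓ.Prime) (h5 : 5 ≤ ℓ) (hℓp : ℓ ≠ p)
    (hm : ∀ n, n ≠ 0 → (ℓ : ℤ) ∣ A.coeff n) (hu : ¬ (ℓ : ℤ) ∣ A.coeff 0)
    (hpm : (ℓ : ℤ) ∣ (p : ℤ) + 1) : False := by
  obtain ⟨Q, Q', hQ, hQ'⟩ := exists_split_pair h hm hpm
  have hp := isPairZ_cubic h (A.coeff 0)
  set u := A.coeff 0
  refine descent_false hℓ hℓp (w := 6) (by norm_num) (u := u ^ 3) (Z := -1728 * linSer)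
    (fun hd => hu ((Nat.prime_iff_prime_int.mp hℓ).dvd_of_dvd_pow hd)) (by exact_mod_cast hp)
    ?_ ?_ ?_ ?_
  · refine ⟨-3 * (u : ℤ⟦X⟧) ^ 2 * Q * (240 * bSer) + (ℓ : ℤ⟦X⟧) * 3 * (u : ℤ⟦X⟧) * Q ^ 2 +
      (ℓ : ℤ⟦X⟧) ^ 2 * Q ^ 3, ?_⟩
    rw [hQ, linSer, e4Ser, e6Ser, cSer]
    push_cast
    ring
  · refine ⟨-3 * ((p : ℤ⟦X⟧) * (u : ℤ⟦X⟧)) ^ 2 * Q' * (240 * expand p p_ne_zero bSer) +
      (ℓ : ℤ⟦X⟧) * 3 * ((p : ℤ⟦X⟧) * (u : ℤ⟦X⟧)) * Q' ^ 2 + (ℓ : ℤ⟦X⟧) ^ 2 * Q' ^ 3, ?_⟩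
    rw [hQ', expand_e4Ser, expand_e6Ser, linSer, map_mul, map_add, map_mul, map_neg, map_ofNat,
      map_ofNat]
    push_cast
    ring
  · rw [neg_mul, map_neg, coeff_ofNat_mul, coeff_zero_linSer]; ring
  · rw [neg_mul, map_neg, coeff_ofNat_mul, coeff_one_linSer, mul_one, dvd_neg]
    intro hd
    have hd' : ℓ ∣ 2 ^ 6 * 3 ^ 3 := by exact_mod_cast hd
    rcases hℓ.dvd_mul.mp hd' with h2 | h2 <;>
      have := Nat.le_of_dvd (by norm_num) (hℓ.dvd_of_dvd_pow h2) <;> omega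

/-- The descent for `ℓ = 3`. -/
lemma descent_three (hℓp : 3 ≠ p) (hm : ∀ n, n ≠ 0 → (9 : ℤ) ∣ A.coeff n)
    (hu : ¬ (3 : ℤ) ∣ A.coeff 0) (hpm : (9 : ℤ) ∣ (p : ℤ) + 1) : False := by
  obtain ⟨Q, Q', hQ, hQ'⟩ := exists_split_pair h hm hpm
  have hp := isPairZ_cubic h (A.coeff 0)
  set u := A.coeff 0
  set U' : ℤ⟦X⟧ := -64 * (u : ℤ⟦X⟧) ^ 3 * (bSer + 14 * eSer) +
    3 * (-80 * (u : ℤ⟦X⟧) ^ 2 * Q * bSer + 3 * (u : ℤ⟦X⟧) * Q ^ 2 + 9 * Q ^ 3) with hU'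
  set w : ℤ⟦X⟧ := (p : ℤ⟦X⟧) * (u : ℤ⟦X⟧) with hw
  set V' : ℤ⟦X⟧ := -64 * w ^ 3 * (expand p p_ne_zero bSer + 14 * expand p p_ne_zero eSer) +
    3 * (-80 * w ^ 2 * Q' * expand p p_ne_zero bSer + 3 * w * Q' ^ 2 + 9 * Q' ^ 3) with hV'
  have hU : A ^ 3 - 3 * e4Ser * A * (u : ℤ⟦X⟧) ^ 2 + 2 * e6Ser * (u : ℤ⟦X⟧) ^ 3 =
      ((27 : ℤ) : ℤ⟦X⟧) * U' := by
    rw [hU', hQ, e4Ser, e6Ser, cSer]
    push_cast
    exact cubic_congr _ _ _ _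
  have hV : (-uSer p A) ^ 3 - 3 * expand p p_ne_zero e4Ser * -uSer p A *
      (((p : ℤ) * u : ℤ) : ℤ⟦X⟧) ^ 2 + 2 * expand p p_ne_zero e6Ser *
        (((p : ℤ) * u : ℤ) : ℤ⟦X⟧) ^ 3 = ((27 : ℤ) : ℤ⟦X⟧) * V' := by
    rw [hV', hw, hQ', expand_e4Ser, expand_e6Ser]
    push_cast
    exact cubic_congr _ _ _ _
  rw [hU, hV] at hp
  refine descent_false Nat.prime_three hℓp (w := 6) (by norm_num) (u := u ^ 3)
    (Z := -64 * linSer) (fun hd => hu (Int.prime_three.dvd_of_dvd_pow hd))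
    (by exact_mod_cast hp.of_intMul (by norm_num)) ?_ ?_ ?_ ?_
  · refine ⟨-80 * (u : ℤ⟦X⟧) ^ 2 * Q * bSer + 3 * (u : ℤ⟦X⟧) * Q ^ 2 + 9 * Q ^ 3, ?_⟩
    rw [hU', linSer]
    push_cast
    ring
  · refine ⟨-80 * w ^ 2 * Q' * expand p p_ne_zero bSer + 3 * w * Q' ^ 2 + 9 * Q' ^ 3, ?_⟩
    rw [hV', hw, linSer, map_mul, map_add, map_mul, map_neg, map_ofNat, map_ofNat]
    push_cast
    ring
  · rw [neg_mul, map_neg, coeff_ofNat_mul, coeff_zero_linSer]; ring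
  · rw [neg_mul, map_neg, coeff_ofNat_mul, coeff_one_linSer]; norm_num

/-- The descent for `ℓ = 2`. -/
lemma descent_two (hℓp : 2 ≠ p) (hm : ∀ n, n ≠ 0 → (8 : ℤ) ∣ A.coeff n)
    (hu : ¬ (2 : ℤ) ∣ A.coeff 0) (hpm : (8 : ℤ) ∣ (p : ℤ) + 1) : False := by
  obtain ⟨Q, Q', hQ, hQ'⟩ := exists_split_pair h hm hpm
  have hp := isPairZ_quartic h (A.coeff 0)
  set u := A.coeff 0
  set U' : ℤ⟦X⟧ := (u : ℤ⟦X⟧) ^ 4 * (-27 * bSer - 378 * eSer - 675 * bSer ^ 2) +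
    2 * (-108 * (u : ℤ⟦X⟧) ^ 3 * Q * (bSer + 14 * eSer) - 180 * (u : ℤ⟦X⟧) ^ 2 * bSer * Q ^ 2 +
      4 * (u : ℤ⟦X⟧) * Q ^ 3 + 8 * Q ^ 4) with hU'
  set w : ℤ⟦X⟧ := (p : ℤ⟦X⟧) * (u : ℤ⟦X⟧) with hw
  set B' := expand p p_ne_zero bSer with hB'
  set E' := expand p p_ne_zero eSer with hE'
  set V' : ℤ⟦X⟧ := w ^ 4 * (-27 * B' - 378 * E' - 675 * B' ^ 2) +
    2 * (-108 * w ^ 3 * Q' * (B' + 14 * E') - 180 * w ^ 2 * B' * Q' ^ 2 +
      4 * w * Q' ^ 3 + 8 * Q' ^ 4) with hV'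
  have hU : A ^ 4 - 6 * e4Ser * A ^ 2 * (u : ℤ⟦X⟧) ^ 2 + 8 * e6Ser * A * (u : ℤ⟦X⟧) ^ 3 -
      3 * e4Ser ^ 2 * (u : ℤ⟦X⟧) ^ 4 = ((256 : ℤ) : ℤ⟦X⟧) * U' := by
    rw [hU', hQ, e4Ser, e6Ser, cSer]
    push_cast
    exact quartic_congr _ _ _ _
  have hV : (-uSer p A) ^ 4 - 6 * expand p p_ne_zero e4Ser * (-uSer p A) ^ 2 *
      (((p : ℤ) * u : ℤ) : ℤ⟦X⟧) ^ 2 + 8 * expand p p_ne_zero e6Ser * -uSer p A *
        (((p : ℤ) * u : ℤ) : ℤ⟦X⟧) ^ 3 -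
      3 * expand p p_ne_zero e4Ser ^ 2 * (((p : ℤ) * u : ℤ) : ℤ⟦X⟧) ^ 4 =
      ((256 : ℤ) : ℤ⟦X⟧) * V' := by
    rw [hV', hw, hQ', expand_e4Ser, expand_e6Ser, ← hB', ← hE']
    push_cast
    exact quartic_congr _ _ _ _
  rw [hU, hV] at hp
  refine descent_false Nat.prime_two hℓp (w := 8) (by norm_num) (u := u ^ 4)
    (Z := quartSer) (fun hd => hu (Int.prime_two.dvd_of_dvd_pow hd))
    (by exact_mod_cast hp.of_intMul (by norm_num)) ?_ ?_ coeff_zero_quartSer ?_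
  · refine ⟨-108 * (u : ℤ⟦X⟧) ^ 3 * Q * (bSer + 14 * eSer) -
      180 * (u : ℤ⟦X⟧) ^ 2 * bSer * Q ^ 2 + 4 * (u : ℤ⟦X⟧) * Q ^ 3 + 8 * Q ^ 4, ?_⟩
    rw [hU', quartSer]
    push_cast
    ring
  · refine ⟨-108 * w ^ 3 * Q' * (B' + 14 * E') - 180 * w ^ 2 * B' * Q' ^ 2 +
      4 * w * Q' ^ 3 + 8 * Q' ^ 4, ?_⟩
    rw [hV', hw, quartSer, map_sub, map_sub, map_mul, map_mul, map_mul, map_pow, map_neg,
      map_ofNat, map_ofNat, map_ofNat, ← hB', ← hE']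
    push_cast
    ring
  · rw [coeff_one_quartSer]; norm_num

variable (hUA : ∀ n, A.coeff n = (uSer p A).coeff (n * p))
include hUA

omit hUA in
lemma not_self_congr (hp5 : 5 ≤ p) (hA0 : A.coeff 0 = -((p : ℤ) - 1))
    (hm : ∀ n, n ≠ 0 → (p : ℤ) ∣ A.coeff n) : False := by
  have hp : Prime (p : ℤ) := Nat.prime_iff_prime_int.mp (Fact.out : p.Prime)
  have hA : ¬ (p : ℤ) ∣ A.coeff 0 := by
    intro hd
    have h1 : (p : ℤ) ∣ 1 := by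
      have := dvd_add hd (dvd_refl (p : ℤ))
      rwa [hA0, show -((p : ℤ) - 1) + p = 1 by ring] at this
    exact hp.not_isUnit (isUnit_of_dvd_one h1)
  have hB := dvd_coeff_uSer (p_ne_zero (p := p)) hm
  have k4 : (p : ℤ) ∣ 240 := by
    obtain ⟨q1, hq1⟩ := dvd_coeff_pow hB 2 (n := p) p_ne_zero
    have := trace_sq h
    have hd : (p : ℤ) ∣ 240 * A.coeff 0 ^ 2 :=
      ⟨coeff 1 (A ^ 2) + q1 - 240 * A.coeff 0 ^ 2, by linear_combination hq1 - this⟩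
    exact (hp.dvd_mul.mp hd).resolve_right fun h' => hA (hp.dvd_of_dvd_pow h')
  have k6 : (p : ℤ) ∣ 504 := by
    obtain ⟨q1, hq1⟩ := dvd_coeff_pow hB 3 (n := p) p_ne_zero
    have := trace_cube h
    have hd : (p : ℤ) ∣ 504 * A.coeff 0 ^ 3 :=
      ⟨(p : ℤ) * coeff 1 (A ^ 3) - q1 + 504 * (p : ℤ) * A.coeff 0 ^ 3,
        by linear_combination -this - hq1⟩
    exact (hp.dvd_mul.mp hd).resolve_right fun h' => hA (hp.dvd_of_dvd_pow h')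
  have h24 : p ∣ 2 ^ 3 * 3 := by
    have h1 : p ∣ Nat.gcd 240 504 := Nat.dvd_gcd (by exact_mod_cast k4) (by exact_mod_cast k6)
    simpa using h1
  rcases (Fact.out : p.Prime).dvd_mul.mp h24 with h2 | h2
  · have := Nat.le_of_dvd (by norm_num) ((Fact.out : p.Prime).dvd_of_dvd_pow h2); omega
  · have := Nat.le_of_dvd (by norm_num) h2; omega

omit hUA in
lemma dvd_of_five_le {ℓ a : ℕ} (hℓ : ℓ.Prime) (h5 : 5 ≤ ℓ) (hℓp : ℓ ≠ p)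
    (hA0 : A.coeff 0 = -((p : ℤ) - 1)) (hm : ∀ n, n ≠ 0 → (ℓ : ℤ) ^ a ∣ A.coeff n) :
    ℓ ^ a ∣ p - 1 := by
  by_contra hne
  obtain ⟨b, c', hc', hpc⟩ := Nat.exists_eq_pow_mul_and_not_dvd
    (show p - 1 ≠ 0 by have := (Fact.out : p.Prime).two_le; omega) ℓ hℓ.ne_one
  have hba : b < a := by
    by_contra hab
    exact hne (hpc ▸ dvd_mul_of_dvd_left (pow_dvd_pow ℓ (not_lt.mp hab)) c')
  have hLb : ((ℓ : ℤ) ^ b) ≠ 0 := pow_ne_zero _ (Int.natCast_ne_zero.mpr hℓ.ne_zero)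
  obtain ⟨A', hA'⟩ : (((ℓ : ℤ) ^ b : ℤ) : ℤ⟦X⟧) ∣ A := dvd_series_iff.mpr fun n => by
    rcases eq_or_ne n 0 with rfl | hn
    · refine ⟨-(c' : ℤ), ?_⟩
      rw [hA0]
      have hc : ((p - 1 : ℕ) : ℤ) = (p : ℤ) - 1 := by
        have := (Fact.out : p.Prime).one_le; push_cast [Nat.cast_sub this]; ring
      rw [← hc, hpc]; push_cast; ring
    · exact (pow_dvd_pow _ hba.le).trans (hm n hn)
  have hcoef : ∀ n, A.coeff n = (ℓ : ℤ) ^ b * A'.coeff n := fun n => by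
    rw [hA', coeff_intCast_mul]
  have hu : uSer p A = (((ℓ : ℤ) ^ b : ℤ) : ℤ⟦X⟧) * uSer p A' :=
    PowerSeries.ext fun n => by simp only [coeff_intCast_mul, uSer, coeff_mk, hcoef]
  have h' : IsPairZ p 2 1 A' (-(uSer p A')) := by
    have := h
    rw [hu, hA'] at this
    refine IsPairZ.of_intMul hLb ?_
    rwa [mul_neg, hA'] at *
  have hA'0 : A'.coeff 0 = -(c' : ℤ) := by
    have hc : ((p - 1 : ℕ) : ℤ) = (p : ℤ) - 1 := by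
      have := (Fact.out : p.Prime).one_le; push_cast [Nat.cast_sub this]; ring
    refine mul_left_cancel₀ hLb ?_
    rw [← hcoef, hA0, ← hc, hpc]; push_cast; ring
  have hm' : ∀ n, n ≠ 0 → (ℓ : ℤ) ∣ A'.coeff n := fun n hn => by
    have h1 := (pow_dvd_pow (ℓ : ℤ) hba).trans (hm n hn)
    rw [hcoef, pow_succ] at h1
    exact (mul_dvd_mul_iff_left hLb).mp h1
  have hℓZ : Prime (ℓ : ℤ) := Nat.prime_iff_prime_int.mp hℓ
  have hu0 : ¬ (ℓ : ℤ) ∣ A'.coeff 0 := by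
    rw [hA'0, dvd_neg, Int.natCast_dvd_natCast]; exact hc'
  refine descent_five h' hℓ h5 hℓp hm' hu0 ?_
  rcases eq_or_ne ℓ 5 with rfl | h55
  · have h1 := trace_e6 h' hm'
    have hp' : ¬ (5 : ℤ) ∣ (p : ℤ) * A'.coeff 0 := fun hd => by
      rcases hℓZ.dvd_mul.mp hd with h2 | h2
      · exact hℓp ((Nat.prime_dvd_prime_iff_eq hℓ (Fact.out : p.Prime)).mp
          (Int.natCast_dvd_natCast.mp h2))
      · exact hu0 h2
    have h2 := (hℓZ.dvd_mul.mp h1).resolve_left hp'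
    have e : (((480 * ((p : ℤ) ^ 6 - 1) - 504 * (1 + (p : ℤ) ^ 5)) : ℤ) : ZMod 5) = 0 :=
      (ZMod.intCast_zmod_eq_zero_iff_dvd _ 5).mpr h2
    push_cast at e
    have key : ∀ x : ZMod 5, 480 * (x ^ 6 - 1) - 504 * (1 + x ^ 5) = 0 → x + 1 = 0 := by decide
    refine (ZMod.intCast_zmod_eq_zero_iff_dvd _ 5).mp ?_
    push_cast
    exact key _ e
  · obtain ⟨q1, hq1⟩ := dvd_coeff_pow (dvd_coeff_uSer (p_ne_zero (p := p)) hm') 2 (n := p)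
      p_ne_zero
    obtain ⟨q2, hq2⟩ := dvd_coeff_pow hm' 2 (n := 1) one_ne_zero
    have hd : (ℓ : ℤ) ∣ 240 * (((p : ℤ) + 1) * A'.coeff 0 ^ 2) :=
      ⟨(p : ℤ) * q2 + q1, by linear_combination hq1 + (p : ℤ) * hq2 - trace_sq h'⟩
    rcases hℓZ.dvd_mul.mp hd with h2 | h2
    · exfalso
      have hd' : ℓ ∣ 2 ^ 4 * 3 * 5 := by exact_mod_cast h2
      rcases hℓ.dvd_mul.mp hd' with h3 | h3
      · rcases hℓ.dvd_mul.mp h3 with h4 | h4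
        · have := Nat.le_of_dvd (by norm_num) (hℓ.dvd_of_dvd_pow h4); omega
        · have := Nat.le_of_dvd (by norm_num) h4; omega
      · exact h55 ((Nat.prime_dvd_prime_iff_eq hℓ Nat.prime_five).mp h3)
    · exact (hℓZ.dvd_mul.mp h2).resolve_right fun h3 => hu0 (hℓZ.dvd_of_dvd_pow h3)

lemma dvd_three {a : ℕ} (ha : 1 ≤ a) (hp5 : 5 ≤ p) (hA0 : A.coeff 0 = -((p : ℤ) - 1))
    (hm : ∀ n, n ≠ 0 → (24 : ℤ) * 3 ^ a ∣ A.coeff n) : 3 ^ (a + 1) ∣ p - 1 := by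
  have h3 : ¬ 3 ∣ p := fun hd => by
    have := (Nat.prime_dvd_prime_iff_eq Nat.prime_three (Fact.out : p.Prime)).mp hd; omega
  have hc : ((p - 1 : ℕ) : ℤ) = (p : ℤ) - 1 := by
    push_cast [Nat.cast_sub (show 1 ≤ p by omega)]; ring
  rcases (show p % 3 = 1 ∨ p % 3 = 2 by omega) with h1 | h2
  · have hd := trace_delta h hm
    rw [hA0, neg_mul, dvd_neg] at hd
    have hd' : (3 : ℤ) ^ (a + 1) ∣ ((p : ℤ) - 1) * coeff p dSer :=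
      (Dvd.intro 8 (by ring : (3 : ℤ) ^ (a + 1) * 8 = 24 * 3 ^ a)).trans hd
    have hτ := three_not_dvd_tau (Fact.out : p.Prime) (bSer_sq_prime (Fact.out : p.Prime)) h1
    have := (IsCoprime.pow_left (m := a + 1)
      ((Int.prime_three.coprime_iff_not_dvd).mpr hτ)).dvd_of_dvd_mul_right hd'
    rw [← hc] at this
    exact_mod_cast this
  exfalso
  have hu : ¬ (3 : ℤ) ∣ A.coeff 0 := by rw [hA0]; omega
  have h9 : ∀ n, n ≠ 0 → (9 : ℤ) ∣ A.coeff n := fun n hn =>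
    (Dvd.intro (8 * 3 ^ (a - 1)) (by
      obtain ⟨a, rfl⟩ := Nat.exists_eq_add_of_le' ha
      simp; ring : (9 : ℤ) * (8 * 3 ^ (a - 1)) = 24 * 3 ^ a)).trans (hm n hn)
  refine descent_three h (by omega) h9 hu ?_
  -- the weight six relation forces `9 ∣ p + 1`
  obtain ⟨x1, hx1⟩ := coeff_cube_congr h9 (by norm_num) (by norm_num) (n := 1) one_ne_zero
  obtain ⟨x2, hx2⟩ := coeff_cube_congr (dvd_coeff_uSer (p_ne_zero (p := p)) h9) (by norm_num)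
    (by norm_num) (n := p) p_ne_zero
  obtain ⟨x3, hx3⟩ := h9 1 one_ne_zero
  have hB : coeff p (uSer p A) = A.coeff 1 := by rw [hUA 1, one_mul]
  rw [coeff_zero_uSer, hB] at hx2
  obtain ⟨x4, hx4⟩ : (3 : ℤ) ∣ (p : ℤ) ^ 2 - 1 := by
    refine (ZMod.intCast_zmod_eq_zero_iff_dvd _ 3).mp ?_
    push_cast
    have e : (p : ZMod 3) = 2 := by rw [← ZMod.natCast_mod, h2]; rfl
    rw [e]; decide
  have hd : (81 : ℤ) ∣ 504 * (((p : ℤ) ^ 2 - 1) * A.coeff 0 ^ 3) :=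
    ⟨-((p : ℤ) ^ 2 * x1 - x2 + A.coeff 0 ^ 2 * x3 * x4), by
      linear_combination trace_cube h - (p : ℤ) ^ 2 * hx1 + hx2 -
        3 * A.coeff 0 ^ 2 * ((p : ℤ) ^ 2 - 1) * hx3 - 27 * A.coeff 0 ^ 2 * x3 * hx4⟩
  have h56 : (9 : ℤ) ∣ 56 * (((p : ℤ) ^ 2 - 1) * A.coeff 0 ^ 3) := by
    rw [show (504 : ℤ) * (((p : ℤ) ^ 2 - 1) * A.coeff 0 ^ 3) =
      9 * (56 * (((p : ℤ) ^ 2 - 1) * A.coeff 0 ^ 3)) by ring, show (81 : ℤ) = 9 * 9 by norm_num]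
      at hd
    exact (mul_dvd_mul_iff_left (by norm_num)).mp hd
  have hcop : ∀ x : ℤ, ¬ (3 : ℤ) ∣ x → IsCoprime (9 : ℤ) x := fun x hx => by
    rw [show (9 : ℤ) = 3 ^ 2 by norm_num]
    exact IsCoprime.pow_left ((Int.prime_three.coprime_iff_not_dvd).mpr hx)
  have h1 := (hcop 56 (by norm_num)).dvd_of_dvd_mul_left h56
  have h1' := ((hcop _ hu).pow_right (n := 3)).dvd_of_dvd_mul_right h1
  rw [show (p : ℤ) ^ 2 - 1 = ((p : ℤ) + 1) * ((p : ℤ) - 1) by ring] at h1'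
  exact (hcop _ (by omega)).dvd_of_dvd_mul_right h1'

lemma dvd_two {a : ℕ} (ha : 1 ≤ a) (hp5 : 5 ≤ p) (hA0 : A.coeff 0 = -((p : ℤ) - 1))
    (hm : ∀ n, n ≠ 0 → (24 : ℤ) * 2 ^ a ∣ A.coeff n) : 2 ^ (a + 2) ∣ p - 1 := by
  have _ := hUA
  have h2 : ¬ 2 ∣ p := fun hd => by
    have := (Nat.prime_dvd_prime_iff_eq Nat.prime_two (Fact.out : p.Prime)).mp hd; omega
  have hc : ((p - 1 : ℕ) : ℤ) = (p : ℤ) - 1 := by
    push_cast [Nat.cast_sub (show 1 ≤ p by omega)]; ring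
  have hd := trace_delta h hm
  rw [hA0, neg_mul, dvd_neg] at hd
  have hd' : (2 : ℤ) ^ (a + 3) ∣ ((p : ℤ) - 1) * coeff p dSer :=
    (Dvd.intro 3 (by ring : (2 : ℤ) ^ (a + 3) * 3 = 24 * 2 ^ a)).trans hd
  have hB2 := bSer_sq_prime (Fact.out : p.Prime)
  rcases (show p % 4 = 1 ∨ p % 8 = 3 ∨ p % 8 = 7 by omega) with h1 | h1 | h1
  · have hτ := tau_mod_four_eq_two (Fact.out : p.Prime) hB2 h1
    obtain ⟨t, ht⟩ : (2 : ℤ) ∣ coeff p dSer := by omega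
    have ht' : ¬ (2 : ℤ) ∣ t := by omega
    rw [ht, show ((p : ℤ) - 1) * (2 * t) = 2 * (((p : ℤ) - 1) * t) by ring, pow_succ',
      mul_dvd_mul_iff_left (by norm_num : (2 : ℤ) ≠ 0)] at hd'
    have := (IsCoprime.pow_left (m := a + 2)
      ((Int.prime_two.coprime_iff_not_dvd).mpr ht')).dvd_of_dvd_mul_right hd'
    rw [← hc] at this
    exact_mod_cast this
  · exfalso
    have hτ := tau_mod_eight_eq_four (Fact.out : p.Prime) hB2 h1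
    obtain ⟨s, hs⟩ : (4 : ℤ) ∣ coeff p dSer := by omega
    obtain ⟨r, hr⟩ : (2 : ℤ) ∣ (p : ℤ) - 1 := by omega
    have hs' : ¬ (2 : ℤ) ∣ s := by omega
    have hr' : ¬ (2 : ℤ) ∣ r := by omega
    have h16 : (8 : ℤ) * 2 ∣ 8 * (r * s) := by
      have := ((pow_dvd_pow (2 : ℤ) (show 4 ≤ a + 3 by omega))).trans hd'
      rw [hs, hr] at this
      rw [show (8 : ℤ) * (r * s) = 2 * r * (4 * s) by ring]
      simpa using this
    rcases Int.prime_two.dvd_mul.mp ((mul_dvd_mul_iff_left (by norm_num)).mp h16) with h3 | h3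
    · exact hr' h3
    · exact hs' h3
  exfalso
  obtain ⟨A', hA'⟩ : ((2 : ℤ) : ℤ⟦X⟧) ∣ A := dvd_series_iff.mpr fun n => by
    rcases eq_or_ne n 0 with rfl | hn
    · rw [hA0]; omega
    · exact (Dvd.intro (12 * 2 ^ a) (by ring : (2 : ℤ) * (12 * 2 ^ a) = 24 * 2 ^ a)).trans (hm n hn)
  have hcoef : ∀ n, A.coeff n = 2 * A'.coeff n := fun n => by rw [hA', coeff_intCast_mul]
  have hu : uSer p A = ((2 : ℤ) : ℤ⟦X⟧) * uSer p A' :=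
    PowerSeries.ext fun n => by simp only [coeff_intCast_mul, uSer, coeff_mk, hcoef]
  have h' : IsPairZ p 2 1 A' (-(uSer p A')) := by
    have := h
    rw [hu, hA'] at this
    refine IsPairZ.of_intMul (m := 2) two_ne_zero ?_
    rwa [mul_neg, hA'] at *
  refine descent_two h' (by omega) (fun n hn => ?_) ?_ (by omega)
  · have h48 : (2 : ℤ) * 8 ∣ 2 * A'.coeff n := by
      rw [← hcoef]
      exact (Dvd.intro (3 * 2 ^ (a - 1)) (by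
        obtain ⟨a, rfl⟩ := Nat.exists_eq_add_of_le' ha
        simp; ring : ((2 : ℤ) * 8) * (3 * 2 ^ (a - 1)) = 24 * 2 ^ a)).trans (hm n hn)
    exact (mul_dvd_mul_iff_left two_ne_zero).mp h48
  · have := hcoef 0
    rw [hA0] at this
    omega

/-- A congruence modulo a prime power between a cusp form and the Eisenstein form. -/
theorem prime_pow_dvd_eisensteinNumerator (hp5 : 5 ≤ p) {ℓ a : ℕ} (hℓ : ℓ.Prime) (ha : 1 ≤ a)
    (hA0 : A.coeff 0 = -((p : ℤ) - 1))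
    (hm : ∀ n, n ≠ 0 → (24 : ℤ) * (ℓ : ℤ) ^ a ∣ A.coeff n) :
    ℓ ^ a ∣ ModularCurve.eisensteinNumerator p := by
  set n := ModularCurve.eisensteinNumerator p with hn
  set g := Nat.gcd (p - 1) 12
  have hng : n * g = p - 1 := Nat.div_mul_cancel (Nat.gcd_dvd_left _ _)
  have key : ∀ w w' : ℕ, w * w' = 12 → Nat.Coprime ℓ w' → ℓ ^ a * w ∣ p - 1 → w ≠ 0 →
      ℓ ^ a ∣ n := fun w w' h12 hcop hd hw => by
    have h1 : ℓ ^ a * w ∣ (n * w') * w := by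
      refine hd.trans ?_
      rw [← hng, mul_assoc, mul_comm w' w, h12]
      exact Nat.mul_dvd_mul_left _ (Nat.gcd_dvd_right _ _)
    exact (Nat.Coprime.pow_left a hcop).dvd_of_dvd_mul_right
      (Nat.dvd_of_mul_dvd_mul_right (Nat.pos_of_ne_zero hw) h1)
  have hm' : ∀ k, k ≠ 0 → (ℓ : ℤ) ^ a ∣ A.coeff k := fun k hk =>
    (dvd_mul_left _ _).trans (hm k hk)
  rcases eq_or_ne ℓ p with rfl | hℓp
  · exact absurd (not_self_congr h hp5 hA0 fun k hk => (dvd_pow_self _ (by omega)).trans (hm' k hk))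
      id
  rcases eq_or_ne ℓ 2 with rfl | h2
  · exact key 4 3 rfl (by norm_num)
      (by simpa [pow_add] using dvd_two h hUA ha hp5 hA0 (by exact_mod_cast hm)) (by norm_num)
  rcases eq_or_ne ℓ 3 with rfl | h3
  · exact key 3 4 rfl (by norm_num)
      (by simpa [pow_add] using dvd_three h hUA ha hp5 hA0 (by exact_mod_cast hm)) (by norm_num)
  have h5 : 5 ≤ ℓ := by
    by_contra hlt
    have := hℓ.two_le
    interval_cases ℓ <;> first | omega | norm_num at hℓ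
  refine key 1 12 rfl ?_ (by simpa using dvd_of_five_le h hℓ h5 hℓp hA0 hm') one_ne_zero
  refine (Nat.Prime.coprime_iff_not_dvd hℓ).mpr fun hd => ?_
  have hd' : ℓ ∣ 2 ^ 2 * 3 := by simpa using hd
  rcases hℓ.dvd_mul.mp hd' with h4 | h4
  · have := Nat.le_of_dvd (by norm_num) (hℓ.dvd_of_dvd_pow h4); omega
  · have := Nat.le_of_dvd (by norm_num) h4; omega

end FermatAgent.Period.Eis
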