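import Fermat.Agent.Period.Eisenstein.EisensteinForm

/-!
# Consequences of the trace for congruences with the Eisenstein form
-/

set_option autoImplicit false

noncomputable section

open scoped PowerSeries
open PowerSeries Function

namespace FermatAgent.Period.Eis

/-- A series congruent to a constant modulo `m` is the constant plus a multiple of `m`. -/
lemma exists_split {m : ℤ} {P : ℤ⟦X⟧} (h : ∀ n, n ≠ 0 → m ∣ P.coeff n) :
    ∃ Q : ℤ⟦X⟧, P = (P.coeff 0 : ℤ⟦X⟧) + (m : ℤ⟦X⟧) * Q := by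
  obtain ⟨Q, hQ⟩ : (m : ℤ⟦X⟧) ∣ P - (P.coeff 0 : ℤ⟦X⟧) := by
    refine dvd_series_iff.mpr fun n => ?_
    rw [map_sub, ← map_intCast (C : ℤ →+* ℤ⟦X⟧), Int.cast_id, coeff_C]
    rcases eq_or_ne n 0 with rfl | hn
    · simp
    · simpa [hn] using h n hn
  exact ⟨Q, by linear_combination hQ⟩

lemma coeff_intCast_of_ne (c : ℤ) {n : ℕ} (hn : n ≠ 0) : coeff n (c : ℤ⟦X⟧) = 0 := by
  rw [← map_intCast (C : ℤ →+* ℤ⟦X⟧), Int.cast_id, coeff_C, if_neg hn]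

/-- Powers of a series congruent to a constant are congruent to constants. -/
lemma dvd_coeff_pow {m : ℤ} {P : ℤ⟦X⟧} (h : ∀ n, n ≠ 0 → m ∣ P.coeff n) (r : ℕ) {n : ℕ}
    (hn : n ≠ 0) : m ∣ coeff n (P ^ r) := by
  obtain ⟨Q, hQ⟩ := exists_split h
  obtain ⟨W, hW⟩ : (m : ℤ⟦X⟧) ∣ P ^ r - (P.coeff 0 : ℤ⟦X⟧) ^ r :=
    (Dvd.intro Q (show (m : ℤ⟦X⟧) * Q = P - (P.coeff 0 : ℤ⟦X⟧) by linear_combination -hQ)).trans
      (sub_dvd_pow_sub_pow _ _ r)
  have e : coeff n (P ^ r) = m * coeff n W := by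
    rw [← coeff_intCast_mul, ← hW, map_sub, ← Int.cast_pow, coeff_intCast_of_ne _ hn, sub_zero]
  exact ⟨_, e⟩

/-- The cube of a series congruent to a constant, modulo `81`. -/
lemma coeff_cube_congr {m : ℤ} {P : ℤ⟦X⟧} (h : ∀ n, n ≠ 0 → m ∣ P.coeff n)
    (hm : (81 : ℤ) ∣ 3 * m ^ 2)
    (hm' : (81 : ℤ) ∣ m ^ 3) {n : ℕ} (hn : n ≠ 0) :
    (81 : ℤ) ∣ coeff n (P ^ 3) - 3 * P.coeff 0 ^ 2 * coeff n P := by
  obtain ⟨Q, hQ⟩ := exists_split h
  set c := P.coeff 0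
  have e : P ^ 3 - ((3 * c ^ 2 : ℤ) : ℤ⟦X⟧) * P =
      ((-2 * c ^ 3 : ℤ) : ℤ⟦X⟧) + ((3 * m ^ 2 : ℤ) : ℤ⟦X⟧) * ((c : ℤ⟦X⟧) * Q ^ 2) +
        ((m ^ 3 : ℤ) : ℤ⟦X⟧) * Q ^ 3 := by
    rw [hQ]; push_cast; ring
  have := congrArg (coeff n) e
  rw [map_sub, coeff_intCast_mul, map_add, map_add, coeff_intCast_of_ne _ hn, coeff_intCast_mul,
    coeff_intCast_mul, coeff_intCast_mul, zero_add] at this
  rw [this]
  exact dvd_add (dvd_mul_of_dvd_left hm _) (dvd_mul_of_dvd_left hm' (coeff n (Q ^ 3)))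

lemma dvd_coeff_mul_sub {m : ℤ} {P Y : ℤ⟦X⟧} (h : ∀ n, n ≠ 0 → m ∣ P.coeff n) (n : ℕ) :
    m ∣ coeff n (P * Y) - P.coeff 0 * coeff n Y := by
  obtain ⟨Q, hQ⟩ := exists_split h
  refine ⟨coeff n (Q * Y), ?_⟩
  set c := P.coeff 0
  rw [hQ, add_mul, map_add, coeff_intCast_mul, mul_assoc, coeff_intCast_mul]
  ring

lemma coeff_eq_of_toC {T M : ℤ⟦X⟧}
    (h : toC T = PowerSeries.C ((T.coeff 0 : ℤ) : ℂ) * toC M) (n : ℕ) :
    T.coeff n = T.coeff 0 * M.coeff n := by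
  have h1 := congrArg (PowerSeries.coeff n) h
  rw [PowerSeries.coeff_C_mul, coeff_toC, coeff_toC] at h1
  exact_mod_cast h1

variable {p : ℕ}

/-- `uSer` keeps the constant term. -/
lemma coeff_zero_uSer (A : ℤ⟦X⟧) : coeff 0 (uSer p A) = coeff 0 A := by simp [uSer]

/-- `uSer` preserves congruence to a constant. -/
lemma dvd_coeff_uSer (hp : p ≠ 0) {m : ℤ} {A : ℤ⟦X⟧} (h : ∀ n, n ≠ 0 → m ∣ A.coeff n) :
    ∀ n, n ≠ 0 → m ∣ coeff n (uSer p A) := fun n hn => by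
  rw [uSer, coeff_mk]; exact h _ (mul_ne_zero hn hp)

lemma coeff_trSer (e : ℕ) (U V : ℤ⟦X⟧) (n : ℕ) :
    coeff n (trSer p e U V) = (p : ℤ) ^ e * coeff n U + (p : ℤ) * coeff (n * p) V := by
  rw [trSer, coeff_mk]

variable [Fact p.Prime]

lemma coeff_zero_expand (P : ℤ⟦X⟧) : coeff 0 (expand p p_ne_zero P) = coeff 0 P := by
  simp [coeff_expand]

lemma coeff_one_expand (P : ℤ⟦X⟧) : coeff 1 (expand p p_ne_zero P) = 0 := by
  rw [coeff_expand, if_neg]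
  exact fun h => (Fact.out : p.Prime).ne_one (Nat.dvd_one.mp h)

namespace IsPairZ

variable {k : ℤ} {x : ℤ⟦X⟧} {X : UpperHalfPlane → ℂ}

lemma levelOne_swap {j : ℕ} (hX : X ∈ modFns ⊤ (j : ℤ)) (hx : qS X = toC x) :
    IsPairZ p j j (expand p p_ne_zero x) x := by
  have h := (IsPairZ.levelOne (p := p) hX hx)
  unfold IsPairZ at h ⊢
  rw [pow_zero, inv_one, map_one, one_mul] at h
  have h' := h.swap
  rwa [zpow_natCast] at h'

end IsPairZ

variable {A : ℤ⟦X⟧} (h : IsPairZ p 2 1 A (-(uSer p A)))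

include h

/-- The weight four relation. -/
lemma trace_sq :
    (p : ℤ) * coeff 1 (A ^ 2) + coeff p (uSer p A ^ 2) =
      240 * (((p : ℤ) + 1) * A.coeff 0 ^ 2) := by
  obtain ⟨G, hG, hq⟩ := (h.pow 2).trace
  have h4 := qS_weight_four (G := G) (by simpa using hG)
  rw [hq, coeff_toC] at h4
  have h1' : coeff 1 (trSer p (2 * 1) (A ^ 2) ((-uSer p A) ^ 2)) =
      coeff 0 (trSer p (2 * 1) (A ^ 2) ((-uSer p A) ^ 2)) * coeff 1 e4Ser :=
    coeff_eq_of_toC h4 1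
  have hA2 : coeff 0 (A ^ 2) = A.coeff 0 ^ 2 := by simp
  have hB2 : coeff 0 (uSer p A ^ 2) = A.coeff 0 ^ 2 := by
    rw [coeff_zero_eq_constantCoeff_apply, map_pow, ← coeff_zero_eq_constantCoeff_apply,
      coeff_zero_uSer]
  rw [coeff_trSer, coeff_trSer, neg_sq, one_mul, zero_mul, hA2, hB2, e4Ser, map_add,
    coeff_ofNat_mul, coeff_one, coeff_one_bSer, if_neg one_ne_zero] at h1'
  have hp : (p : ℤ) ≠ 0 := Int.natCast_ne_zero.mpr p_ne_zero
  refine mul_left_cancel₀ hp ?_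
  linear_combination h1'

/-- The weight six relation. -/
lemma trace_cube :
    (p : ℤ) ^ 2 * coeff 1 (A ^ 3) - coeff p (uSer p A ^ 3) =
      -504 * (((p : ℤ) ^ 2 - 1) * A.coeff 0 ^ 3) := by
  obtain ⟨G, hG, hq⟩ := (h.pow 3).trace
  have h4 := qS_weight_six (G := G) (by simpa using hG)
  rw [hq, coeff_toC] at h4
  have h1' : coeff 1 (trSer p (3 * 1) (A ^ 3) ((-uSer p A) ^ 3)) =
      coeff 0 (trSer p (3 * 1) (A ^ 3) ((-uSer p A) ^ 3)) * coeff 1 e6Ser :=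
    coeff_eq_of_toC h4 1
  have hA2 : coeff 0 (A ^ 3) = A.coeff 0 ^ 3 := by simp
  have hB2 : coeff 0 (uSer p A ^ 3) = A.coeff 0 ^ 3 := by
    rw [coeff_zero_eq_constantCoeff_apply, map_pow, ← coeff_zero_eq_constantCoeff_apply,
      coeff_zero_uSer]
  rw [coeff_trSer, coeff_trSer, Odd.neg_pow (by decide), map_neg, map_neg, one_mul, zero_mul, hA2,
    hB2, e6Ser, map_sub, coeff_ofNat_mul, coeff_one, coeff_cSer, if_neg one_ne_zero,
    if_neg one_ne_zero, ArithmeticFunction.sigma_one] at h1'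
  have hp : (p : ℤ) ≠ 0 := Int.natCast_ne_zero.mpr p_ne_zero
  refine mul_left_cancel₀ hp ?_
  push_cast at h1'
  linear_combination h1'

/-- The relation from multiplication by the discriminant. -/
lemma trace_delta {m : ℤ} (hm : ∀ n, n ≠ 0 → m ∣ A.coeff n) :
    m ∣ A.coeff 0 * coeff p dSer := by
  obtain ⟨G, hG, hq⟩ := (h.mul (IsPairZ.levelOne_swap (j := 12) (by exact_mod_cast dsc_mem) qS_dsc)
    (c := 14) (by norm_num)).trace
  have h0 : (qS G).coeff 0 = 0 := by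
    rw [hq, coeff_toC, coeff_trSer, zero_mul, coeff_zero_eq_constantCoeff_apply, map_mul,
      ← coeff_zero_eq_constantCoeff_apply, ← coeff_zero_eq_constantCoeff_apply,
      coeff_zero_expand (p := p), coeff_zero_dSer,
      coeff_zero_eq_constantCoeff_apply (-_ * _), map_mul,
      ← coeff_zero_eq_constantCoeff_apply dSer, coeff_zero_dSer]
    simp
  have h14 := qS_weight_fourteen hG h0
  rw [hq] at h14
  have h1 : coeff 1 (trSer p (1 + 12) (A * expand p p_ne_zero dSer) (-uSer p A * dSer)) = 0 := by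
    have := congrArg (PowerSeries.coeff 1) h14
    rw [coeff_toC, map_zero] at this
    exact_mod_cast this
  have e1 : coeff 1 (A * expand p p_ne_zero dSer) = 0 := by
    rw [PowerSeries.coeff_mul, Finset.Nat.sum_antidiagonal_eq_sum_range_succ_mk]
    rw [Finset.sum_range_succ, Finset.sum_range_succ, Finset.sum_range_zero, Nat.sub_zero,
      Nat.sub_self, coeff_one_expand (p := p), coeff_zero_expand (p := p), coeff_zero_dSer]
    ring
  rw [coeff_trSer, e1, one_mul, mul_zero, zero_add, mul_eq_zero, neg_mul, map_neg,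
    neg_eq_zero] at h1
  have h2 := h1.resolve_left (Int.natCast_ne_zero.mpr p_ne_zero)
  have h3 := dvd_coeff_mul_sub (Y := dSer) (dvd_coeff_uSer (p_ne_zero (p := p)) hm) p
  rw [h2, coeff_zero_uSer, zero_sub, dvd_neg] at h3
  exact h3

/-- The relation from multiplication by `E₆`. -/
lemma trace_e6 {m : ℤ} (hm : ∀ n, n ≠ 0 → m ∣ A.coeff n) :
    m ∣ (p : ℤ) * A.coeff 0 * (480 * ((p : ℤ) ^ 6 - 1) - 504 * (1 + (p : ℤ) ^ 5)) := by
  obtain ⟨G, hG, hq⟩ := (h.mul (IsPairZ.levelOne_swap (j := 6) (by exact_mod_cast e6_mem) qS_e6)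
    (c := 8) (by norm_num)).trace
  have h8 := qS_weight_eight hG
  rw [hq, coeff_toC] at h8
  have hs : coeff 1 (e4Ser ^ 2) = 480 := by
    rw [show e4Ser ^ 2 = 1 + 480 * bSer + 57600 * bSer ^ 2 by rw [e4Ser]; ring, map_add, map_add,
      coeff_ofNat_mul, coeff_ofNat_mul, coeff_one, if_neg one_ne_zero, coeff_one_bSer,
      coeff_one_sq coeff_zero_bSer]
    ring
  have h1' : coeff 1 (trSer p (1 + 6) (A * expand p p_ne_zero e6Ser) (-uSer p A * e6Ser)) =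
      coeff 0 (trSer p (1 + 6) (A * expand p p_ne_zero e6Ser) (-uSer p A * e6Ser)) * 480 := by
    rw [coeff_eq_of_toC h8 1, hs]
  have h60 : coeff 0 e6Ser = 1 := by simpa using coeff_zero_mono 0 1
  have e1 : coeff 1 (A * expand p p_ne_zero e6Ser) = coeff 1 A := by
    rw [PowerSeries.coeff_mul, Finset.Nat.sum_antidiagonal_eq_sum_range_succ_mk]
    rw [Finset.sum_range_succ, Finset.sum_range_succ, Finset.sum_range_zero, Nat.sub_zero,
      Nat.sub_self, coeff_one_expand (p := p), coeff_zero_expand (p := p), h60]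
    ring
  have e0 : coeff 0 (A * expand p p_ne_zero e6Ser) = A.coeff 0 := by
    rw [coeff_zero_eq_constantCoeff_apply, map_mul, ← coeff_zero_eq_constantCoeff_apply,
      ← coeff_zero_eq_constantCoeff_apply, coeff_zero_expand (p := p), h60, mul_one]
  have e0' : coeff 0 (uSer p A * e6Ser) = A.coeff 0 := by
    rw [coeff_zero_eq_constantCoeff_apply, map_mul, ← coeff_zero_eq_constantCoeff_apply,
      ← coeff_zero_eq_constantCoeff_apply, coeff_zero_uSer, h60, mul_one]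
  have e6p : coeff p e6Ser = -504 * (1 + (p : ℤ) ^ 5) := by
    rw [e6Ser, map_sub, coeff_ofNat_mul, coeff_one, if_neg p_ne_zero,
      coeff_cSer_prime (Fact.out : p.Prime)]
    ring
  rw [coeff_trSer, coeff_trSer, one_mul, zero_mul, e1, e0, neg_mul, map_neg, map_neg, e0'] at h1'
  obtain ⟨q, hq1⟩ := dvd_coeff_mul_sub (Y := e6Ser) (dvd_coeff_uSer (p_ne_zero (p := p)) hm) p
  obtain ⟨q', hq'⟩ := hm 1 one_ne_zero
  rw [coeff_zero_uSer, e6p] at hq1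
  refine ⟨(p : ℤ) ^ 7 * q' - (p : ℤ) * q, ?_⟩
  linear_combination (p : ℤ) ^ 7 * hq' - h1' - (p : ℤ) * hq1

omit h

lemma pow_dvd_pow_sub {ℓ : ℕ} {y z : ℤ⟦X⟧} (h : (ℓ : ℤ⟦X⟧) ∣ y - z) (s : ℕ) :
    (((ℓ : ℤ) ^ (s + 1) : ℤ) : ℤ⟦X⟧) ∣ y ^ ℓ ^ s - z ^ ℓ ^ s := by
  push_cast
  exact dvd_sub_pow_of_dvd_sub h s

/-- The common reduction of both expansions cannot have a simple zero. -/
theorem descent_false {ℓ : ℕ} (hℓ : ℓ.Prime) (hℓp : ℓ ≠ p) {w e : ℕ}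
    (hw : w < 12) {U V Z : ℤ⟦X⟧} {u : ℤ} (hu : ¬ (ℓ : ℤ) ∣ u)
    (hpair : IsPairZ p w e U V) (hU : (ℓ : ℤ⟦X⟧) ∣ U - (u : ℤ⟦X⟧) * Z)
    (hV : (ℓ : ℤ⟦X⟧) ∣ V - (((p : ℤ) ^ e * u : ℤ) : ℤ⟦X⟧) * expand p p_ne_zero Z)
    (hZ0 : coeff 0 Z = 0) (hZ1 : ¬ (ℓ : ℤ) ∣ coeff 1 Z) : False := by
  obtain ⟨s, t, ht, hst⟩ := Nat.exists_eq_pow_mul_and_not_dvd (Nat.succ_ne_zero p) ℓ hℓ.ne_one
  set R := ℓ ^ s with hR
  have hR0 : 0 < R := pow_pos hℓ.pos s
  obtain ⟨a1, ha1⟩ := pow_dvd_pow_sub hU s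
  obtain ⟨a2, ha2⟩ := pow_dvd_pow_sub hV s
  rw [← hR] at ha1 ha2
  set W := expand p p_ne_zero Z
  have hW : ∀ n, coeff (n * p) (W ^ R) = coeff n (Z ^ R) := fun n => by
    rw [← map_pow, mul_comm, coeff_expand_mul]
  have hL : ((ℓ : ℤ) ^ s) = (R : ℤ) := by rw [hR]; push_cast; rfl
  set g : ℤ⟦X⟧ := mk fun n => ((p : ℤ) ^ (R * e) * u ^ R * t * coeff n (Z ^ R) +
    (ℓ : ℤ) * ((p : ℤ) ^ (R * e) * coeff n a1 + (p : ℤ) * coeff (n * p) a2)) with hg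
  have htr : trSer p (R * e) (U ^ R) (V ^ R) = ((R : ℤ) : ℤ⟦X⟧) * g := by
    refine PowerSeries.ext fun n => ?_
    have h1 := congrArg (coeff n) ha1
    have h2 := congrArg (coeff (n * p)) ha2
    rw [map_sub, mul_pow, ← Int.cast_pow, coeff_intCast_mul, coeff_intCast_mul] at h1
    rw [map_sub, mul_pow, ← Int.cast_pow, coeff_intCast_mul, coeff_intCast_mul, hW] at h2
    rw [coeff_trSer, coeff_intCast_mul, hg, coeff_mk]
    have hp1 : ((p : ℤ) + 1) = (R : ℤ) * t := by exact_mod_cast hst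
    rw [pow_succ, hL] at h1 h2
    rw [mul_pow, ← pow_mul, mul_comm e R] at h2
    linear_combination (p : ℤ) ^ (R * e) * h1 + (p : ℤ) * h2 +
      (p : ℤ) ^ (R * e) * u ^ R * coeff n (Z ^ R) * hp1
  obtain ⟨G, hG, hq⟩ := (hpair.pow R).trace
  have hG' : (R : ℂ)⁻¹ • G ∈ modFns ⊤ (((R * w : ℕ) : ℕ) : ℤ) := by
    refine Submodule.smul_mem _ _ ?_
    simpa using hG
  have hqG : qS ((R : ℂ)⁻¹ • G) = toC g := by
    rw [qS_smul _ (mem_hPer_top hG), hq, htr, map_mul, map_intCast, Int.cast_natCast,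
      ← map_natCast (PowerSeries.C : ℂ →+* ℂ⟦X⟧), ← mul_assoc, ← map_mul,
      inv_mul_cancel₀ (Nat.cast_ne_zero.mpr hR0.ne'), map_one, one_mul]
  obtain ⟨Z', hZ'⟩ : (PowerSeries.X : ℤ⟦X⟧) ∣ Z :=
    X_dvd_iff.mpr (by rw [← coeff_zero_eq_constantCoeff_apply]; exact hZ0)
  have hZR : Z ^ R = PowerSeries.X ^ R * Z' ^ R := by rw [hZ', mul_pow]
  have hsmall : ∀ n < R, coeff n (Z ^ R) = 0 := fun n hn =>
    X_pow_dvd_iff.mp ⟨_, hZR⟩ n hn
  have hR1 : coeff R (Z ^ R) = coeff 1 Z ^ R := by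
    rw [hZR, coeff_X_pow_mul', if_pos le_rfl, Nat.sub_self, coeff_zero_eq_constantCoeff_apply,
      map_pow, hZ', coeff_succ_X_mul, coeff_zero_eq_constantCoeff_apply]
  have key := sturm_mod (ℓ := (ℓ : ℤ)) (R * w) hG' hqG (fun n hn => by
    rw [hg, coeff_mk, hsmall n ?_, mul_zero, zero_add]
    · exact dvd_mul_right _ _
    · have : R * w / 12 < R := by
        rw [Nat.div_lt_iff_lt_mul (by norm_num)]
        exact Nat.mul_lt_mul_of_pos_left hw hR0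
      omega) R
  rw [hg, coeff_mk, hR1, dvd_add_left (dvd_mul_right _ _)] at key
  have hℓZ : Prime (ℓ : ℤ) := Nat.prime_iff_prime_int.mp hℓ
  rcases hℓZ.dvd_mul.mp key with hk | hk
  · rcases hℓZ.dvd_mul.mp hk with hk | hk
    · rcases hℓZ.dvd_mul.mp hk with hk | hk
      · exact hℓp ((Nat.prime_dvd_prime_iff_eq hℓ (Fact.out : p.Prime)).mp
          (Int.natCast_dvd_natCast.mp (hℓZ.dvd_of_dvd_pow hk)))
      · exact hu (hℓZ.dvd_of_dvd_pow hk)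
    · exact ht (Int.natCast_dvd_natCast.mp hk)
  · exact hZ1 (hℓZ.dvd_of_dvd_pow hk)

end FermatAgent.Period.Eis
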