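import Fermat.Agent.Period.Eisenstein.LowerBound
import Fermat.Prelude.Def_CuspForm_HeckeEvalForms
import Fermat.Prelude.Def_CuspForm_HeckeLocal

/-!
# The index of the Eisenstein ideal

For a prime level `p` the quotient of the Hecke algebra of `S₂(Γ₀(p))` by the Eisenstein ideal,
generated by `T_ℓ - 1 - ℓ` and `U_p - 1`, is cyclic of order the numerator of `(p - 1) / 12`.
-/

set_option autoImplicit false

noncomputable section

open CuspForm ModularCurve

namespace FermatAgent.Period.Eis

variable (p : ℕ) [Fact p.Prime]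

lemma heckeFormsGen_eq_opAt (q : Nat.Primes) : heckeFormsGen p 2 q = opAt p q.2 := by
  unfold heckeFormsGen
  split <;> rename_i h <;> exact Subtype.ext (by simp [opAt, MF.heckeAt, h])

lemma eisensteinSystem_eq (q : Nat.Primes) :
    eisensteinSystem p q = if (q : ℕ) = p then 1 else 1 + (q : ℤ) := by
  have h : ((q : ℕ) ∣ p) ↔ (q : ℕ) = p := Nat.prime_dvd_prime_iff_eq q.2 (Fact.out : p.Prime)
  unfold eisensteinSystem
  simp only [h]

/-- A character to which the Eisenstein ideal maps to zero. -/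
lemma ker_of_isEisChar {R : Type*} [CommRing R] {φ : heckeAlgebra p 2 ∅ →+* R}
    (hφ : IsEisChar φ) (x : HeckeAlg) (hx : x ∈ eisensteinIdeal p) :
    φ (heckeEvalForms p 2 x) = 0 := by
  have h : (φ.comp (heckeEvalForms p 2)) =
      (Int.castRingHom R).comp (MvPolynomial.aeval (R := ℤ) (eisensteinSystem p)).toRingHom := by
    refine MvPolynomial.ringHom_ext (fun c => ?_) (fun q => ?_)
    · simp
    · rw [RingHom.comp_apply, show (MvPolynomial.X q : HeckeAlg) = heckeGen q from rfl,
        heckeEvalForms_heckeGen, heckeFormsGen_eq_opAt, hφ q q.2, RingHom.comp_apply,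
        AlgHom.toRingHom_eq_coe, RingHom.coe_coe, aeval_heckeGen, eisensteinSystem_eq]
      split <;> simp
  have := RingHom.congr_fun h x
  rw [RingHom.comp_apply, RingHom.comp_apply] at this
  rw [this]
  have hx0 := (mem_eigenIdeal_iff _ x).mp hx
  simp only [AlgHom.toRingHom_eq_coe, RingHom.coe_coe, hx0, map_zero]

lemma isEisChar_of_ker {R : Type*} [CommRing R] (φ : heckeAlgebra p 2 ∅ →+* R)
    (h : ∀ x ∈ eisensteinIdeal p, φ (heckeEvalForms p 2 x) = 0) : IsEisChar φ := by
  have key : ∀ q : Nat.Primes, φ (opAt p q.2) = ((eisensteinSystem p q : ℤ) : R) := fun q => by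
    have h1 := h _ (heckeGen_sub_mem_eigenIdeal (eisensteinSystem p) q (eisensteinSystem p q) rfl)
    rw [map_sub (heckeEvalForms p 2), map_sub, heckeEvalForms_heckeGen, heckeFormsGen_eq_opAt,
      heckeEvalForms_C, sub_eq_zero, eq_intCast, map_intCast] at h1
    exact h1
  intro q hq
  obtain ⟨q', rfl⟩ : ∃ q' : Nat.Primes, (q' : ℕ) = q := ⟨⟨q, hq⟩, rfl⟩
  rw [key q', eisensteinSystem_eq]
  split <;> simp

/-- The Eisenstein quotient of the Hecke algebra is generated by the integers. -/
lemma exists_int_of_isEisChar {R : Type*} [CommRing R] {φ : heckeAlgebra p 2 ∅ →+* R}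
    (hφ : IsEisChar φ) (t : heckeAlgebra p 2 ∅) : ∃ z : ℤ, (z : R) = φ t := by
  refine adjoin_opAt_induction (P := fun t => ∃ z : ℤ, (z : R) = φ t) ?_ ?_ ?_ ?_ t
  · exact fun c => ⟨c, (map_intCast φ c).symm⟩
  · exact fun q hq => ⟨if q = p then 1 else 1 + (q : ℤ), by rw [hφ q hq]; split <;> simp⟩
  · rintro s t ⟨a, ha⟩ ⟨b, hb⟩
    exact ⟨a + b, by rw [Int.cast_add, map_add, ha, hb]⟩
  · rintro s t ⟨a, ha⟩ ⟨b, hb⟩
    exact ⟨a * b, by rw [Int.cast_mul, map_mul, ha, hb]⟩

/-- The index is the numerator for every quotient with the universal property. -/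
lemma natCard_eq_of_universal {Q : Type*} [CommRing Q] (e : heckeAlgebra p 2 ∅ →+* Q)
    (he : Function.Surjective e) (heis : IsEisChar e)
    (huniv : ∀ χ : heckeAlgebra p 2 ∅ →+* ZMod (eisensteinNumerator p), IsEisChar χ →
      Nonempty (Q →+* ZMod (eisensteinNumerator p))) :
    Nat.card Q = eisensteinNumerator p := by
  set m := ringChar Q
  let E : ZMod m ≃+* Q :=
    RingEquiv.ofBijective (ZMod.castHom (dvd_refl m) Q)
      ⟨ZMod.castHom_injective _, fun y => by
        obtain ⟨t, rfl⟩ := he y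
        obtain ⟨z, hz⟩ := exists_int_of_isEisChar p heis t
        exact ⟨(z : ZMod m), by rw [map_intCast, hz]⟩⟩
  rw [← Nat.card_congr E.toEquiv, Nat.card_zmod]
  refine Nat.dvd_antisymm ?_ ?_
  · rw [Nat.dvd_iff_prime_pow_dvd_dvd]
    intro ℓ a hℓ ha
    let ψ : Q →+* ZMod (ℓ ^ a) := (ZMod.castHom ha (ZMod (ℓ ^ a))).comp E.symm.toRingHom
    refine prime_pow_dvd_of_isEisChar hℓ (ψ.comp e) fun q hq => ?_
    rw [RingHom.comp_apply, heis q hq]
    split <;> simp
  · obtain ⟨χ, hχ⟩ := exists_isEisChar (p := p)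
    obtain ⟨f⟩ := huniv χ hχ
    have h0 : ((m : ℕ) : Q) = 0 := ringChar.Nat.cast_ringChar
    have := congrArg f h0
    rw [map_natCast, map_zero] at this
    exact (ZMod.natCast_eq_zero_iff _ _).mp this

/-- **The index of the Eisenstein ideal.** The Hecke algebra acting on the integral lattice of
`S₂(Γ₀(p))`, modulo the image of the Eisenstein ideal, has the numerator of `(p - 1) / 12`
elements. -/
theorem natCard_quotient_eisensteinIdeal :
    Nat.card (↥(heckeLatticeAlgebra p ∅) ⧸
        Ideal.map ((latticeRestrictHom p ∅).toRingHom.comp (heckeEvalForms p 2))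
          (eisensteinIdeal p)) =
      eisensteinNumerator p := by
  set I := Ideal.map ((latticeRestrictHom p ∅).toRingHom.comp (heckeEvalForms p 2))
          (eisensteinIdeal p) with hI
  let e : heckeAlgebra p 2 ∅ →+* (heckeLatticeAlgebra p ∅ ⧸ I) :=
    (Ideal.Quotient.mk I).comp (latticeRestrictHom p ∅).toRingHom
  refine natCard_eq_of_universal p e
    (Ideal.Quotient.mk_surjective.comp (latticeRestrictHom_surjective p ∅))
    (isEisChar_of_ker p e fun x hx =>
      Ideal.Quotient.eq_zero_iff_mem.mpr (Ideal.mem_map_of_mem _ hx)) fun χ hχ => ?_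
  let L := RingEquiv.ofBijective (latticeRestrictHom p ∅).toRingHom
    (latticeRestrictHom_bijective p ∅ (MF.hasIntegralStructure p 2))
  let χ' : heckeLatticeAlgebra p ∅ →+* ZMod (eisensteinNumerator p) :=
    χ.comp L.symm.toRingHom
  refine ⟨Ideal.Quotient.lift I χ' fun y hy =>
    RingHom.mem_ker.mp ((Ideal.map_le_iff_le_comap.mpr fun x hx => ?_) hy)⟩
  rw [Ideal.mem_comap, RingHom.mem_ker]
  change χ (L.symm (L (heckeEvalForms p 2 x))) = 0
  rw [RingEquiv.symm_apply_apply]
  exact ker_of_isEisChar p hχ x hx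

end FermatAgent.Period.Eis
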