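import Fermat.Agent.Period.Eisenstein.LevelOne
import Fermat.Prelude.Thm_UpperHalfPlane_qCoeff_heckeU

/-!
# Pairs of expansions at the two cusps of `Γ₀(p)` and the trace to level one

The Atkin–Lehner map `al` preserves forms on `Γ₀(p)` and squares to a scalar (`al_mem`, `al_al`).
The trace `trFn` over the `p + 1` cosets lands in level one (`trFn_mem`), with coefficients read off
from the expansions of a form and of its image (`coeff_trFn`). Such pairs of series (`IsPair`, and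
`IsPairZ` for integral ones scaled by a power of `p`) are closed under the ring operations and
contain level one forms (`IsPairZ.mul`, `IsPairZ.levelOne`); `IsPairZ.trace` gives the integral
trace.
-/

set_option autoImplicit false

noncomputable section

open scoped MatrixGroups ModularForm Manifold Topology Real PowerSeries
open UpperHalfPlane hiding I
open Filter Function Complex Matrix.SpecialLinearGroup CongruenceSubgroup

namespace FermatAgent.Period.Eis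

local notation "Sₘ" => (ModularGroup.S : SL(2, ℤ))
local notation "Tₘ" => (ModularGroup.T : SL(2, ℤ))

variable {p : ℕ}

/-- Membership in `Γ₀(p)`. -/
lemma mem_Gamma0_iff {γ : SL(2, ℤ)} : γ ∈ Gamma0 p ↔ (p : ℤ) ∣ γ 1 0 := by
  rw [Gamma0_mem, ← ZMod.intCast_zmod_eq_zero_iff_dvd]

/-- The entries of `S T ^ j`. -/
lemma coe_S_T_pow (j : ℕ) :
    ((Sₘ * Tₘ ^ j : SL(2, ℤ)) : Matrix (Fin 2) (Fin 2) ℤ) = !![0, -1; 1, (j : ℤ)] := by
  rw [Matrix.SpecialLinearGroup.coe_mul, ← zpow_natCast Tₘ, ModularGroup.coe_T_zpow,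
    ModularGroup.coe_S]
  simp

lemma mul_mem_modFns₂ {Γ : Subgroup SL(2, ℤ)} {a b : ℤ} {F G : ℍ → ℂ} (hF : F ∈ modFns Γ a)
    (hG : G ∈ modFns Γ b) : F * G ∈ modFns Γ (a + b) := by
  refine ⟨hF.1.mul hG.1, fun γ h => ?_, fun δ => ?_⟩
  · rw [ModularForm.mul_slash_SL2, hF.2.1 γ h, hG.2.1 γ h]
  · rw [ModularForm.mul_slash_SL2]
    exact (hF.2.2 δ).mul (hG.2.2 δ)

/-- Forms on `Γ₀(p)` are periodic, holomorphic and bounded at infinity. -/
lemma mem_hPer_of_mem {k : ℤ} {F : ℍ → ℂ} (hF : F ∈ modFns (Gamma0 p) k) : F ∈ MF.hPer := by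
  refine ⟨⟨hF.1, by simpa [SlashAction.slash_one] using hF.2.2 1⟩, ?_⟩
  have h : ∀ τ : ℍ, F ((1 : ℝ) +ᵥ τ) = F τ := fun τ => by
    have := congrFun (hF.2.1 Tₘ (by simp [ModularGroup.coe_T])) τ
    rwa [ModularForm.SL_slash_apply, UpperHalfPlane.modular_T_smul,
      show denom (Tₘ : GL (Fin 2) ℝ) τ = 1 by
        simp [ModularGroup.denom_apply, ModularGroup.coe_T], one_zpow, mul_one]
      at this
  simpa using Curve.periodic_comp_ofComplex_of_vadd h

variable (p) in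
/-- Multiplication by `p` on the upper half plane. -/
def dil (τ : ℍ) : ℍ := ModularForm.heckeDiagMatrix p • τ

variable (p) in
/-- `τ ↦ (F ∣ S)(pτ)`. -/
def al (k : ℤ) (F : ℍ → ℂ) : ℍ → ℂ := fun τ => (F ∣[k] Sₘ) (dil p τ)

lemma al_mul (a b : ℤ) (F G : ℍ → ℂ) : al p (a + b) (F * G) = al p a F * al p b G := by
  funext τ
  simp [al, ModularForm.mul_slash_SL2]

lemma al_add (k : ℤ) (F G : ℍ → ℂ) : al p k (F + G) = al p k F + al p k G := by
  funext τ
  simp [al, SlashAction.add_slash]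

lemma al_smul (k : ℤ) (c : ℂ) (F : ℍ → ℂ) : al p k (c • F) = c • al p k F := by
  funext τ
  simp [al, ModularForm.SL_smul_slash]

variable [Fact p.Prime]

/-- `p` is nonzero. -/
lemma p_ne_zero : p ≠ 0 := (Fact.out : p.Prime).ne_zero

/-- `p` is nonzero in `ℂ`. -/
lemma pC_ne_zero : (p : ℂ) ≠ 0 := Nat.cast_ne_zero.mpr p_ne_zero

/-- The coordinate of the dilated point. -/
lemma coe_dil (τ : ℍ) : ((dil p τ : ℍ) : ℂ) = (p : ℂ) * τ :=
  ModularForm.coe_heckeDiagMatrix_smul p_ne_zero τ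

lemma dil_im (τ : ℍ) : (dil p τ).im = p * τ.im := by
  rw [← UpperHalfPlane.coe_im, coe_dil]
  simp

/-- Dilation tends to infinity. -/
lemma tendsto_dil : Tendsto (dil p) atImInfty atImInfty := by
  rw [atImInfty, tendsto_comap_iff]
  have : UpperHalfPlane.im ∘ dil p = fun τ => (p : ℝ) * τ.im := funext dil_im
  rw [this]
  exact tendsto_comap.const_mul_atTop (Nat.cast_pos.mpr (Nat.pos_of_ne_zero p_ne_zero))

lemma al_eq_smul_slash (k : ℤ) (F : ℍ → ℂ) :
    al p k F = ((p : ℂ) ^ (k - 1))⁻¹ • ((F ∣[k] Sₘ) ∣[k] ModularForm.heckeDiagMatrix p) := by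
  funext τ
  rw [Pi.smul_apply, smul_eq_mul, ModularForm.slash_heckeDiagMatrix_apply k p_ne_zero, ← mul_assoc,
    inv_mul_cancel₀ (zpow_ne_zero _ pC_ne_zero), one_mul]
  rfl

lemma al_invariant {k : ℤ} {F : ℍ → ℂ} (hF : ∀ γ ∈ Gamma0 p, F ∣[k] γ = F) {γ : SL(2, ℤ)}
    (hγ : γ ∈ Gamma0 p) : (al p k F) ∣[k] γ = al p k F := by
  obtain ⟨c', hc'⟩ := mem_Gamma0_iff.mp hγ
  have hdet := γ.det_coe
  rw [Matrix.det_fin_two, hc'] at hdet
  let γ' : SL(2, ℤ) := ⟨!![γ 1 1, -c'; -(p : ℤ) * γ 0 1, γ 0 0], by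
    rw [Matrix.det_fin_two_of]; linear_combination hdet⟩
  have hγ' : γ' ∈ Gamma0 p := mem_Gamma0_iff.mpr ⟨-γ 0 1, by simp [γ']⟩
  have hmat : (Sₘ : GL (Fin 2) ℝ) * ModularForm.heckeDiagMatrix p * (γ : GL (Fin 2) ℝ) =
      (γ' : GL (Fin 2) ℝ) * ((Sₘ : GL (Fin 2) ℝ) * ModularForm.heckeDiagMatrix p) := by
    have hg : ((γ' : SL(2, ℤ)) : Matrix (Fin 2) (Fin 2) ℤ) =
        !![γ 1 1, -c'; -(p : ℤ) * γ 0 1, γ 0 0] := rfl
    ext i j
    fin_cases i <;> fin_cases j <;>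
      simp [Matrix.mul_apply, Fin.sum_univ_two, ModularForm.val_heckeDiagMatrix p_ne_zero,
        ModularGroup.coe_S, hg, hc'] <;> ring
  rw [al_eq_smul_slash, ModularForm.SL_smul_slash]
  congr 1
  simp only [ModularForm.SL_slash]
  rw [← SlashAction.slash_mul, ← SlashAction.slash_mul]
  conv_lhs => rw [show (Sₘ : GL (Fin 2) ℝ) * (ModularForm.heckeDiagMatrix p * (γ : GL (Fin 2) ℝ)) =
    (γ' : GL (Fin 2) ℝ) * ((Sₘ : GL (Fin 2) ℝ) * ModularForm.heckeDiagMatrix p) by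
      rw [← mul_assoc]; exact hmat]
  rw [SlashAction.slash_mul, ← ModularForm.SL_slash, hF γ' hγ', SlashAction.slash_mul]

lemma slash_S_T_pow (k : ℤ) (F : ℍ → ℂ) (j : ℕ) (τ : ℍ) :
    (F ∣[k] (Sₘ * Tₘ ^ j)) τ = al p k F (ModularForm.heckeMatrix p j • τ) := by
  have hden : denom ((Tₘ ^ j : SL(2, ℤ)) : GL (Fin 2) ℝ) τ = 1 := by
    rw [← zpow_natCast Tₘ j, ModularGroup.denom_apply, ModularGroup.coe_T_zpow]
    simp
  rw [SlashAction.slash_mul, ModularForm.SL_slash_apply, hden, one_zpow, mul_one]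
  unfold al
  refine congrArg (F ∣[k] Sₘ) ?_
  refine UpperHalfPlane.ext ?_
  rw [coe_dil, ModularForm.coe_heckeMatrix_smul p_ne_zero, mul_div_cancel₀ _ pC_ne_zero,
    ← zpow_natCast Tₘ j, UpperHalfPlane.modular_T_zpow_smul, UpperHalfPlane.coe_vadd]
  push_cast
  ring

/-- An element lies in `Γ₀(p)` or in a coset of some `S T ^ j`. -/
lemma coset_cases (δ : SL(2, ℤ)) :
    δ ∈ Gamma0 p ∨ ∃ j : Fin p, δ * (Sₘ * Tₘ ^ (j : ℕ))⁻¹ ∈ Gamma0 p := by
  by_cases h : δ ∈ Gamma0 p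
  · exact Or.inl h
  have hc : ((δ 1 0 : ℤ) : ZMod p) ≠ 0 := fun h0 => h (Gamma0_mem.mpr h0)
  let j : ZMod p := (δ 1 1 : ZMod p) / (δ 1 0 : ZMod p)
  refine Or.inr ⟨⟨j.val, ZMod.val_lt j⟩, Gamma0_mem.mpr ?_⟩
  have e : (δ * (Sₘ * Tₘ ^ j.val)⁻¹) 1 0 = δ 1 0 * (j.val : ℤ) - δ 1 1 := by
    rw [Matrix.SpecialLinearGroup.coe_mul, Matrix.SpecialLinearGroup.coe_inv, coe_S_T_pow]
    simp [Matrix.adjugate_fin_two, Matrix.mul_apply, Fin.sum_univ_two]
    ring
  rw [e, Int.cast_sub, Int.cast_mul, Int.cast_natCast, ZMod.natCast_val, ZMod.cast_id', id_eq]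
  simp only [j]
  rw [mul_div_cancel₀ _ hc, sub_self]

lemma al_al {k : ℤ} {F : ℍ → ℂ} (hF : F ∈ modFns (Gamma0 p) k) :
    al p k (al p k F) = ((p : ℂ) ^ k)⁻¹ • F := by
  rcases Int.even_or_odd k with hev | hodd
  swap
  · rw [eq_zero_of_odd_weight (by simp) hF hodd]
    have h0 : al p k (0 : ℍ → ℂ) = 0 := by
      funext τ
      simp [al, SlashAction.zero_slash]
    rw [h0, h0, smul_zero]
  funext τ
  have e1 : ∀ (G : ℍ → ℂ) (z : ℍ),
      (G ∣[k] Sₘ) z = G (Sₘ • z) * ((z : ℂ) ^ k)⁻¹ := fun G z => by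
    rw [ModularForm.SL_slash_apply]
    simp [ModularGroup.denom_apply, ModularGroup.coe_S]
  have hp : (p : ℂ) ≠ 0 := pC_ne_zero
  have hτ : (τ : ℂ) ≠ 0 := τ.ne_zero
  have e2 : Sₘ • dil p (Sₘ • dil p τ) = τ := by
    refine UpperHalfPlane.ext ?_
    rw [UpperHalfPlane.modular_S_smul, UpperHalfPlane.coe_mk, coe_dil,
      UpperHalfPlane.modular_S_smul, UpperHalfPlane.coe_mk, coe_dil]
    field_simp
  have e3 : ((dil p (Sₘ • dil p τ) : ℍ) : ℂ) = -(τ : ℂ)⁻¹ := by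
    rw [coe_dil, UpperHalfPlane.modular_S_smul, UpperHalfPlane.coe_mk, coe_dil]
    field_simp
  rw [show al p k (al p k F) τ = (al p k F ∣[k] Sₘ) (dil p τ) from rfl, e1,
    show al p k F (Sₘ • dil p τ) = (F ∣[k] Sₘ) (dil p (Sₘ • dil p τ)) from rfl, e1, e2, e3,
    coe_dil, Pi.smul_apply, smul_eq_mul, hev.neg_zpow, inv_zpow, inv_inv, mul_zpow, mul_inv]
  field_simp [zpow_ne_zero k hτ, zpow_ne_zero k hp]

lemma al_mem {k : ℤ} {F : ℍ → ℂ} (hF : F ∈ modFns (Gamma0 p) k) :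
    al p k F ∈ modFns (Gamma0 p) k := by
  have hinv : ∀ γ ∈ Gamma0 p, al p k F ∣[k] γ = al p k F := fun γ hγ => al_invariant hF.2.1 hγ
  refine ⟨?_, hinv, fun δ => ?_⟩
  · rw [al_eq_smul_slash]
    exact ((hF.1.slash k _).slash k _).const_smul _
  have hdil : IsBoundedAtImInfty (al p k F) := (hF.2.2 Sₘ).comp_tendsto (tendsto_dil (p := p))
  rcases coset_cases (p := p) δ with h | ⟨j, hj⟩
  · rw [hinv δ h]; exact hdil

  rw [show δ = δ * (Sₘ * Tₘ ^ (j : ℕ))⁻¹ * (Sₘ * Tₘ ^ (j : ℕ)) by group,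
    SlashAction.slash_mul, hinv _ hj]
  have e : (al p k F ∣[k] (Sₘ * Tₘ ^ (j : ℕ))) =
      (((p : ℂ) ^ k)⁻¹ • F) ∘ fun τ => ModularForm.heckeMatrix p j • τ := by
    funext τ
    rw [slash_S_T_pow (p := p), al_al hF]
    rfl
  rw [e]
  have hb : IsBoundedAtImInfty (((p : ℂ) ^ k)⁻¹ • F) := by
    have h1 : IsBoundedAtImInfty F := by simpa [SlashAction.slash_one] using hF.2.2 1
    exact h1.const_smul_left _
  have ht : Tendsto (fun τ : ℍ => ModularForm.heckeMatrix p j • τ) atImInfty atImInfty := by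
    rw [UpperHalfPlane.atImInfty, tendsto_comap_iff]
    have : UpperHalfPlane.im ∘ (fun τ => ModularForm.heckeMatrix p j • τ) =
        fun τ : ℍ => τ.im / p := by
      funext τ
      rw [Function.comp_apply, ← UpperHalfPlane.coe_im,
        ModularForm.coe_heckeMatrix_smul p_ne_zero, Complex.div_natCast_im]
      simp
    rw [this]
    exact tendsto_comap.atTop_div_const (Nat.cast_pos.mpr (Nat.pos_of_ne_zero p_ne_zero))
  exact hb.comp_tendsto ht

variable (p) in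
/-- The sum over the cosets of `Γ₀(p)`. -/
def trFn (k : ℤ) (F : ℍ → ℂ) : ℍ → ℂ :=
  ∑ x : SL(2, ℤ) ⧸ Gamma0 p, F ∣[k] (x.out)⁻¹

omit [Fact (Nat.Prime p)] in
lemma slash_out_inv {k : ℤ} {F : ℍ → ℂ} (hF : ∀ γ ∈ Gamma0 p, F ∣[k] γ = F) (g : SL(2, ℤ)) :
    F ∣[k] ((QuotientGroup.mk g : SL(2, ℤ) ⧸ Gamma0 p).out)⁻¹ = F ∣[k] g⁻¹ := by
  obtain ⟨γ, hγ⟩ := QuotientGroup.mk_out_eq_mul (Gamma0 p) g
  rw [hγ, mul_inv_rev, SlashAction.slash_mul, hF _ (inv_mem γ.2)]

lemma trFn_mem {k : ℤ} {F : ℍ → ℂ} (hF : F ∈ modFns (Gamma0 p) k) :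
    trFn p k F ∈ modFns ⊤ k := by
  refine ⟨?_, fun g _ => ?_, fun δ => ?_⟩
  · exact Finset.sum_induction _ (fun f : ℍ → ℂ => MDiff f) (fun a b => MDifferentiable.add)
      mdifferentiable_const (fun x _ => hF.1.slash k _)
  · rw [trFn, SlashAction.sum_slash]
    refine Fintype.sum_equiv (MulAction.toPerm g⁻¹) _ _ fun x => ?_
    have e : g⁻¹ • x = QuotientGroup.mk (g⁻¹ * x.out) := by
      conv_lhs => rw [← QuotientGroup.out_eq' x]
      rfl
    rw [MulAction.toPerm_apply, e, slash_out_inv hF.2.1, mul_inv_rev, inv_inv,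
      SlashAction.slash_mul]
  · rw [trFn, SlashAction.sum_slash]
    exact Finset.sum_induction _ (fun f : ℍ → ℂ => IsBoundedAtImInfty f)
      (fun a b => Asymptotics.IsBigO.add) zero_form_isBoundedAtImInfty
      (fun x _ => by rw [← SlashAction.slash_mul]; exact hF.2.2 _)

variable (p) in
/-- Representatives of the cosets. -/
def cosetRep : Option (Fin p) → SL(2, ℤ) ⧸ Gamma0 p
  | none => QuotientGroup.mk 1
  | some j => QuotientGroup.mk (Sₘ * Tₘ ^ (j : ℕ))⁻¹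

/-- The representatives parametrise the cosets bijectively. -/
lemma cosetRep_bijective : Bijective (cosetRep p) := by
  have hS : ∀ j : ℕ, Sₘ * Tₘ ^ j ∉ Gamma0 p := fun j h => by
    rw [mem_Gamma0_iff, coe_S_T_pow] at h
    simp at h
    exact (Fact.out : p.Prime).ne_one
      (Int.natCast_inj.mp (Int.eq_one_of_dvd_one (Int.natCast_nonneg p) (by simpa using h)))
  refine ⟨?_, fun x => ?_⟩
  · rintro (_ | i) (_ | j) h
    · rfl
    · have := QuotientGroup.eq.mp h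
      rw [inv_one, one_mul, inv_mem_iff] at this
      exact absurd this (hS _)
    · have := QuotientGroup.eq.mp h
      rw [mul_one, inv_inv] at this
      exact absurd this (hS _)
    · have := QuotientGroup.eq.mp h
      rw [inv_inv, mem_Gamma0_iff] at this
      have e : ((Sₘ * Tₘ ^ (i : ℕ)) * (Sₘ * Tₘ ^ (j : ℕ))⁻¹) 1 0 = (j : ℤ) - (i : ℤ) := by
        rw [Matrix.SpecialLinearGroup.coe_mul, Matrix.SpecialLinearGroup.coe_inv, coe_S_T_pow,
          coe_S_T_pow]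
        simp [Matrix.adjugate_fin_two, Matrix.mul_apply, Fin.sum_univ_two]
        ring
      rw [e] at this
      have hij : (i : ℕ) = (j : ℕ) := by
        have h0 : ((j : ℤ) - (i : ℤ)) = 0 := Int.eq_zero_of_abs_lt_dvd this (by
          rw [abs_lt]; have := i.2; have := j.2; omega)
        omega
      exact congrArg some (Fin.ext hij)
  · induction x using QuotientGroup.induction_on with
    | H g =>
      rcases coset_cases (p := p) g⁻¹ with h | ⟨j, hj⟩
      · exact ⟨none, QuotientGroup.eq.mpr (by simpa using h)⟩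
      · refine ⟨some j, QuotientGroup.eq.mpr ?_⟩
        rw [inv_inv, ← inv_mem_iff, mul_inv_rev]
        exact hj

lemma trFn_eq {k : ℤ} {F : ℍ → ℂ} (hF : F ∈ modFns (Gamma0 p) k) :
    trFn p k F = F + (p : ℂ) • ModularForm.heckeU k p (al p k F) := by
  rw [trFn, ← Fintype.sum_equiv (Equiv.ofBijective _ cosetRep_bijective)
    (fun o => F ∣[k] ((cosetRep p o).out)⁻¹) _ (fun o => rfl), Fintype.sum_option]
  simp only [cosetRep, slash_out_inv hF.2.1, inv_one, inv_inv, SlashAction.slash_one]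
  congr 1
  funext τ
  rw [Finset.sum_apply, Pi.smul_apply, smul_eq_mul, ModularForm.heckeU_apply k p_ne_zero,
    ← mul_assoc, mul_inv_cancel₀ pC_ne_zero, one_mul, ← Fin.sum_univ_eq_sum_range]
  exact Finset.sum_congr rfl fun j _ => slash_S_T_pow k F j τ

lemma coeff_trFn {k : ℤ} {F : ℍ → ℂ} (hF : F ∈ modFns (Gamma0 p) k) (n : ℕ) :
    (qS (trFn p k F)).coeff n = (qS F).coeff n + (p : ℂ) * (qS (al p k F)).coeff (n * p) := by
  have ha := mem_hPer_of_mem (al_mem hF)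
  have hper : Periodic (al p k F ∘ ofComplex) 1 := by simpa using ha.2
  have htr : trFn p k F ∈ MF.hPer := mem_hPer_top (trFn_mem hF)
  have hU : (p : ℂ) • ModularForm.heckeU k p (al p k F) ∈ MF.hPer := by
    have := sub_mem htr (mem_hPer_of_mem hF)
    rwa [trFn_eq hF, add_sub_cancel_left] at this
  have hU' : ModularForm.heckeU k p (al p k F) ∈ MF.hPer := by
    have := Subalgebra.smul_mem MF.hPer hU (p : ℂ)⁻¹
    rwa [inv_smul_smul₀ pC_ne_zero] at this
  rw [trFn_eq hF, qS_add (mem_hPer_of_mem hF) hU, qS_smul _ hU', map_add,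
    PowerSeries.coeff_C_mul]
  congr 2
  have := UpperHalfPlane.qCoeff_heckeU hper ha.1.1 ha.1.2 k (p_ne_zero (p := p)) n
  rwa [ModularForm.coeffHeckeU_apply] at this

/-- Dilation substitutes `q ↦ q ^ p` in expansions. -/
lemma qS_comp_dil {X : ℍ → ℂ} (hX : X ∈ MF.hPer) (hXd : (fun τ => X (dil p τ)) ∈ MF.hPer) :
    qS (fun τ => X (dil p τ)) = PowerSeries.expand p p_ne_zero (qS X) := by
  set c : ℕ → ℂ := fun n => (PowerSeries.expand p p_ne_zero (qS X)).coeff n with hc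
  have hsum : ∀ τ : ℍ, HasSum (fun m => c m • Function.Periodic.qParam 1 τ ^ m) (X (dil p τ)) := by
    intro τ
    have h := hasSum_qExpansion (h := 1) one_pos (by simpa using hX.2) hX.1.1 hX.1.2 (dil p τ)
    rw [← (mul_right_injective₀ (p_ne_zero (p := p))).hasSum_iff]
    · refine h.congr_fun fun m => ?_
      simp only [Function.comp_apply, hc, PowerSeries.coeff_expand_mul]
      congr 1
      rw [pow_mul, coe_dil]
      congr 1
      simp only [Function.Periodic.qParam, Complex.ofReal_one, div_one, ← Complex.exp_nat_mul]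
      ring_nf
    · intro n hn
      simp only [hc]
      rw [PowerSeries.coeff_expand_of_not_dvd p p_ne_zero (qS X) (m := n)
          (fun hd => hn ⟨n / p, Nat.mul_div_cancel' hd⟩),
        zero_smul]
  refine PowerSeries.ext fun n => ?_
  let _ : FunLike (ℍ → ℂ) ℍ ℂ := ⟨id, fun _ _ h => h⟩
  exact (UpperHalfPlane.qExpansion_coeff_unique (h := 1) (c := c) (fun τ => X (dil p τ)) one_pos
    (MF.analyticAt_cuspFunction_of_mem hXd) hsum n).symm

variable (p) in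
/-- Expansions at the two cusps of a modular form for `Γ₀(p)`. -/
def IsPair (k : ℤ) (u v : ℂ⟦X⟧) : Prop :=
  ∃ F ∈ modFns (Gamma0 p) k, qS F = u ∧ qS (al p k F) = v

variable (p) in
/-- Integral expansions, the second one scaled by `p ^ e`. -/
def IsPairZ (k : ℤ) (e : ℕ) (U V : ℤ⟦X⟧) : Prop :=
  IsPair p k (toC U) (PowerSeries.C ((p : ℂ) ^ e)⁻¹ * toC V)

lemma IsPair.mul {a b c : ℤ} {u v u' v' : ℂ⟦X⟧} (h : IsPair p a u v) (h' : IsPair p b u' v')
    (habc : a + b = c) : IsPair p c (u * u') (v * v') := by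
  subst habc
  obtain ⟨F, hF, rfl, rfl⟩ := h
  obtain ⟨G, hG, rfl, rfl⟩ := h'
  exact ⟨F * G, mul_mem_modFns₂ hF hG, qS_mul (mem_hPer_of_mem hF) (mem_hPer_of_mem hG), by
    rw [al_mul, qS_mul (mem_hPer_of_mem (al_mem hF)) (mem_hPer_of_mem (al_mem hG))]⟩

lemma IsPair.add {a : ℤ} {u v u' v' : ℂ⟦X⟧} (h : IsPair p a u v) (h' : IsPair p a u' v') :
    IsPair p a (u + u') (v + v') := by
  obtain ⟨F, hF, rfl, rfl⟩ := h
  obtain ⟨G, hG, rfl, rfl⟩ := h'
  exact ⟨F + G, add_mem hF hG, qS_add (mem_hPer_of_mem hF) (mem_hPer_of_mem hG), by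
    rw [al_add, qS_add (mem_hPer_of_mem (al_mem hF)) (mem_hPer_of_mem (al_mem hG))]⟩

lemma IsPair.smul {a : ℤ} {u v : ℂ⟦X⟧} (h : IsPair p a u v) (c : ℂ) :
    IsPair p a (PowerSeries.C c * u) (PowerSeries.C c * v) := by
  obtain ⟨F, hF, rfl, rfl⟩ := h
  exact ⟨c • F, Submodule.smul_mem _ c hF, qS_smul c (mem_hPer_of_mem hF), by
    rw [al_smul, qS_smul c (mem_hPer_of_mem (al_mem hF))]⟩

/-- The pair at the two cusps exchanged. -/
lemma IsPair.swap {k : ℤ} {u v : ℂ⟦X⟧} (h : IsPair p k u v) :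
    IsPair p k v (PowerSeries.C ((p : ℂ) ^ k)⁻¹ * u) := by
  obtain ⟨F, hF, rfl, rfl⟩ := h
  exact ⟨al p k F, al_mem hF, rfl, by rw [al_al hF, qS_smul _ (mem_hPer_of_mem hF)]⟩

/-- In weight two the expansions at the two cusps sum to zero in trace. -/
lemma IsPair.weight_two {u v : ℂ⟦X⟧} (h : IsPair p 2 u v) (n : ℕ) :
    u.coeff n + (p : ℂ) * v.coeff (n * p) = 0 := by
  obtain ⟨F, hF, rfl, rfl⟩ := h
  have := coeff_trFn hF n
  rw [eq_zero_of_weight_two (trFn_mem hF), qS_zero, map_zero] at this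
  exact this.symm

omit [Fact (Nat.Prime p)] in
lemma isPair_const (c : ℂ) : IsPair p 0 (PowerSeries.C c) (PowerSeries.C c) :=
  ⟨fun _ => c, const_mem_modFns c, qS_const c, by
    rw [show al p 0 (fun _ : ℍ => c) = fun _ => c from funext fun τ =>
      congrFun (ModularForm.is_invariant_const Sₘ c) (dil p τ), qS_const]⟩

lemma isPair_levelOne {k : ℤ} {X : ℍ → ℂ} (hX : X ∈ modFns ⊤ k) :
    IsPair p k (qS X) (PowerSeries.expand p p_ne_zero (qS X)) := by
  have hX0 : X ∈ modFns (Gamma0 p) k :=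
    ⟨hX.1, fun γ _ => hX.2.1 γ (Subgroup.mem_top γ), hX.2.2⟩
  have e : al p k X = fun τ => X (dil p τ) := by
    funext τ
    simp [al, hX.2.1 Sₘ (Subgroup.mem_top _)]
  refine ⟨X, hX0, rfl, ?_⟩
  rw [e, qS_comp_dil (mem_hPer_top hX) (e ▸ mem_hPer_of_mem (al_mem hX0))]

namespace IsPairZ

variable {k a b c : ℤ} {e e' : ℕ} {U V U' V' : ℤ⟦X⟧}

/-- Integral pairs multiply. -/
lemma mul (h : IsPairZ p a e U V) (h' : IsPairZ p b e' U' V') (habc : a + b = c) :
    IsPairZ p c (e + e') (U * U') (V * V') := by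
  have := IsPair.mul h h' habc
  rw [mul_mul_mul_comm, ← map_mul, ← map_mul, ← map_mul, ← mul_inv, ← pow_add] at this
  exact this

/-- Integral pairs add. -/
lemma add (h : IsPairZ p a e U V) (h' : IsPairZ p a e U' V') :
    IsPairZ p a e (U + U') (V + V') := by
  have := IsPair.add h h'
  rw [← mul_add, ← map_add, ← map_add] at this
  exact this

/-- Integral pairs scale by integers. -/
lemma intMul (h : IsPairZ p a e U V) (m : ℤ) :
    IsPairZ p a e ((m : ℤ⟦X⟧) * U) ((m : ℤ⟦X⟧) * V) := by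
  have := IsPair.smul h (m : ℂ)
  rw [mul_left_comm, map_intCast, ← map_intCast toC, ← map_mul, ← map_mul] at this
  exact this

/-- Integral pairs subtract. -/
lemma sub (h : IsPairZ p a e U V) (h' : IsPairZ p a e U' V') :
    IsPairZ p a e (U - U') (V - V') := by
  have := h.add (h'.intMul (-1))
  simpa [sub_eq_add_neg] using this

/-- The exponent of an integral pair may be raised. -/
lemma raise (h : IsPairZ p a e U V) (d : ℕ) :
    IsPairZ p a (e + d) U ((p : ℤ⟦X⟧) ^ d * V) := by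
  have h2 : PowerSeries.C ((p : ℂ) ^ (e + d))⁻¹ * toC ((p : ℤ⟦X⟧) ^ d * V) =
      PowerSeries.C ((p : ℂ) ^ e)⁻¹ * toC V := by
    rw [map_mul, map_pow, map_natCast, ← mul_assoc]
    congr 1
    rw [← map_natCast (PowerSeries.C : ℂ →+* ℂ⟦X⟧), ← map_pow, ← map_mul]
    congr 1
    rw [pow_add, mul_inv, mul_assoc, inv_mul_cancel₀ (pow_ne_zero _ pC_ne_zero), mul_one]
  rw [IsPairZ, h2]
  exact h

/-- Powers of an integral pair. -/
lemma pow (h : IsPairZ p a e U V) : ∀ r : ℕ, IsPairZ p (r * a) (r * e) (U ^ r) (V ^ r)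
  | 0 => by
    simpa [IsPairZ] using isPair_const (p := p) 1
  | r + 1 => by
    rw [pow_succ, pow_succ, Nat.succ_mul]
    exact (pow h r).mul h (by push_cast; ring)

/-- A common integer factor cancels from an integral pair. -/
lemma of_intMul {m : ℤ} (hm : m ≠ 0)
    (h : IsPairZ p a e ((m : ℤ⟦X⟧) * U) ((m : ℤ⟦X⟧) * V)) : IsPairZ p a e U V := by
  have h1 := IsPair.smul h (m : ℂ)⁻¹
  have hm' : PowerSeries.C (m : ℂ)⁻¹ * (toC (m : ℤ⟦X⟧)) = 1 := by
    rw [map_intCast toC, ← map_intCast (PowerSeries.C : ℂ →+* ℂ⟦X⟧), ← map_mul,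
      inv_mul_cancel₀ (Int.cast_ne_zero.mpr hm), map_one]
  rwa [mul_left_comm, map_mul, map_mul, ← mul_assoc, ← mul_assoc _ (toC (m : ℤ⟦X⟧)) (toC V), hm',
    one_mul, one_mul] at h1

/-- A level one form gives a pair. -/
lemma levelOne {X : ℍ → ℂ} {x : ℤ⟦X⟧} (hX : X ∈ modFns ⊤ k) (hx : qS X = toC x) :
    IsPairZ p k 0 x (PowerSeries.expand p p_ne_zero x) := by
  have h := isPair_levelOne (p := p) hX
  rw [hx] at h
  unfold IsPairZ
  rw [pow_zero, inv_one, map_one, one_mul]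
  rwa [toC, PowerSeries.map_expand]

end IsPairZ

variable (p) in
/-- The expansion of the scaled trace. -/
def trSer (e : ℕ) (U V : ℤ⟦X⟧) : ℤ⟦X⟧ :=
  PowerSeries.mk fun n => (p : ℤ) ^ e * U.coeff n + (p : ℤ) * V.coeff (n * p)

/-- The trace to level one of an integral pair. -/
lemma IsPairZ.trace {k : ℤ} {e : ℕ} {U V : ℤ⟦X⟧} (h : IsPairZ p k e U V) :
    ∃ G ∈ modFns ⊤ k, qS G = toC (trSer p e U V) := by
  obtain ⟨F, hF, h1, h2⟩ := h
  refine ⟨((p : ℂ) ^ e) • trFn p k F, Submodule.smul_mem _ _ (trFn_mem hF),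
    PowerSeries.ext fun n => ?_⟩
  rw [qS_smul _ (mem_hPer_top (trFn_mem hF)), PowerSeries.coeff_C_mul, coeff_trFn hF, h1, h2,
    PowerSeries.coeff_C_mul, coeff_toC, coeff_toC, coeff_toC, trSer, PowerSeries.coeff_mk]
  push_cast
  field_simp [pow_ne_zero e (pC_ne_zero (p := p))]

end FermatAgent.Period.Eis
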